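import Mathlib
import Fermat.Prelude.Def_AlgebraicCurve_DivisorClassGroup
import Fermat.Agent.S24.FF.Dict

/-!
# S24, piece FF1 (helper72): the function-field layer.

`K` algebraically closed of characteristic zero, `x : F` transcendental over `K`,
`F / K(x)` finite.
-/

set_option autoImplicit false

noncomputable section

open AlgebraicCurve IntermediateField

namespace Fermat.Agent.S24

section FF1

variable {K F : Type*} [Field K] [Field F] [Algebra K F]

/-- Exchange: if `F / K(x)` is algebraic and `f` is transcendental over `K`, then `x` is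
algebraic over `K(f)`. -/
theorem h72_isAlgebraic_of_transcendental (x : F) (hx : Transcendental K x)
    [Algebra.IsAlgebraic K⟮x⟯ F] (f : F) (hf : Transcendental K f) :
    IsAlgebraic K⟮f⟯ x :=
  isAlgebraic_adjoin_iff.mpr (.adjoin_singleton hx hf
    (isAlgebraic_adjoin_iff.mp (Algebra.IsAlgebraic.isAlgebraic f)))

/-- FF1c. For non-constant `f`, `F / K(f)` is again finite. -/
theorem ff_finite_of_transcendental (x : F) (hx : Transcendental K x)
    [FiniteDimensional K⟮x⟯ F] (f : F) (hf : Transcendental K f) :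
    FiniteDimensional K⟮f⟯ F :=
  let Fyx := restrictScalars K K⟮f⟯⟮x⟯
  let Fxy := restrictScalars K K⟮x⟯⟮f⟯
  let : Algebra K⟮f⟯ Fyx := K⟮f⟯⟮x⟯.algebra
  let : Module K⟮f⟯ Fyx := Algebra.toModule
  let : SMul K⟮f⟯ Fyx := Algebra.toSMul
  let : Algebra K⟮x⟯ Fxy := K⟮x⟯⟮f⟯.algebra
  let : Module K⟮x⟯ Fxy := Algebra.toModule
  let : SMul K⟮x⟯ Fxy := Algebra.toSMul
  have : FiniteDimensional K⟮f⟯ Fyx :=
    adjoin.finiteDimensional
      (isAlgebraic_iff_isIntegral.mp (h72_isAlgebraic_of_transcendental x hx f hf))
  have : FiniteDimensional Fyx F := by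
    unfold Fyx
    rw [adjoin_simple_comm]
    have : IsScalarTower K⟮x⟯ Fxy F := isScalarTower_mid' K⟮x⟯⟮f⟯
    exact .right K⟮x⟯ Fxy F
  have : IsScalarTower K⟮f⟯ Fyx F := isScalarTower_mid' K⟮f⟯⟮x⟯
  .trans K⟮f⟯ Fyx F

section FF1a

/-- Every residue class at a place is algebraic over `K`. -/
theorem h72_residue_isAlgebraic (x : F) (hx : Transcendental K x) [FiniteDimensional K⟮x⟯ F]
    (v : Place K F) (b : v.toValuationSubring) :
    IsAlgebraic K (IsLocalRing.residue v.toValuationSubring b) := by
  by_contra hb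
  -- every nonzero polynomial in `b` is a unit of `O_v`
  have hunit : ∀ q : Polynomial K, q ≠ 0 → IsUnit (Polynomial.aeval b q) := by
    intro q hq
    by_contra hnu
    have h0 : IsLocalRing.residue v.toValuationSubring (Polynomial.aeval b q) = 0 :=
      (IsLocalRing.residue_eq_zero_iff _).mpr hnu
    apply hb
    refine ⟨q, hq, ?_⟩
    have h1 := Polynomial.aeval_algHom_apply
      (IsScalarTower.toAlgHom K v.toValuationSubring v.ResidueField) b q
    rw [IsScalarTower.coe_toAlgHom', IsLocalRing.ResidueField.algebraMap_eq] at h1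
    rw [h1, h0]
  have hcoe : ∀ q : Polynomial K,
      ((Polynomial.aeval b q : v.toValuationSubring) : F) = Polynomial.aeval (b : F) q := by
    intro q
    have h1 := Polynomial.aeval_algHom_apply
      (IsScalarTower.toAlgHom K v.toValuationSubring F) b q
    rw [IsScalarTower.coe_toAlgHom'] at h1
    exact h1.symm
  have hbtr : Transcendental K (b : F) := by
    rintro ⟨q, hq, hq0⟩
    have hu := hunit q hq
    rw [← hcoe] at hq0
    have : (Polynomial.aeval b q : v.toValuationSubring) = 0 := Subtype.ext hq0
    rw [this] at hu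
    exact not_isUnit_zero hu
  have : FiniteDimensional K⟮(b : F)⟯ F := ff_finite_of_transcendental x hx (b : F) hbtr
  have hle : ∀ y ∈ K⟮(b : F)⟯, y ∈ v.toValuationSubring := by
    intro y hy
    obtain ⟨r, s, rfl⟩ := (IntermediateField.mem_adjoin_simple_iff K y).mp hy
    by_cases hs : s = 0
    · rw [hs, map_zero, div_zero]
      exact v.toValuationSubring.zero_mem
    · obtain ⟨u, hu⟩ := hunit s hs
      have h2 : ((u : v.toValuationSubring) : F)
          * (((u⁻¹ : v.toValuationSubringˣ) : v.toValuationSubring) : F) = 1 := by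
        have := congrArg Subtype.val u.mul_inv
        exact this
      have hinv : (Polynomial.aeval (b : F) s)⁻¹
          = (((u⁻¹ : v.toValuationSubringˣ) : v.toValuationSubring) : F) := by
        rw [← hcoe, ← hu]
        exact inv_eq_of_mul_eq_one_right h2
      rw [div_eq_mul_inv, hinv, ← hcoe]
      exact v.toValuationSubring.mul_mem _ _ (Subtype.mem _) (Subtype.mem _)
  apply v.ne_top'
  rw [eq_top_iff]
  intro z _
  have hz : IsIntegral K⟮(b : F)⟯ z := Algebra.IsIntegral.isIntegral z
  let φ : K⟮(b : F)⟯ →+* v.toValuationSubring :=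
    (algebraMap K⟮(b : F)⟯ F).codRestrict v.toValuationSubring.toSubring (fun y => hle y y.2)
  have hz' : IsIntegral v.toValuationSubring ((RingHom.id F) z) :=
    IsIntegral.map_of_comp_eq φ (RingHom.id F) (by ext y; rfl) hz
  obtain ⟨y, hy⟩ := IsIntegrallyClosed.isIntegral_iff.mp hz'
  rw [RingHom.id_apply] at hy
  rw [← hy]
  exact y.2

/-- FF1a. Every place has degree one. -/
theorem ff_deg_eq_one [IsAlgClosed K] (x : F) (hx : Transcendental K x) [FiniteDimensional K⟮x⟯ F]
    (v : Place K F) : v.deg = 1 := by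
  have : Algebra.IsAlgebraic K v.ResidueField := by
    refine ⟨fun c => ?_⟩
    obtain ⟨b, rfl⟩ := IsLocalRing.residue_surjective c
    exact h72_residue_isAlgebraic x hx v b
  have : Algebra.IsIntegral K v.ResidueField := Algebra.IsAlgebraic.isIntegral
  exact Algebra.finrank_eq_one_iff_bijective_algebraMap.mpr
    IsAlgClosed.algebraMap_bijective_of_isIntegral

end FF1a

end FF1

end Fermat.Agent.S24
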