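import Mathlib

/-!
# S24 GC: abstract Galois counting of primes (GC1, GC3)
-/

set_option autoImplicit false

namespace Fermat.Agent.S24

open scoped Pointwise

section GC3

variable {Γ G : Type*} [Group Γ] [Group G]

/-- The bijection `Γ ⧸ Γ₀ ≃ G ⧸ H` induced by a surjection `π` with `π⁻¹ H = Γ₀`. -/
noncomputable def h1_quotEquiv (π : Γ →* G) (hπ : Function.Surjective π) (Γ₀ : Subgroup Γ)
    (H : Subgroup G) (hH : H.comap π = Γ₀) : Γ ⧸ Γ₀ ≃ G ⧸ H :=
  Equiv.ofBijective
    (Quotient.map' π (fun a b hab => by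
      rw [QuotientGroup.leftRel_apply] at hab ⊢
      rw [← hH, Subgroup.mem_comap, map_mul, map_inv] at hab
      exact hab))
    (by
      constructor
      · intro x y
        induction x using Quotient.inductionOn' with | _ a => ?_
        induction y using Quotient.inductionOn' with | _ b => ?_
        intro h
        simp only [Quotient.map'_mk''] at h
        rw [Quotient.eq''] at h ⊢
        rw [QuotientGroup.leftRel_apply] at h ⊢
        rw [← hH, Subgroup.mem_comap, map_mul, map_inv]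
        exact h
      · intro y
        induction y using Quotient.inductionOn' with | _ b => ?_
        obtain ⟨a, rfl⟩ := hπ b
        exact ⟨Quotient.mk'' a, rfl⟩)

theorem h1_quotEquiv_mk (π : Γ →* G) (hπ : Function.Surjective π) (Γ₀ : Subgroup Γ)
    (H : Subgroup G) (hH : H.comap π = Γ₀) (a : Γ) :
    h1_quotEquiv π hπ Γ₀ H hH (a : Γ ⧸ Γ₀) = ((π a : G) : G ⧸ H) := rfl

theorem h1_quotEquiv_smul (π : Γ →* G) (hπ : Function.Surjective π) (Γ₀ : Subgroup Γ)
    (H : Subgroup G) (hH : H.comap π = Γ₀) (g : Γ) (x : Γ ⧸ Γ₀) :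
    h1_quotEquiv π hπ Γ₀ H hH (g • x) = π g • h1_quotEquiv π hπ Γ₀ H hH x := by
  induction x using Quotient.inductionOn' with | _ a => ?_
  change h1_quotEquiv π hπ Γ₀ H hH ((g * a : Γ) : Γ ⧸ Γ₀) = _
  rw [h1_quotEquiv_mk, map_mul]
  rfl

/-- GC3. Orbit transfer along a surjection `π : Γ →* G` with `π⁻¹ H = Γ₀`. -/
theorem gc_orbits_transfer (π : Γ →* G)
    (hπ : Function.Surjective π) (Γ₀ : Subgroup Γ) (H : Subgroup G) (hH : H.comap π = Γ₀)
    (γ : Γ) :
    Nat.card (MulAction.orbitRel.Quotient (Subgroup.zpowers (π γ)) (G ⧸ H))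
      = Nat.card (MulAction.orbitRel.Quotient (Subgroup.zpowers γ) (Γ ⧸ Γ₀)) := by
  symm
  refine Nat.card_congr (Quotient.congr (h1_quotEquiv π hπ Γ₀ H hH) ?_)
  intro x y
  rw [MulAction.orbitRel_apply, MulAction.orbitRel_apply, MulAction.mem_orbit_iff,
    MulAction.mem_orbit_iff]
  constructor
  · rintro ⟨⟨g, hg⟩, rfl⟩
    obtain ⟨k, rfl⟩ := Subgroup.mem_zpowers_iff.mp hg
    refine ⟨⟨(π γ) ^ k, Subgroup.zpow_mem_zpowers _ k⟩, ?_⟩
    change (π γ) ^ k • _ = h1_quotEquiv π hπ Γ₀ H hH ((γ ^ k) • y)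
    rw [h1_quotEquiv_smul, map_zpow]
  · rintro ⟨⟨g, hg⟩, hgy⟩
    obtain ⟨k, rfl⟩ := Subgroup.mem_zpowers_iff.mp hg
    refine ⟨⟨γ ^ k, Subgroup.zpow_mem_zpowers _ k⟩, ?_⟩
    apply (h1_quotEquiv π hπ Γ₀ H hH).injective
    change h1_quotEquiv π hπ Γ₀ H hH ((γ ^ k) • y) = _
    rw [h1_quotEquiv_smul, map_zpow]
    exact hgy

end GC3

section Card

/-- Two surjections out of the same type with the same kernel have targets of the same
cardinality. -/
theorem h1_card_eq_of_surjective_of_ker {α X Y : Type*} (f₁ : α → X) (f₂ : α → Y)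
    (h₁ : Function.Surjective f₁) (h₂ : Function.Surjective f₂)
    (h : ∀ a b, f₁ a = f₁ b ↔ f₂ a = f₂ b) : Nat.card X = Nat.card Y := by
  have hker : Setoid.ker f₁ = Setoid.ker f₂ := by
    ext a b
    exact h a b
  calc Nat.card X = Nat.card (Quotient (Setoid.ker f₁)) :=
        (Nat.card_congr (Setoid.quotientKerEquivOfSurjective f₁ h₁)).symm
    _ = Nat.card (Quotient (Setoid.ker f₂)) := by rw [hker]
    _ = Nat.card Y := Nat.card_congr (Setoid.quotientKerEquivOfSurjective f₂ h₂)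

end Card

section GC1

variable {A B C : Type*} [CommRing A] [CommRing B] [CommRing C]
  [Algebra A B] [Algebra B C] [Algebra A C] [IsScalarTower A B C]
  (G : Type*) [Group G] [MulSemiringAction G C]
  (H : Subgroup G)

variable [Finite G] [IsGaloisGroup G A C] [IsGaloisGroup H B C]

/-- The prime of `B` below `σ⁻¹ • P`. -/
noncomputable def h1_gcMap (p : Ideal A) (P : Ideal C) [P.IsPrime] [P.LiesOver p]
    (σ : G) : p.primesOver B :=
  ⟨(σ⁻¹ • P).under B, ⟨Ideal.IsPrime.under B (σ⁻¹ • P),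
    Ideal.under_liesOver_of_liesOver B (σ⁻¹ • P) p⟩⟩

omit [Finite G] in
theorem h1_gcMap_coe (p : Ideal A) (P : Ideal C) [P.IsPrime] [P.LiesOver p] (σ : G) :
    ((h1_gcMap (B := B) G p P σ : p.primesOver B) : Ideal B) = (σ⁻¹ • P).under B := rfl

include H in
theorem h1_gcMap_eq_iff (p : Ideal A) (P : Ideal C) [P.IsPrime] [P.LiesOver p] (σ τ : G) :
    h1_gcMap (B := B) G p P σ = h1_gcMap (B := B) G p P τ ↔
      ∃ d ∈ MulAction.stabilizer G P, (d * τ)⁻¹ * σ ∈ H := by
  rw [Subtype.ext_iff, h1_gcMap_coe, h1_gcMap_coe]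
  constructor
  · intro hst
    obtain ⟨h, hh⟩ := Algebra.IsInvariant.exists_smul_of_under_eq B C H (σ⁻¹ • P) (τ⁻¹ • P) hst
    -- `τ⁻¹ • P = h • σ⁻¹ • P`
    replace hh : τ⁻¹ • P = (h : G) • σ⁻¹ • P := by
      rw [hh]
      ext x
      simp only [Ideal.mem_pointwise_smul_iff_inv_smul_mem]
      rfl
    refine ⟨σ * (h : G)⁻¹ * τ⁻¹, ?_, ?_⟩
    · rw [MulAction.mem_stabilizer_iff, mul_smul, mul_smul, hh, smul_smul (h : G)⁻¹,
        inv_mul_cancel, one_smul, smul_smul, mul_inv_cancel, one_smul]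
    · have : (σ * (h : G)⁻¹ * τ⁻¹ * τ)⁻¹ * σ = (h : G) := by group
      rw [this]
      exact h.2
  · rintro ⟨d, hd, hh⟩
    rw [MulAction.mem_stabilizer_iff] at hd
    have key : ∀ (h : H) (Q : Ideal C), ((h : G) • Q).under B = Q.under B := by
      intro h Q
      exact Ideal.under_smul B Q h
    have hσ : σ⁻¹ • P = (((d * τ)⁻¹ * σ)⁻¹ : G) • (τ⁻¹ • P) := by
      rw [smul_smul]
      have h1 : ((d * τ)⁻¹ * σ)⁻¹ * τ⁻¹ = σ⁻¹ * d := by group
      rw [h1, mul_smul, hd]
    rw [hσ]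
    exact key ⟨((d * τ)⁻¹ * σ)⁻¹, H.inv_mem hh⟩ (τ⁻¹ • P)

theorem h1_gcMap_surjective [Algebra.IsIntegral B C]
    (hBC : Function.Injective (algebraMap B C))
    (p : Ideal A) [p.IsPrime] (P : Ideal C) [P.IsPrime] [P.LiesOver p] :
    Function.Surjective (h1_gcMap (B := B) G p P) := by
  rintro ⟨𝔮, h𝔮prime, h𝔮over⟩
  have := h𝔮prime
  have := h𝔮over
  obtain ⟨Q, -, hQprime, hQ⟩ := Ideal.exists_ideal_over_prime_of_isIntegral 𝔮 (⊥ : Ideal C)
    (by
      rw [← RingHom.ker_eq_comap_bot, (RingHom.injective_iff_ker_eq_bot _).mp hBC]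
      exact bot_le)
  have := hQprime
  have hQ𝔮 : Q.LiesOver 𝔮 := ⟨hQ.symm⟩
  have hQp : Q.LiesOver p := Ideal.LiesOver.trans Q 𝔮 p
  obtain ⟨g, hg⟩ := Algebra.IsInvariant.exists_smul_of_under_eq A C G P Q
    ((Ideal.over_def P p).symm.trans (Ideal.over_def Q p))
  refine ⟨g⁻¹, ?_⟩
  apply Subtype.ext
  rw [h1_gcMap_coe, inv_inv, ← hg]
  exact hQ

/-- **GC1**. Primes of the intermediate ring `B` over `p` correspond to orbits of the
decomposition group of one prime `P` of `C` over `p` acting on `G ⧸ H`. (Injectivity of `B → C`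
is needed: it is automatic in the intended application.) -/
theorem gc_card_primesOver [Algebra.IsIntegral B C]
    (hBC : Function.Injective (algebraMap B C))
    (p : Ideal A) [p.IsPrime] (P : Ideal C) [P.IsPrime] [P.LiesOver p] :
    Nat.card (p.primesOver B)
      = Nat.card (MulAction.orbitRel.Quotient (MulAction.stabilizer G P) (G ⧸ H)) := by
  let ψ : G → MulAction.orbitRel.Quotient (MulAction.stabilizer G P) (G ⧸ H) :=
    fun σ => Quotient.mk'' (σ : G ⧸ H)
  have hψ : Function.Surjective ψ := by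
    intro q
    induction q using Quotient.inductionOn' with | _ x => ?_
    induction x using Quotient.inductionOn' with | _ σ => ?_
    exact ⟨σ, rfl⟩
  refine h1_card_eq_of_surjective_of_ker (h1_gcMap (B := B) G p P) ψ
    (h1_gcMap_surjective G hBC p P) hψ ?_
  intro σ τ
  rw [h1_gcMap_eq_iff G H p P σ τ]
  change _ ↔ (Quotient.mk'' (σ : G ⧸ H) : MulAction.orbitRel.Quotient _ _) = Quotient.mk'' (τ : G ⧸ H)
  rw [Quotient.eq'', MulAction.orbitRel_apply, MulAction.mem_orbit_iff]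
  constructor
  · rintro ⟨d, hd, hh⟩
    refine ⟨⟨d, hd⟩, ?_⟩
    change ((d * τ : G) : G ⧸ H) = (σ : G ⧸ H)
    rw [QuotientGroup.eq]
    exact hh
  · rintro ⟨⟨d, hd⟩, hdτ⟩
    refine ⟨d, hd, ?_⟩
    change ((d * τ : G) : G ⧸ H) = (σ : G ⧸ H) at hdτ
    rw [QuotientGroup.eq] at hdτ
    exact hdτ

/-- Variant of `gc_card_primesOver` with the injectivity as a `FaithfulSMul` instance. -/
theorem gc_card_primesOver_of_faithfulSMul [Algebra.IsIntegral B C] [FaithfulSMul B C]
    (p : Ideal A) [p.IsPrime] (P : Ideal C) [P.IsPrime] [P.LiesOver p] :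
    Nat.card (p.primesOver B)
      = Nat.card (MulAction.orbitRel.Quotient (MulAction.stabilizer G P) (G ⧸ H)) :=
  gc_card_primesOver G H (FaithfulSMul.algebraMap_injective B C) p P

end GC1

end Fermat.Agent.S24
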