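import Mathlib.NumberTheory.ModularForms.EisensteinSeries.Basic
import Mathlib.NumberTheory.ModularForms.Discriminant

/-!
# S24, analytic layer: the analytic `j`-function (definition only)

Shared definition for the analytic pieces of the S24 plan (`jAn_hasSum`, `jAn_smul`,
`jAn_surjective`). Verbatim the definition of `Fermat.Agent.S24.Plan.jAn`, but in the
namespace `Fermat.Agent.S24` so that final files never depend on the WIP plan file.
-/

set_option autoImplicit false

noncomputable section

open scoped MatrixGroups

namespace Fermat.Agent.S24

open UpperHalfPlane ModularForm EisensteinSeries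

/-- The analytic `j`-function `E₄ ^ 3 / Δ` (normalised so that `j = q⁻¹ + 744 + ⋯`). -/
def jAn (τ : ℍ) : ℂ := (E (k := 4) (by norm_num)) τ ^ 3 / ModularForm.discriminant τ

end Fermat.Agent.S24
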