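import Mathlib
import Fermat.Agent.S24.JAnDef

/-!
# S24, analytic layer: `j` is `SL(2,ℤ)`-invariant and surjective
-/

set_option autoImplicit false

noncomputable section

open scoped MatrixGroups

namespace Fermat.Agent.S24

open UpperHalfPlane ModularForm EisensteinSeries

/-- `E₄` transforms with weight `4`. -/
theorem h27_E4_smul (γ : SL(2, ℤ)) (τ : ℍ) :
    (E (k := 4) (by norm_num)) (γ • τ) = denom γ τ ^ (4 : ℤ) * (E (k := 4) (by norm_num)) τ := by
  have hγ : (γ : GL (Fin 2) ℝ) ∈ 𝒮ℒ := ⟨γ, rfl⟩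
  exact SlashInvariantForm.slash_action_eqn'' (E (k := 4) (by norm_num)) hγ τ

/-- `Δ` transforms with weight `12`. -/
theorem h27_disc_smul (γ : SL(2, ℤ)) (τ : ℍ) :
    ModularForm.discriminant (γ • τ) = denom γ τ ^ (12 : ℤ) * ModularForm.discriminant τ := by
  have hγ : (γ : GL (Fin 2) ℝ) ∈ 𝒮ℒ := ⟨γ, rfl⟩
  exact SlashInvariantForm.slash_action_eqn'' CuspForm.discriminant hγ τ

/-- AN-inv. `j` is `SL(2,ℤ)`-invariant. -/
theorem jAn_smul (γ : SL(2, ℤ)) (τ : ℍ) : jAn (γ • τ) = jAn τ := by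
  unfold jAn
  rw [h27_E4_smul, h27_disc_smul]
  have hd : (denom γ τ) ≠ 0 := denom_ne_zero _ _
  have hΔ : ModularForm.discriminant τ ≠ 0 := ModularForm.discriminant_ne_zero τ
  have h12 : denom γ τ ^ (12 : ℤ) = (denom γ τ ^ (4 : ℤ)) ^ 3 := by
    rw [← zpow_natCast, ← zpow_mul]; norm_num
  rw [h12, mul_pow]
  have h4 : (denom γ τ ^ (4 : ℤ)) ^ 3 ≠ 0 := pow_ne_zero _ (zpow_ne_zero _ hd)
  field_simp

/-- `E₄ → 1` at `i∞`. -/
theorem h27_E4_tendsto :
    Filter.Tendsto (fun τ : ℍ => (E (k := 4) (by norm_num)) τ) atImInfty (nhds 1) := by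
  have han : AnalyticAt ℂ (cuspFunction 1 (E (k := 4) (by norm_num))) 0 :=
    ModularFormClass.analyticAt_cuspFunction_zero (E (k := 4) (by norm_num)) one_pos
      one_mem_strictPeriods_SL
  have h0 : cuspFunction 1 (E (k := 4) (by norm_num)) 0 = 1 := by
    have := E_qExpansion_coeff_zero (k := 4) (by norm_num) ⟨2, rfl⟩
    simpa [qExpansion_coeff] using this
  have ht := han.continuousAt.tendsto.comp (qParam_tendsto_atImInfty (h := 1) one_pos)
  rw [h0] at ht
  refine ht.congr fun τ => ?_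
  simpa using SlashInvariantFormClass.eq_cuspFunction (E (k := 4) (by norm_num)) τ
    one_mem_strictPeriods_SL one_ne_zero

/-- The weight-12 form `E₄³ - a Δ`. -/
def h27_G (a : ℂ) : ModularForm 𝒮ℒ 12 :=
  ModularForm.mcast (by decide) ((E (k := 4) (by norm_num)).pow 3) -
    a • (CuspForm.discriminant : ModularForm 𝒮ℒ 12)

theorem h27_G_apply (a : ℂ) (τ : ℍ) :
    h27_G a τ = (E (k := 4) (by norm_num)) τ ^ 3 - a * ModularForm.discriminant τ := by
  simp [h27_G]
  rfl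

theorem h27_G_tendsto (a : ℂ) :
    Filter.Tendsto (fun τ : ℍ => h27_G a τ) atImInfty (nhds 1) := by
  have h1 := (h27_E4_tendsto.pow 3).sub
    ((ModularForm.discriminant_isZeroAtImInfty).const_mul a)
  simp only [one_pow, mul_zero, sub_zero] at h1
  refine h1.congr fun τ => ?_
  rw [h27_G_apply]

theorem h27_invG_slash (a : ℂ) (γ : SL(2, ℤ)) :
    (fun z ↦ (1 : ℂ) / h27_G a z) ∣[(0 : ℤ) - 12] γ = fun z ↦ (1 : ℂ) / h27_G a z := by
  have hγ : (γ : GL (Fin 2) ℝ) ∈ 𝒮ℒ := ⟨γ, rfl⟩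
  change ((1 : ℍ → ℂ) / ⇑(h27_G a)) ∣[(0 : ℤ) - 12] γ = (1 : ℍ → ℂ) / ⇑(h27_G a)
  rw [div_slash_SL2, is_invariant_one, SL_slash, SlashInvariantForm.slash_action_eqn _ _ hγ]

/-- AN-surj. `j` is surjective. -/
theorem jAn_surjective (a : ℂ) : ∃ τ : ℍ, jAn τ = a := by
  by_contra hcon
  push Not at hcon
  have hG : ∀ τ : ℍ, h27_G a τ ≠ 0 := by
    intro τ h0
    rw [h27_G_apply] at h0
    apply hcon τ
    unfold jAn
    rw [div_eq_iff (ModularForm.discriminant_ne_zero τ)]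
    linear_combination h0
  let f : ModularForm 𝒮ℒ ((0 : ℤ) - 12) :=
    { toFun := fun z ↦ (1 : ℂ) / h27_G a z
      slash_action_eq' := fun _ ⟨γ, hγ⟩ ↦ hγ ▸ h27_invG_slash a γ
      holo' := (mdifferentiable_const (c := (1 : ℂ))).div (h27_G a).holo' hG
      bdd_at_cusps' := by
        intro c hc
        rw [Subgroup.IsArithmetic.isCusp_iff_isCusp_SL2Z] at hc
        rw [OnePoint.isBoundedAt_iff_forall_SL2Z hc]
        intro γ _
        rw [h27_invG_slash a γ, IsBoundedAtImInfty, Filter.BoundedAtFilter]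
        have ht : Filter.Tendsto (fun z : ℍ ↦ (1 : ℂ) / h27_G a z) atImInfty (nhds (1 / 1)) :=
          Filter.Tendsto.div tendsto_const_nhds (h27_G_tendsto a) one_ne_zero
        exact ht.isBigO_one ℝ }
  have hf0 : (⇑f : ℍ → ℂ) = 0 :=
    ModularFormClass.levelOne_neg_weight_eq_zero (by norm_num) f
  have := congrFun hf0 UpperHalfPlane.I
  have h1 : (1 : ℂ) / h27_G a UpperHalfPlane.I = 0 := this
  exact one_div_ne_zero (hG _) h1

end Fermat.Agent.S24
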