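import Mathlib
import Fermat.Agent.S24.JAnDef
import Fermat.Agent.S24.H27_JAn
import Fermat.Agent.S20.H70_Ramanujan

/-!
# S24, analytic layer: values and orders of `j` at `i`, `ρ` and at generic points

Everything is stated with `analyticOrderAt` directly; `H27_JOrd.lean` restates the results
with `jOrd` from `Closure/Defs.lean`.
-/

set_option autoImplicit false

noncomputable section

open scoped MatrixGroups

namespace Fermat.Agent.S24

open UpperHalfPlane ModularForm EisensteinSeries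
open Fermat.Agent.S20.H70

/-- A level one modular form transforms with its weight. -/
theorem h27_mf_smul {k : ℤ} (f : ModularForm 𝒮ℒ k) (γ : SL(2, ℤ)) (τ : ℍ) :
    f (γ • τ) = denom γ τ ^ k * f τ := by
  have hγ : (γ : GL (Fin 2) ℝ) ∈ 𝒮ℒ := ⟨γ, rfl⟩
  exact SlashInvariantForm.slash_action_eqn'' f hγ τ

theorem h27_S_smul_I : ModularGroup.S • UpperHalfPlane.I = UpperHalfPlane.I := by
  rw [UpperHalfPlane.modular_S_smul]
  apply UpperHalfPlane.ext
  simp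

theorem h27_one_add_rho_ne_zero : ((1 : ℂ) + (ρ : ℂ)) ≠ 0 := by
  intro h0
  have h := ρ_sq
  have : (ρ : ℂ) = -1 := by linear_combination h0
  rw [this] at h
  norm_num at h

theorem h27_ST_smul_rho : (ModularGroup.S * ModularGroup.T) • ρ = ρ := by
  rw [mul_smul, UpperHalfPlane.modular_T_smul, UpperHalfPlane.modular_S_smul]
  apply UpperHalfPlane.ext
  have h := ρ_sq
  have hne := h27_one_add_rho_ne_zero
  simp only [UpperHalfPlane.coe_vadd]
  rw [Complex.ofReal_one, inv_eq_iff_eq_inv, eq_comm, inv_eq_iff_eq_inv]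
  have hr : (ρ : ℂ) ≠ 0 := ρ.ne_zero
  field_simp
  linear_combination h

/-- `E₆ i = 0`. -/
theorem h27_E6_I : E₆ UpperHalfPlane.I = 0 := by
  have h := h27_mf_smul E₆ ModularGroup.S UpperHalfPlane.I
  rw [h27_S_smul_I, ModularGroup.denom_S] at h
  have h6 : ((UpperHalfPlane.I : ℍ) : ℂ) ^ (6 : ℤ) = -1 := by
    rw [UpperHalfPlane.coe_I]
    have : (Complex.I) ^ (6 : ℤ) = Complex.I ^ (6 : ℕ) := by norm_cast
    rw [this, show (6 : ℕ) = 4 + 2 by norm_num, pow_add, Complex.I_pow_four, Complex.I_sq]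
    ring
  rw [h6] at h
  have h2 : (2 : ℂ) * E₆ UpperHalfPlane.I = 0 := by linear_combination h
  simpa using h2

theorem h27_denom_ST_rho : denom (ModularGroup.S * ModularGroup.T : SL(2, ℤ)) ρ = (ρ : ℂ) + 1 := by
  rw [ModularGroup.denom_apply]
  simp [ModularGroup.S, ModularGroup.T]

/-- `E₄ ρ = 0`. -/
theorem h27_E4_rho : E₄ ρ = 0 := by
  have h := h27_mf_smul E₄ (ModularGroup.S * ModularGroup.T) ρ
  rw [h27_ST_smul_rho, h27_denom_ST_rho] at h
  have hsq := ρ_sq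
  have h4 : ((ρ : ℂ) + 1) ^ (4 : ℤ) = -(ρ : ℂ) - 1 := by
    have : ((ρ : ℂ) + 1) ^ (4 : ℤ) = ((ρ : ℂ) + 1) ^ (4 : ℕ) := by norm_cast
    rw [this]
    have h2 : ((ρ : ℂ) + 1) ^ 2 = (ρ : ℂ) := by linear_combination hsq
    have h3 : ((ρ : ℂ) + 1) ^ 4 = (((ρ : ℂ) + 1) ^ 2) ^ 2 := by ring
    rw [h3, h2, hsq]
  rw [h4] at h
  have hne : ((ρ : ℂ) + 2) ≠ 0 := by
    intro h0
    have : (ρ : ℂ) = -2 := by linear_combination h0
    rw [this] at hsq
    norm_num at hsq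
  have h2 : ((ρ : ℂ) + 2) * E₄ ρ = 0 := by linear_combination h
  exact (mul_eq_zero.mp h2).resolve_left hne

/-- `Δ = (E₄³ - E₆²)/1728`, in the form used below. -/
theorem h27_disc_eq (z : ℍ) :
    (1728 : ℂ) * ModularForm.discriminant z = E₄ z ^ 3 - E₆ z ^ 2 := by
  rw [discriminant_eq_E₄_cube_sub_E₆_sq z]
  ring

theorem jAn_eq (z : ℍ) : jAn z = E₄ z ^ 3 / ModularForm.discriminant z := rfl

/-- `j(i) = 1728`. -/
theorem jAn_I : jAn UpperHalfPlane.I = 1728 := by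
  rw [jAn_eq, div_eq_iff (ModularForm.discriminant_ne_zero _), h27_disc_eq, h27_E6_I]
  ring

/-- `j(ρ) = 0`. -/
theorem jAn_rho : jAn ρ = 0 := by
  rw [jAn_eq, h27_E4_rho]
  simp

theorem jAn_eq_zero_iff (z : ℍ) : jAn z = 0 ↔ E₄ z = 0 := by
  rw [jAn_eq, div_eq_zero_iff]
  constructor
  · rintro (h | h)
    · exact pow_eq_zero_iff (by norm_num) |>.mp h
    · exact absurd h (ModularForm.discriminant_ne_zero z)
  · intro h
    left
    rw [h]
    norm_num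

theorem jAn_sub_1728 (z : ℍ) : jAn z - 1728 = E₆ z ^ 2 / ModularForm.discriminant z := by
  rw [jAn_eq, eq_div_iff (ModularForm.discriminant_ne_zero _), sub_mul,
    div_mul_cancel₀ _ (ModularForm.discriminant_ne_zero _), h27_disc_eq]
  ring

theorem jAn_eq_1728_iff (z : ℍ) : jAn z = 1728 ↔ E₆ z = 0 := by
  rw [← sub_eq_zero, jAn_sub_1728, div_eq_zero_iff]
  constructor
  · rintro (h | h)
    · exact pow_eq_zero_iff (by norm_num) |>.mp h
    · exact absurd h (ModularForm.discriminant_ne_zero z)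
  · intro h
    left
    rw [h]
    norm_num

/-- `j - j(z₀) = -B_{z₀} / (1728 Δ Δ(z₀))`. -/
theorem jAn_sub_jAn (z₀ z : ℍ) :
    jAn z - jAn z₀ =
      (E₆ z₀ ^ 2 * E₄ z ^ 3 - E₄ z₀ ^ 3 * E₆ z ^ 2) *
        (-(1728 * ModularForm.discriminant z * ModularForm.discriminant z₀)⁻¹) := by
  have hz := ModularForm.discriminant_ne_zero z
  have hz₀ := ModularForm.discriminant_ne_zero z₀
  have e := h27_disc_eq z
  have e₀ := h27_disc_eq z₀
  rw [jAn_eq, jAn_eq]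
  field_simp
  linear_combination (E₄ z ^ 3) * e₀ - (E₄ z₀ ^ 3) * e

/-! ### Orders -/

/-- A level one modular form is analytic at every point of `ℍ`. -/
theorem h27_analyticAt {k : ℤ} (f : ModularForm 𝒮ℒ k) (τ : ℍ) :
    AnalyticAt ℂ (⇑f ∘ ofComplex) (τ : ℂ) :=
  ((UpperHalfPlane.mdifferentiable_iff.mp (ModularFormClass.holo f)).analyticOnNhd
    isOpen_upperHalfPlaneSet) τ τ.im_pos

theorem h27_analyticAt_disc (τ : ℍ) :
    AnalyticAt ℂ (ModularForm.discriminant ∘ ofComplex) (τ : ℂ) :=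
  ((UpperHalfPlane.mdifferentiable_iff.mp (ModularFormClass.holo CuspForm.discriminant)).analyticOnNhd
    isOpen_upperHalfPlaneSet) τ τ.im_pos

theorem h27_order_pow_mul {f g : ℂ → ℂ} {z : ℂ} (hf : AnalyticAt ℂ f z) (hg : AnalyticAt ℂ g z)
    (hg0 : g z ≠ 0) (hf0 : f z = 0) (hf' : deriv f z ≠ 0) (n : ℕ) :
    analyticOrderAt (fun w => f w ^ n * g w) z = n := by
  have h1 : analyticOrderAt f z = 1 := hf.analyticOrderAt_eq_one_of_zero_deriv_ne_zero hf0 hf'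
  have h2 : analyticOrderAt g z = 0 := hg.analyticOrderAt_eq_zero.mpr hg0
  have : (fun w => f w ^ n * g w) = f ^ n * g := rfl
  rw [this, analyticOrderAt_mul (hf.pow n) hg, analyticOrderAt_pow hf, h1, h2]
  simp


theorem h27_comp_ofComplex_apply (F : ℍ → ℂ) (τ : ℍ) : (F ∘ ofComplex) (τ : ℂ) = F τ := by
  simp only [Function.comp_apply, ofComplex_apply]

theorem h27_disc_comp_ne_zero (τ : ℍ) :
    (ModularForm.discriminant ∘ ofComplex) (τ : ℂ) ≠ 0 := by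
  rw [h27_comp_ofComplex_apply]
  exact ModularForm.discriminant_ne_zero τ

theorem h27_analyticAt_disc_inv (τ : ℍ) :
    AnalyticAt ℂ (fun w : ℂ => ((ModularForm.discriminant ∘ ofComplex) w)⁻¹) (τ : ℂ) :=
  (h27_analyticAt_disc τ).inv (h27_disc_comp_ne_zero τ)

/-- The order of `j - j(i)` at `i` is `2`. -/
theorem h27_order_I :
    analyticOrderAt (fun z : ℂ => jAn (ofComplex z) - jAn UpperHalfPlane.I)
      ((UpperHalfPlane.I : ℍ) : ℂ) = 2 := by
  have hfun : (fun z : ℂ => jAn (ofComplex z) - jAn UpperHalfPlane.I) =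
      fun w => (⇑E₆ ∘ ofComplex) w ^ 2 *
        (fun w : ℂ => ((ModularForm.discriminant ∘ ofComplex) w)⁻¹) w := by
    funext w
    rw [jAn_I, jAn_sub_1728]
    simp only [Function.comp_apply, div_eq_mul_inv]
  rw [hfun]
  rw [h27_order_pow_mul (h27_analyticAt E₆ UpperHalfPlane.I)
    (h27_analyticAt_disc_inv UpperHalfPlane.I)
    (inv_ne_zero (h27_disc_comp_ne_zero UpperHalfPlane.I))
    ((h27_comp_ofComplex_apply _ _).trans h27_E6_I)
    (deriv_E₆_ne_zero UpperHalfPlane.I h27_E6_I) 2]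
  rfl

/-- The order of `j - j(ρ)` at `ρ` is `3`. -/
theorem h27_order_rho :
    analyticOrderAt (fun z : ℂ => jAn (ofComplex z) - jAn ρ) ((ρ : ℍ) : ℂ) = 3 := by
  have hfun : (fun z : ℂ => jAn (ofComplex z) - jAn ρ) =
      fun w => (⇑E₄ ∘ ofComplex) w ^ 3 *
        (fun w : ℂ => ((ModularForm.discriminant ∘ ofComplex) w)⁻¹) w := by
    funext w
    rw [jAn_rho, sub_zero, jAn_eq]
    simp only [Function.comp_apply, div_eq_mul_inv]
  rw [hfun]
  rw [h27_order_pow_mul (h27_analyticAt E₄ ρ)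
    (h27_analyticAt_disc_inv ρ)
    (inv_ne_zero (h27_disc_comp_ne_zero ρ))
    ((h27_comp_ofComplex_apply _ _).trans h27_E4_rho)
    (deriv_E₄_ne_zero ρ h27_E4_rho) 3]
  rfl

/-- The order of `j - j(τ)` at `τ` is `1` when `j(τ) ≠ 0, 1728`. -/
theorem h27_order_generic (τ : ℍ) (h0 : jAn τ ≠ 0) (h1 : jAn τ ≠ 1728) :
    analyticOrderAt (fun z : ℂ => jAn (ofComplex z) - jAn τ) (τ : ℂ) = 1 := by
  have h4 : E₄ τ ≠ 0 := fun h => h0 ((jAn_eq_zero_iff τ).mpr h)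
  have h6 : E₆ τ ≠ 0 := fun h => h1 ((jAn_eq_1728_iff τ).mpr h)
  have hfun : (fun z : ℂ => jAn (ofComplex z) - jAn τ) =
      fun w => ((fun z : ℍ => E₆ τ ^ 2 * E₄ z ^ 3 - E₄ τ ^ 3 * E₆ z ^ 2) ∘ ofComplex) w ^ 1 *
        (fun w : ℂ => -(1728 * (ModularForm.discriminant ∘ ofComplex) w *
          ModularForm.discriminant τ)⁻¹) w := by
    funext w
    rw [jAn_sub_jAn τ (ofComplex w)]
    simp only [Function.comp_apply, pow_one]
  rw [hfun]
  have hB : AnalyticAt ℂ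
      ((fun z : ℍ => E₆ τ ^ 2 * E₄ z ^ 3 - E₄ τ ^ 3 * E₆ z ^ 2) ∘ ofComplex) (τ : ℂ) := by
    have e : ((fun z : ℍ => E₆ τ ^ 2 * E₄ z ^ 3 - E₄ τ ^ 3 * E₆ z ^ 2) ∘ ofComplex) =
        fun w : ℂ => E₆ τ ^ 2 * (⇑E₄ ∘ ofComplex) w ^ 3 -
          E₄ τ ^ 3 * (⇑E₆ ∘ ofComplex) w ^ 2 := by
      funext w
      simp only [Function.comp_apply]
    rw [e]
    have a4 : AnalyticAt ℂ (fun w : ℂ => (⇑E₄ ∘ ofComplex) w ^ 3) (τ : ℂ) :=
      (h27_analyticAt E₄ τ).pow 3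
    have a6 : AnalyticAt ℂ (fun w : ℂ => (⇑E₆ ∘ ofComplex) w ^ 2) (τ : ℂ) :=
      (h27_analyticAt E₆ τ).pow 2
    have c4 : AnalyticAt ℂ (fun _ : ℂ => E₄ τ ^ 3) (τ : ℂ) := analyticAt_const
    have c6 : AnalyticAt ℂ (fun _ : ℂ => E₆ τ ^ 2) (τ : ℂ) := analyticAt_const
    exact (c6.mul a4).sub (c4.mul a6)
  have hΔτ := ModularForm.discriminant_ne_zero τ
  have hne : (1728 * (ModularForm.discriminant ∘ ofComplex) (τ : ℂ) *
      ModularForm.discriminant τ) ≠ 0 :=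
    mul_ne_zero (mul_ne_zero (by norm_num) (h27_disc_comp_ne_zero τ)) hΔτ
  have c1 : AnalyticAt ℂ (fun _ : ℂ => (1728 : ℂ)) (τ : ℂ) := analyticAt_const
  have c2 : AnalyticAt ℂ (fun _ : ℂ => ModularForm.discriminant τ) (τ : ℂ) := analyticAt_const
  have hg : AnalyticAt ℂ (fun w : ℂ =>
      -(1728 * (ModularForm.discriminant ∘ ofComplex) w * ModularForm.discriminant τ)⁻¹)
      (τ : ℂ) :=
    (((c1.mul (h27_analyticAt_disc τ)).mul c2).inv hne).neg
  have hB0 : ((fun z : ℍ => E₆ τ ^ 2 * E₄ z ^ 3 - E₄ τ ^ 3 * E₆ z ^ 2) ∘ ofComplex) (τ : ℂ)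
      = 0 := by
    rw [h27_comp_ofComplex_apply]
    ring
  rw [h27_order_pow_mul hB hg (neg_ne_zero.mpr (inv_ne_zero hne)) hB0
    (deriv_B_ne_zero τ τ h4 h6 (by ring)) 1]
  rfl

end Fermat.Agent.S24
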