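import Mathlib
import Fermat.Agent.S24.Closure.Defs
import Fermat.Agent.S24.H27_JOrdCore

/-!
# S24, analytic layer (AN-jOrd): `jOrd` at `i`, `ρ` and at generic points

* `h27_S_smul_I : S • I = I`, `jAn_I : jAn I = 1728`, `jOrd_I : jOrd I = 2`;
* `h27_ST_smul_rho : (S * T) • ρ = ρ`, `jAn_rho : jAn ρ = 0`, `jOrd_rho : jOrd ρ = 3`
  (`ρ = UpperHalfPlane.ρ = -1/2 + (√3/2) i`);
* `jOrd_eq_one : jAn τ ≠ 0 → jAn τ ≠ 1728 → jOrd τ = 1`.

The first two lines of facts are proved in `H27_JOrdCore.lean` (which does not depend on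
`Closure/Defs.lean`).
-/

set_option autoImplicit false

noncomputable section

open scoped MatrixGroups

namespace Fermat.Agent.S24

open UpperHalfPlane

theorem jOrd_I : jOrd UpperHalfPlane.I = 2 := by
  unfold jOrd
  rw [h27_order_I]
  rfl

theorem jOrd_rho : jOrd ρ = 3 := by
  unfold jOrd
  rw [h27_order_rho]
  rfl

theorem jOrd_eq_one (τ : ℍ) (h0 : jAn τ ≠ 0) (h1 : jAn τ ≠ 1728) : jOrd τ = 1 := by
  unfold jOrd
  rw [h27_order_generic τ h0 h1]
  rfl

end Fermat.Agent.S24
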