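import Mathlib
import Fermat.Agent.S24.FF.Dict
import Fermat.Agent.S24.H1_GC

/-!
# S24 GC2 (helper95): abstract Galois count of the zeros of `t`

Main result: `Fermat.Agent.S24.gc_card_zeros`, the statement `plan_gc_card_zeros` of
`Fermat/Agent/S24/Plan.lean`.

Route: `A = K[X] -> E` (via `X ↦ t`), `B`, `C` the integral closures of `A` in `F`, `L`;
`P = {c ∈ C | w c < 1}` is a prime of `C` over `(X)`; `σ` fixes `P`; the decomposition group of
`P` has `e(P | (X))` elements (residue field `K` algebraically closed); `X ∈ P ^ e` gives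
`w t ≤ exp (-e)`, hence `e ≤ orderOf σ` and the decomposition group is `⟨σ⟩`; then GC1
(`gc_card_primesOver`, helper1) and the dictionary places of `F` <-> primes of `B`
(`FF/Dict.lean`).

Reusable pieces: `h95_valLT` (prime of a valuation), `h95_le_exp_of_mem_pow`,
`h95_mem_of_ord_nonneg`, `h95_mem_valuationSubring_of_isIntegral`, `h95_card_places_eq`,
`h95_card_heightOne_eq_primesOver`, `h95_card_zeros_aux` (same count over any Dedekind `A`).
-/

set_option autoImplicit false

noncomputable section

open WithZero IsDedekindDomain AlgebraicCurve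
open scoped Pointwise

namespace Fermat.Agent.S24

section ValIdeal

variable {C L : Type*} [CommRing C] [Field L] [Algebra C L] (w : Valuation L ℤᵐ⁰)

/-- The elements of `C` whose valuation is at most `exp (-n)`. -/
def h95_valLE (hw : ∀ c : C, w (algebraMap C L c) ≤ 1) (n : ℕ) : Ideal C where
  carrier := {c | w (algebraMap C L c) ≤ exp (-(n : ℤ))}
  zero_mem' := by simp
  add_mem' := by
    intro a b ha hb
    simp only [Set.mem_ofPred_eq, map_add] at ha hb ⊢
    exact (w.map_add _ _).trans (max_le ha hb)
  smul_mem' := by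
    intro c x hx
    simp only [Set.mem_ofPred_eq, smul_eq_mul, map_mul] at hx ⊢
    calc w (algebraMap C L c) * w (algebraMap C L x) ≤ 1 * exp (-(n : ℤ)) :=
          mul_le_mul' (hw c) hx
      _ = exp (-(n : ℤ)) := one_mul _

theorem h95_mem_valLE (hw : ∀ c : C, w (algebraMap C L c) ≤ 1) (n : ℕ) (c : C) :
    c ∈ h95_valLE w hw n ↔ w (algebraMap C L c) ≤ exp (-(n : ℤ)) := Iff.rfl

theorem h95_lt_one_iff_le_exp_neg_one (x : ℤᵐ⁰) : x < 1 ↔ x ≤ exp (-1 : ℤ) := by
  rcases eq_or_ne x 0 with rfl | hx
  · simp
  · rw [← exp_log hx, ← exp_zero, exp_lt_exp, exp_le_exp]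
    omega

/-- The elements of `C` whose valuation is less than `1`. -/
def h95_valLT (hw : ∀ c : C, w (algebraMap C L c) ≤ 1) : Ideal C := h95_valLE w hw 1

theorem h95_mem_valLT (hw : ∀ c : C, w (algebraMap C L c) ≤ 1) (c : C) :
    c ∈ h95_valLT w hw ↔ w (algebraMap C L c) < 1 := by
  rw [h95_valLT, h95_mem_valLE, h95_lt_one_iff_le_exp_neg_one]
  rfl

instance h95_valLT_isPrime (hw : ∀ c : C, w (algebraMap C L c) ≤ 1) :
    (h95_valLT w hw).IsPrime := by
  refine ⟨?_, ?_⟩
  · rw [Ne, Ideal.eq_top_iff_one, h95_mem_valLT]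
    simp
  · intro a b hab
    rw [h95_mem_valLT] at hab ⊢
    rw [h95_mem_valLT]
    by_contra hcon
    push Not at hcon
    have ha : w (algebraMap C L a) = 1 := le_antisymm (hw a) hcon.1
    have hb : w (algebraMap C L b) = 1 := le_antisymm (hw b) hcon.2
    rw [map_mul, map_mul, ha, hb, one_mul] at hab
    exact lt_irrefl _ hab

theorem h95_valLE_mul_le (hw : ∀ c : C, w (algebraMap C L c) ≤ 1) (m n : ℕ) :
    h95_valLE w hw m * h95_valLE w hw n ≤ h95_valLE w hw (m + n) := by
  rw [Ideal.mul_le]
  intro a ha b hb
  rw [h95_mem_valLE] at ha hb ⊢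
  rw [map_mul, map_mul]
  calc w (algebraMap C L a) * w (algebraMap C L b)
      ≤ exp (-(m : ℤ)) * exp (-(n : ℤ)) := mul_le_mul' ha hb
    _ = exp (-((m + n : ℕ) : ℤ)) := by
        rw [← exp_add]
        congr 1
        push_cast
        ring

theorem h95_valLT_pow_le (hw : ∀ c : C, w (algebraMap C L c) ≤ 1) (n : ℕ) :
    h95_valLT w hw ^ n ≤ h95_valLE w hw n := by
  induction n with
  | zero =>
    intro c _
    rw [h95_mem_valLE]
    simpa using hw c
  | succ n ih =>
    rw [pow_succ]
    exact (Ideal.mul_mono ih le_rfl).trans (h95_valLE_mul_le w hw n 1)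

/-- Elements of `P ^ n` have valuation at most `exp (-n)`. -/
theorem h95_le_exp_of_mem_pow (hw : ∀ c : C, w (algebraMap C L c) ≤ 1) (n : ℕ) {c : C}
    (hc : c ∈ h95_valLT w hw ^ n) : w (algebraMap C L c) ≤ exp (-(n : ℤ)) :=
  h95_valLT_pow_le w hw n hc

end ValIdeal

section Grp

theorem h95_stabilizer_eq_zpowers {G X : Type*} [Group G] [Finite G] [MulAction G X] (x : X)
    (σ : G) (hσ : σ • x = x) (hle : Nat.card (MulAction.stabilizer G x) ≤ orderOf σ) :
    MulAction.stabilizer G x = Subgroup.zpowers σ := by
  have h1 : Subgroup.zpowers σ ≤ MulAction.stabilizer G x := by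
    rw [Subgroup.zpowers_le]
    exact hσ
  refine (Subgroup.eq_of_le_of_card_ge h1 ?_).symm
  rw [Nat.card_zpowers]
  exact hle

end Grp

section PlaceMem

variable {K F : Type*} [Field K] [Field F] [Algebra K F]

theorem h95_mem_of_ord_nonneg (v : Place K F) {f : F} (hf : 0 ≤ v.ord f) :
    f ∈ v.toValuationSubring := by
  by_contra hmem
  have hf0 : f ≠ 0 := fun h => hmem (h ▸ v.toValuationSubring.zero_mem)
  have hinv : f⁻¹ ∈ v.toValuationSubring := (v.toValuationSubring.mem_or_inv_mem f).resolve_left hmem
  have hnu : ¬ IsUnit (⟨f⁻¹, hinv⟩ : v.toValuationSubring) := by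
    rintro ⟨u, hu⟩
    apply hmem
    have h2 : ((u : v.toValuationSubring) : F)
        * (((u⁻¹ : v.toValuationSubringˣ) : v.toValuationSubring) : F) = 1 := by
      have := congrArg Subtype.val u.mul_inv
      exact this
    rw [hu] at h2
    have h3 : (((u⁻¹ : v.toValuationSubringˣ) : v.toValuationSubring) : F) = f := by
      have h4 : f⁻¹ * (((u⁻¹ : v.toValuationSubringˣ) : v.toValuationSubring) : F) = 1 := h2
      field_simp at h4
      exact h4
    rw [← h3]
    exact Subtype.mem _
  have h1 : v.adicValuation ((⟨f⁻¹, hinv⟩ : v.toValuationSubring) : F) ≠ 1 :=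
    fun h => hnu ((v.adicValuation_coe_eq_one_iff _).mp h)
  have h2 : v.adicValuation ((⟨f⁻¹, hinv⟩ : v.toValuationSubring) : F) ≤ 1 := by
    rw [v.adicValuation_coe]
    exact HeightOneSpectrum.intValuation_le_one _ _
  have h3 : v.adicValuation f⁻¹ < 1 := lt_of_le_of_ne h2 h1
  have h4 : 0 < v.ord f⁻¹ := by
    have hne : v.adicValuation f⁻¹ ≠ 0 := v.adicValuation_ne_zero (inv_ne_zero hf0)
    rw [Place.ord]
    rw [← exp_log hne, ← exp_zero, exp_lt_exp] at h3
    omega
  rw [v.ord_inv] at h4
  omega

theorem h95_mem_valuationSubring_of_isIntegral {A : Type*} [CommRing A] [Algebra A F]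
    (V : ValuationSubring F) (hA : ∀ a : A, algebraMap A F a ∈ V) {x : F}
    (hx : IsIntegral A x) : x ∈ V := by
  let φ : A →+* V := (algebraMap A F).codRestrict V.toSubring hA
  obtain ⟨p, hp, hpx⟩ := hx
  have hint : IsIntegral V x := by
    refine ⟨p.map φ, hp.map φ, ?_⟩
    rw [Polynomial.eval₂_map]
    exact hpx
  obtain ⟨y, hy⟩ := IsIntegrallyClosed.isIntegral_iff.mp hint
  rw [← hy]
  exact y.2

end PlaceMem

section Dict2

variable {K F : Type*} [Field K] [Field F] [Algebra K F]
variable {B : Type*} [CommRing B] [IsDedekindDomain B] [Algebra B F] [IsFractionRing B F]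
  [Algebra K B] [IsScalarTower K B F]

theorem h95_ofHeightOneSpectrum_injective :
    Function.Injective (Place.ofHeightOneSpectrum (K := K) (F := F) (R := B)) := by
  intro w₁ w₂ h
  have h' : (w₁.valuation F).valuationSubring = (w₂.valuation F).valuationSubring :=
    congrArg Place.toValuationSubring h
  apply HeightOneSpectrum.eq_of_valuation_isEquiv_valuation (K := F)
  exact (Valuation.isEquiv_iff_valuationSubring _ _).mpr h'

theorem h95_ord_pos_iff (w : HeightOneSpectrum B) {x : B} (hx : x ≠ 0) :
    0 < (Place.ofHeightOneSpectrum (K := K) (F := F) w).ord (algebraMap B F x)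
      ↔ x ∈ w.asIdeal := by
  have hxF : algebraMap B F x ≠ 0 := by
    simpa using hx
  have hne : w.valuation F (algebraMap B F x) ≠ 0 := (Valuation.ne_zero_iff _).mpr hxF
  rw [ord_ofHeightOneSpectrum w hxF, ← HeightOneSpectrum.valuation_lt_one_iff_mem (K := F)]
  constructor
  · intro h
    rw [← exp_log hne, ← exp_zero, exp_lt_exp]
    omega
  · intro h
    rw [← exp_log hne, ← exp_zero, exp_lt_exp] at h
    omega

theorem h95_card_places_eq {x : B} (hx : x ≠ 0)
    (hB : ∀ v : Place K F, 0 < v.ord (algebraMap B F x) →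
      ∀ b : B, algebraMap B F b ∈ v.toValuationSubring) :
    Nat.card {v : Place K F // 0 < v.ord (algebraMap B F x)}
      = Nat.card {w : HeightOneSpectrum B // x ∈ w.asIdeal} := by
  symm
  refine Nat.card_congr (Equiv.ofBijective
    (fun w => ⟨Place.ofHeightOneSpectrum (K := K) (F := F) w.1, (h95_ord_pos_iff w.1 hx).mpr w.2⟩)
    ⟨?_, ?_⟩)
  · rintro ⟨w₁, h₁⟩ ⟨w₂, h₂⟩ h
    have := congrArg Subtype.val h
    exact Subtype.ext (h95_ofHeightOneSpectrum_injective this)
  · rintro ⟨v, hv⟩
    obtain ⟨w, hw⟩ := exists_heightOneSpectrum_of_le v (hB v hv)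
    have hvw : v = Place.ofHeightOneSpectrum (K := K) (F := F) w := Place.ext hw
    refine ⟨⟨w, ?_⟩, ?_⟩
    · rw [← h95_ord_pos_iff (K := K) (F := F) w hx, ← hvw]
      exact hv
    · exact Subtype.ext hvw.symm

end Dict2

section PrimesOver

variable {A B : Type*} [CommRing A] [CommRing B] [Algebra A B]

theorem h95_card_heightOne_eq_primesOver (t : A) [(Ideal.span {t}).IsMaximal]
    (ht : algebraMap A B t ≠ 0) :
    Nat.card {w : HeightOneSpectrum B // algebraMap A B t ∈ w.asIdeal}
      = Nat.card ((Ideal.span {t}).primesOver B) := by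
  have hover : ∀ Q : Ideal B, Q.IsPrime → algebraMap A B t ∈ Q → Q.LiesOver (Ideal.span {t}) := by
    intro Q hQ htQ
    refine ⟨?_⟩
    have hle : Ideal.span {t} ≤ Q.under A := by
      rw [Ideal.span_singleton_le_iff_mem]
      exact htQ
    have hne : Q.under A ≠ ⊤ := (Ideal.IsPrime.under A Q).ne_top
    exact (Ideal.IsMaximal.eq_of_le inferInstance hne hle)
  refine Nat.card_congr
    { toFun := fun w => ⟨w.1.asIdeal, w.1.isPrime, hover _ w.1.isPrime w.2⟩
      invFun := fun Q => ⟨⟨Q.1, Q.2.1, ?_⟩, ?_⟩
      left_inv := fun w => rfl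
      right_inv := fun Q => rfl }
  · intro hbot
    have hmem : algebraMap A B t ∈ Q.1 := by
      have := Q.2.2
      have h1 : t ∈ Q.1.under A := by
        rw [← Ideal.over_def Q.1 (Ideal.span {t})]
        exact Ideal.mem_span_singleton_self t
      exact h1
    rw [hbot, Ideal.mem_bot] at hmem
    exact ht hmem
  · have := Q.2.2
    have h1 : t ∈ Q.1.under A := by
      rw [← Ideal.over_def Q.1 (Ideal.span {t})]
      exact Ideal.mem_span_singleton_self t
    exact h1

end PrimesOver

section Abstract

variable {K A E F L : Type*} [Field K] [IsAlgClosed K] [CharZero K]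
    [CommRing A] [IsDedekindDomain A] [Algebra K A]
    [Field E] [Field F] [Field L]
    [Algebra A E] [IsFractionRing A E]
    [Algebra E F] [Algebra E L] [Algebra F L] [IsScalarTower E F L]
    [Algebra A F] [IsScalarTower A E F] [Algebra A L] [IsScalarTower A E L] [IsScalarTower A F L]
    [Algebra K F] [IsScalarTower K A F]
    [FiniteDimensional E L] [IsGalois E L]

theorem h95_card_zeros_aux
    (t : A) (ht : (Ideal.span {t}).IsMaximal) (ht0 : t ≠ 0)
    (hK : Function.Surjective (algebraMap K (A ⧸ Ideal.span {t})))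
    (hplace : ∀ v : Place K F, 0 < v.ord (algebraMap A F t) →
      ∀ a : A, algebraMap A F a ∈ v.toValuationSubring)
    (w : Valuation L ℤᵐ⁰) (hwA : ∀ a : A, w (algebraMap A L a) ≤ 1)
    (hwt : w (algebraMap A L t) < 1)
    (σ : L ≃ₐ[E] L) (hσ : ∀ y, w (σ y) = w y)
    (hord : exp (-(orderOf σ : ℤ)) ≤ w (algebraMap A L t))
    (H : Subgroup (L ≃ₐ[E] L)) [IsGaloisGroup H F L] :
    Nat.card {v : Place K F // 0 < v.ord (algebraMap A F t)}
      = Nat.card (MulAction.orbitRel.Quotient (Subgroup.zpowers σ) ((L ≃ₐ[E] L) ⧸ H)) := by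
  have : CharZero A := charZero_of_injective_algebraMap (algebraMap K A).injective
  have : CharZero E := charZero_of_injective_algebraMap (IsFractionRing.injective A E)
  have : FiniteDimensional E F := FiniteDimensional.left E F L
  have : Algebra.IsSeparable E F := inferInstance
  let B := integralClosure A F
  let C := integralClosure A L
  have : IsDedekindDomain B := IsIntegralClosure.isDedekindDomain A E F B
  have : IsDedekindDomain C := IsIntegralClosure.isDedekindDomain A E L C
  have : IsFractionRing B F := IsIntegralClosure.isFractionRing_of_finite_extension A E F B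
  have : IsFractionRing C L := IsIntegralClosure.isFractionRing_of_finite_extension A E L C
  have : Module.Finite A C := IsIntegralClosure.finite A E L C
  have : Algebra.IsIntegral A B := IsIntegralClosure.isIntegral_algebra A F
  have : Algebra.IsIntegral A C := IsIntegralClosure.isIntegral_algebra A L
  let i1 : Algebra B L := inferInstance
  have : IsScalarTower B F L := inferInstance
  have : IsScalarTower A B L := inferInstance
  let i2 : Algebra K B := inferInstance
  have : IsScalarTower K B F := inferInstance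
  let i3 : Algebra B C := (IsIntegralClosure.lift A C L : B →ₐ[A] C).toRingHom.toAlgebra
  have : IsScalarTower A B C := by
    refine IsScalarTower.of_algebraMap_eq fun a => ?_
    exact ((IsIntegralClosure.lift A C L : B →ₐ[A] C).commutes a).symm
  have : IsScalarTower B C L := by
    refine IsScalarTower.of_algebraMap_eq fun b => ?_
    exact (IsIntegralClosure.algebraMap_lift A C L b).symm
  have : Algebra.IsIntegral B C := Algebra.IsIntegral.tower_top (R := A)
  let i4 : MulSemiringAction (L ≃ₐ[E] L) C := IsIntegralClosure.MulSemiringAction A E L C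
  have : IsGaloisGroup (L ≃ₐ[E] L) A C := IsGaloisGroup.of_isFractionRing _ _ _ E L
  have hGH : IsGaloisGroup H B C := IsGaloisGroup.of_isFractionRing H B C F L
  have hAL : Function.Injective (algebraMap A L) := by
    rw [IsScalarTower.algebraMap_eq A E L]
    exact (algebraMap E L).injective.comp (IsFractionRing.injective A E)
  have hAC : Function.Injective (algebraMap A C) := by
    intro x y hxy
    apply hAL
    rw [IsScalarTower.algebraMap_apply A C L, IsScalarTower.algebraMap_apply A C L, hxy]
  have : FaithfulSMul A C := (faithfulSMul_iff_algebraMap_injective A C).mpr hAC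
  have : Module.IsTorsionFree A C := inferInstance
  have : Module.Flat A C := inferInstance
  -- injectivity of `B → C`
  have hBC : Function.Injective (algebraMap B C) := by
    intro x y hxy
    have h1 := congrArg (algebraMap C L) hxy
    rw [← IsScalarTower.algebraMap_apply B C L, ← IsScalarTower.algebraMap_apply B C L,
      IsScalarTower.algebraMap_apply B F L, IsScalarTower.algebraMap_apply B F L] at h1
    exact (IsFractionRing.injective B F) ((algebraMap F L).injective h1)
  -- the valuation is `≤ 1` on `C`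
  have hwC : ∀ c : C, w (algebraMap C L c) ≤ 1 := by
    intro c
    have hint : IsIntegral A (algebraMap C L c) :=
      (IsIntegralClosure.isIntegral_iff (A := C)).mpr ⟨c, rfl⟩
    have := h95_mem_valuationSubring_of_isIntegral (A := A) w.valuationSubring
      (fun a => (Valuation.mem_valuationSubring_iff _ _).mpr (hwA a)) hint
    exact (Valuation.mem_valuationSubring_iff _ _).mp this
  -- the prime `P`
  set P : Ideal C := h95_valLT w hwC with hP
  have hPprime : P.IsPrime := h95_valLT_isPrime w hwC
  set p : Ideal A := Ideal.span {t} with hp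
  have htP : algebraMap A C t ∈ P := by
    rw [hP, h95_mem_valLT, ← IsScalarTower.algebraMap_apply A C L]
    exact hwt
  have hPp : P.LiesOver p := by
    refine ⟨?_⟩
    have hle : p ≤ P.under A := by
      rw [hp, Ideal.span_singleton_le_iff_mem]
      exact htP
    exact Ideal.IsMaximal.eq_of_le ht (Ideal.IsPrime.under A P).ne_top hle
  -- `σ` stabilises `P`
  have hsmul : ∀ (g : L ≃ₐ[E] L) (c : C), algebraMap C L (g • c) = g (algebraMap C L c) := by
    intro g c
    exact algebraMap_galRestrict_apply A g c
  have hσP : σ • P = P := by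
    ext c
    rw [Ideal.mem_pointwise_smul_iff_inv_smul_mem, hP, h95_mem_valLT, h95_mem_valLT, hsmul]
    have h1 : w ((σ⁻¹ : L ≃ₐ[E] L) (algebraMap C L c)) = w (algebraMap C L c) := by
      rw [← hσ ((σ⁻¹ : L ≃ₐ[E] L) (algebraMap C L c))]
      congr 1
      exact AlgEquiv.apply_symm_apply σ _
    rw [h1]
  have hσstab : σ ∈ MulAction.stabilizer (L ≃ₐ[E] L) P := hσP
  -- residue fields
  have hpne : p ≠ ⊥ := by
    rw [hp, Ne, Ideal.span_singleton_eq_bot]
    exact ht0
  have hPmax : P.IsMaximal := by
    have hPne : P ≠ ⊥ := by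
      intro hbot
      rw [hbot, Ideal.mem_bot] at htP
      exact ht0 ((FaithfulSMul.algebraMap_injective A C) (htP.trans (map_zero _).symm))
    exact hPprime.isMaximal hPne
  have : PerfectField p.ResidueField := by
    have : CharZero p.ResidueField :=
      charZero_of_injective_ringHom
        ((algebraMap A p.ResidueField).comp (algebraMap K A)).injective
    infer_instance
  have hcard := Ideal.card_stabilizer_eq (G := (L ≃ₐ[E] L)) p P
  rw [Ideal.ramificationIdxIn_eq_ramificationIdx p P (L ≃ₐ[E] L),
    Ideal.inertiaDegIn_eq_inertiaDeg p P (L ≃ₐ[E] L)] at hcard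
  -- inertia degree one
  have hf : P.inertiaDeg A = 1 := by
    rw [Ideal.inertiaDeg_eq_of_isMaximal p P]
    let iF1 : Field (A ⧸ p) := Ideal.Quotient.field p
    let iF2 : Field (C ⧸ P) := Ideal.Quotient.field P
    let iKC : Algebra K C := ((algebraMap A C).comp (algebraMap K A)).toAlgebra
    have : IsScalarTower K A C := IsScalarTower.of_algebraMap_eq' rfl
    have : IsScalarTower K (A ⧸ p) (C ⧸ P) := by
      refine IsScalarTower.of_algebraMap_eq fun k => ?_
      rw [IsScalarTower.algebraMap_apply K C (C ⧸ P), IsScalarTower.algebraMap_apply K A C,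
        IsScalarTower.algebraMap_apply K A (A ⧸ p),
        ← IsScalarTower.algebraMap_apply A (A ⧸ p) (C ⧸ P),
        ← IsScalarTower.algebraMap_apply A C (C ⧸ P)]
    have : Algebra.IsIntegral K (A ⧸ p) := Algebra.isIntegral_of_surjective hK
    have : Algebra.IsIntegral K (C ⧸ P) := Algebra.IsIntegral.trans (A ⧸ p)
    have hbijK : Function.Bijective (algebraMap K (C ⧸ P)) :=
      IsAlgClosed.algebraMap_bijective_of_isIntegral
    have hbij : Function.Bijective (algebraMap (A ⧸ p) (C ⧸ P)) := by
      refine ⟨(algebraMap (A ⧸ p) (C ⧸ P)).injective, fun x => ?_⟩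
      obtain ⟨k, rfl⟩ := hbijK.2 x
      exact ⟨algebraMap K (A ⧸ p) k, (IsScalarTower.algebraMap_apply K (A ⧸ p) (C ⧸ P) k).symm⟩
    have e : (A ⧸ p) ≃ₗ[A ⧸ p] (C ⧸ P) :=
      LinearEquiv.ofBijective (Algebra.linearMap (A ⧸ p) (C ⧸ P)) hbij
    rw [← e.finrank_eq, Module.finrank_self]
  rw [hf, mul_one] at hcard
  -- ramification index at most the order of `σ`
  have he : P.ramificationIdx A ≤ orderOf σ := by
    rw [← Ideal.ramificationIdx'_eq_ramificationIdx p P hpne]
    have h1 : algebraMap A C t ∈ P ^ (p.ramificationIdx' P) := by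
      apply Ideal.le_pow_ramificationIdx'
      exact Ideal.mem_map_of_mem _ (Ideal.mem_span_singleton_self t)
    have h2 := h95_le_exp_of_mem_pow w hwC _ h1
    rw [← IsScalarTower.algebraMap_apply A C L] at h2
    have h3 := hord.trans h2
    rw [exp_le_exp] at h3
    omega
  have hstab : MulAction.stabilizer (L ≃ₐ[E] L) P = Subgroup.zpowers σ :=
    h95_stabilizer_eq_zpowers P σ hσP (hcard.trans_le he)
  -- GC1
  have hgc1 := gc_card_primesOver (L ≃ₐ[E] L) H hBC p P
  rw [hstab] at hgc1
  rw [← hgc1]
  -- dictionary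
  have hAB : Function.Injective (algebraMap A B) := by
    intro x y hxy
    apply hAL
    rw [IsScalarTower.algebraMap_apply A B L, IsScalarTower.algebraMap_apply A B L, hxy]
  have htB : algebraMap A B t ≠ 0 := fun h => ht0 (hAB (h.trans (map_zero _).symm))
  have hB : ∀ v : Place K F, 0 < v.ord (algebraMap B F (algebraMap A B t)) →
      ∀ b : B, algebraMap B F b ∈ v.toValuationSubring := by
    intro v hv b
    rw [← IsScalarTower.algebraMap_apply A B F] at hv
    exact h95_mem_valuationSubring_of_isIntegral (A := A) v.toValuationSubring (hplace v hv)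
      ((IsIntegralClosure.isIntegral_iff (A := B)).mpr ⟨b, rfl⟩)
  have h1 := h95_card_places_eq (K := K) (F := F) (B := B) htB hB
  have h2 := h95_card_heightOne_eq_primesOver (A := A) (B := B) t htB
  rw [← h2, ← h1]
  refine Nat.card_congr (Equiv.subtypeEquivRight fun v => ?_)
  rw [← IsScalarTower.algebraMap_apply A B F]

end Abstract

section Concrete

open Polynomial

theorem h95_span_X_isMaximal {K : Type*} [Field K] : (Ideal.span {(X : K[X])}).IsMaximal :=
  PrincipalIdealRing.isMaximal_of_irreducible Polynomial.irreducible_X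

theorem h95_surjective_quotient_span_X {K : Type*} [Field K] :
    Function.Surjective (algebraMap K (K[X] ⧸ Ideal.span {(X : K[X])})) := by
  intro x
  obtain ⟨p, rfl⟩ := Ideal.Quotient.mk_surjective x
  refine ⟨p.coeff 0, ?_⟩
  rw [IsScalarTower.algebraMap_apply K K[X] (K[X] ⧸ Ideal.span {(X : K[X])})]
  rw [Ideal.Quotient.algebraMap_eq, Ideal.Quotient.eq, Ideal.mem_span_singleton,
    Polynomial.algebraMap_apply, Algebra.algebraMap_self, RingHom.id_apply,
    Polynomial.X_dvd_iff]
  simp

/-- **GC2** (statement `plan_gc_card_zeros` of `Fermat/Agent/S24/Plan.lean`). Abstract count of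
the zeros of `t` in an intermediate field `F` of a Galois extension `L / E`, `E = K(t)`, from one
valuation `w` of `L` that is invariant under `σ` and whose value at `t` is at most the order
of `σ`. -/
theorem gc_card_zeros
    {K E F L : Type*} [Field K] [IsAlgClosed K] [CharZero K] [Field E] [Field F] [Field L]
    [Algebra K E] [Algebra K F] [Algebra K L] [Algebra E F] [Algebra E L] [Algebra F L]
    [IsScalarTower K E F] [IsScalarTower K E L] [IsScalarTower E F L] [IsScalarTower K F L]
    [FiniteDimensional E L] [IsGalois E L]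
    (t : E) (ht : Transcendental K t)
    (hE : ∀ y : E, ∃ p q : Polynomial K, Polynomial.aeval t q ≠ 0 ∧
      y = Polynomial.aeval t p / Polynomial.aeval t q)
    (w : Valuation L ℤᵐ⁰) (hwK : ∀ c : K, c ≠ 0 → w (algebraMap K L c) = 1)
    (hwt : w (algebraMap E L t) < 1)
    (σ : L ≃ₐ[E] L) (hσ : ∀ y, w (σ y) = w y)
    (hord : exp (-(orderOf σ : ℤ)) ≤ w (algebraMap E L t)) :
    Nat.card {v : Place K F // 0 < v.ord (algebraMap E F t)}
      = Nat.card (MulAction.orbitRel.Quotient (Subgroup.zpowers σ)
          ((L ≃ₐ[E] L) ⧸ (IntermediateField.fixingSubgroup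
            (IsScalarTower.toAlgHom E F L).fieldRange))) := by
  let iAE : Algebra K[X] E := (Polynomial.aeval t : K[X] →ₐ[K] E).toRingHom.toAlgebra
  have hAE : ∀ p : K[X], algebraMap K[X] E p = Polynomial.aeval t p := fun p => rfl
  have : IsScalarTower K K[X] E := by
    refine IsScalarTower.of_algebraMap_eq fun k => ?_
    rw [hAE, Polynomial.algebraMap_apply, Algebra.algebraMap_self, RingHom.id_apply,
      Polynomial.aeval_C]
  let iAF : Algebra K[X] F := ((algebraMap E F).comp (algebraMap K[X] E)).toAlgebra
  let iAL : Algebra K[X] L := ((algebraMap E L).comp (algebraMap K[X] E)).toAlgebra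
  have : IsScalarTower K[X] E F := IsScalarTower.of_algebraMap_eq' rfl
  have : IsScalarTower K[X] E L := IsScalarTower.of_algebraMap_eq' rfl
  have : IsScalarTower K[X] F L := by
    refine IsScalarTower.of_algebraMap_eq fun p => ?_
    rw [IsScalarTower.algebraMap_apply K[X] E L, IsScalarTower.algebraMap_apply K[X] E F,
      ← IsScalarTower.algebraMap_apply E F L]
  have : IsScalarTower K K[X] F := by
    refine IsScalarTower.of_algebraMap_eq fun k => ?_
    rw [IsScalarTower.algebraMap_apply K[X] E F, ← IsScalarTower.algebraMap_apply K K[X] E,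
      ← IsScalarTower.algebraMap_apply K E F]
  have hinj : Function.Injective (algebraMap K[X] E) := transcendental_iff_injective.mp ht
  have : FaithfulSMul K[X] E := (faithfulSMul_iff_algebraMap_injective K[X] E).mpr hinj
  have : IsFractionRing K[X] E := by
    refine IsFractionRing.of_field K[X] E fun y => ?_
    obtain ⟨p, q, -, hy⟩ := hE y
    exact ⟨p, q, hy⟩
  have hXF : algebraMap K[X] F X = algebraMap E F t := by
    rw [IsScalarTower.algebraMap_apply K[X] E F, hAE, Polynomial.aeval_X]
  have hXL : algebraMap K[X] L X = algebraMap E L t := by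
    rw [IsScalarTower.algebraMap_apply K[X] E L, hAE, Polynomial.aeval_X]
  -- the subgroup
  have hHeq : fixingSubgroup (L ≃ₐ[E] L) (Set.range (algebraMap F L))
      = IntermediateField.fixingSubgroup (IsScalarTower.toAlgHom E F L).fieldRange := by
    ext g
    rw [mem_fixingSubgroup_iff, IntermediateField.mem_fixingSubgroup_iff]
    constructor
    · rintro h x ⟨y, rfl⟩
      exact h _ ⟨y, rfl⟩
    · rintro h x ⟨y, rfl⟩
      exact h _ ⟨y, rfl⟩
  have hH0 : IsGaloisGroup (fixingSubgroup (L ≃ₐ[E] L) (Set.range (algebraMap F L))) F L :=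
    IsGaloisGroup.of_isScalarTower (L ≃ₐ[E] L) E L F
  have hH : IsGaloisGroup (IntermediateField.fixingSubgroup
      (IsScalarTower.toAlgHom E F L).fieldRange) F L := hHeq ▸ hH0
  -- membership in subrings
  have hmemF : ∀ (V : ValuationSubring F), (∀ k : K, algebraMap K F k ∈ V) →
      algebraMap E F t ∈ V → ∀ a : K[X], algebraMap K[X] F a ∈ V := by
    intro V hVK hVt a
    induction a using Polynomial.induction_on' with
    | add p q hp hq => rw [map_add]; exact V.add_mem _ _ hp hq
    | monomial n k =>
      rw [← Polynomial.C_mul_X_pow_eq_monomial, map_mul, map_pow, hXF,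
        ← Polynomial.algebraMap_eq, ← IsScalarTower.algebraMap_apply K K[X] F]
      exact V.mul_mem _ _ (hVK k) (V.pow_mem hVt n)
  have hwA : ∀ a : K[X], w (algebraMap K[X] L a) ≤ 1 := by
    intro a
    induction a using Polynomial.induction_on' with
    | add p q hp hq => rw [map_add]; exact (w.map_add _ _).trans (max_le hp hq)
    | monomial n k =>
      have hk : w (algebraMap K L k) ≤ 1 := by
        rcases eq_or_ne k 0 with rfl | hk
        · simp
        · exact (hwK k hk).le
      have hkL : algebraMap K[X] L (Polynomial.C k) = algebraMap K L k := by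
        rw [IsScalarTower.algebraMap_apply K[X] E L, hAE, Polynomial.aeval_C,
          ← IsScalarTower.algebraMap_apply K E L]
      rw [← Polynomial.C_mul_X_pow_eq_monomial, map_mul, map_pow, hXL, hkL, map_mul, map_pow]
      exact mul_le_one' hk (pow_le_one' hwt.le n)
  have key := h95_card_zeros_aux (K := K) (A := K[X]) (E := E) (F := F) (L := L)
    (X : K[X]) h95_span_X_isMaximal Polynomial.X_ne_zero h95_surjective_quotient_span_X
    (fun v hv => hmemF v.toValuationSubring v.algebraMap_mem'
      (h95_mem_of_ord_nonneg v (by rw [← hXF]; exact hv.le)))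
    w hwA (by rw [hXL]; exact hwt) σ hσ (by rw [hXL]; exact hord)
    (IntermediateField.fixingSubgroup (IsScalarTower.toAlgHom E F L).fieldRange)
  rw [← key]
  refine Nat.card_congr (Equiv.subtypeEquivRight fun v => ?_)
  rw [hXF]

end Concrete

end Fermat.Agent.S24
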