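import Mathlib
import Fermat.Prelude.Def_AlgebraicCurve_DivisorClassGroup
import Fermat.Agent.S24.H72_FF1

/-!
# S24, FF1d: principal divisors have degree zero (from FF1b, the zeros theorem)

`ff_degree_principal_of` proves the interface statement FF1d from FF1b (taken as a hypothesis
`H59.ZerosStmt K F`, the exact shape of `plan_ff_zeros` quantified over the transcendental
element), FF1a and FF1c: apply FF1b to `f` and to `f⁻¹`, whose zeros are the poles of `f`, and
`K(f⁻¹) = K(f)`.
-/

set_option autoImplicit false

noncomputable section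

open AlgebraicCurve IntermediateField

namespace Fermat.Agent.S24

variable {K F : Type*} [Field K] [Field F] [Algebra K F]

/-- The statement of FF1b (for all transcendental elements). -/
def H59.ZerosStmt (K F : Type*) [Field K] [Field F] [Algebra K F] : Prop :=
  ∀ (x : F), Transcendental K x → ∀ [FiniteDimensional K⟮x⟯ F],
    {v : Place K F | 0 < v.ord x}.Finite ∧
      ∑ᶠ v ∈ {v : Place K F | 0 < v.ord x}, v.ord x = (Module.finrank K⟮x⟯ F : ℤ)

/-- Constants have order zero at every place. -/
theorem H59.ord_algebraMap_eq_zero' (v : Place K F) (a : K) : v.ord (algebraMap K F a) = 0 := by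
  rcases eq_or_ne a 0 with rfl | ha
  · simp
  · have hu : IsUnit (algebraMap K v.toValuationSubring a) := (ha.isUnit).map _
    have := v.ord_coe_unit hu.unit
    simpa using this

/-- `K(f⁻¹) = K(f)`. -/
theorem H59.adjoin_inv_eq (f : F) : K⟮f⁻¹⟯ = K⟮f⟯ := by
  apply le_antisymm
  · rw [adjoin_simple_le_iff]
    exact inv_mem (mem_adjoin_simple_self K f)
  · rw [adjoin_simple_le_iff]
    have := inv_mem (mem_adjoin_simple_self K f⁻¹)
    rwa [inv_inv] at this

theorem H59.finrank_adjoin_inv (f : F) :
    Module.finrank K⟮f⁻¹⟯ F = Module.finrank K⟮f⟯ F := by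
  rw [H59.adjoin_inv_eq]

theorem H59.degree_eq_sum_of_deg_eq_one (hdeg : ∀ v : Place K F, v.deg = 1) (D : Divisor K F) :
    Divisor.degree D = ∑ v ∈ D.support, D v := by
  have h : Divisor.degree D = D.sum fun v n => n * (v.deg : ℤ) := by
    simp [Divisor.degree, Finsupp.liftAddHom_apply]
  rw [h, Finsupp.sum]
  refine Finset.sum_congr rfl fun v _ => ?_
  rw [hdeg v, Nat.cast_one, mul_one]

variable [IsAlgClosed K]

/-- FF1d from FF1b: principal divisors have degree zero. -/
theorem ff_degree_principal_of (hzeros : H59.ZerosStmt K F)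
    (x : F) (hx : Transcendental K x) [FiniteDimensional K⟮x⟯ F]
    (f : F) (_hf : f ≠ 0) :
    {v : Place K F | v.ord f ≠ 0}.Finite ∧
      ∀ D : Divisor K F, (∀ v, D v = v.ord f) → Divisor.degree D = 0 := by
  classical
  by_cases halg : IsAlgebraic K f
  · -- constants
    have hint : IsIntegral K f := halg.isIntegral
    have hdeg1 : (minpoly K f).degree = 1 :=
      IsAlgClosed.degree_eq_one_of_irreducible K (minpoly.irreducible hint)
    obtain ⟨a, ha⟩ := minpoly.mem_range_of_degree_eq_one K f hdeg1
    have hord : ∀ v : Place K F, v.ord f = 0 := fun v => by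
      rw [← ha]; exact H59.ord_algebraMap_eq_zero' v a
    refine ⟨?_, fun D hD => ?_⟩
    · have : {v : Place K F | v.ord f ≠ 0} = ∅ := by
        ext v
        simp [hord v]
      rw [this]
      exact Set.finite_empty
    · have : D = 0 := by
        ext v
        rw [hD v, hord v]
        rfl
      rw [this, map_zero]
  · -- non-constant `f`
    have htr : Transcendental K f := halg
    have htr' : Transcendental K f⁻¹ := fun h => halg (IsAlgebraic.inv_iff.mp h)
    haveI := ff_finite_of_transcendental x hx f htr
    haveI := ff_finite_of_transcendental x hx f⁻¹ htr'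
    obtain ⟨hZfin, hZsum⟩ := hzeros f htr
    obtain ⟨hPfin, hPsum⟩ := hzeros f⁻¹ htr'
    rw [H59.finrank_adjoin_inv] at hPsum
    have hset : {v : Place K F | v.ord f ≠ 0}
        = {v : Place K F | 0 < v.ord f} ∪ {v : Place K F | 0 < v.ord f⁻¹} := by
      ext v
      simp only [Set.mem_setOf_eq, Set.mem_union, Place.ord_inv]
      omega
    refine ⟨by rw [hset]; exact hZfin.union hPfin, fun D hD => ?_⟩
    rw [H59.degree_eq_sum_of_deg_eq_one (fun v => ff_deg_eq_one x hx v) D]
    rw [finsum_mem_eq_finite_toFinset_sum _ hZfin] at hZsum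
    rw [finsum_mem_eq_finite_toFinset_sum _ hPfin] at hPsum
    have hsupp : D.support = hZfin.toFinset ∪ hPfin.toFinset := by
      ext v
      simp only [Finsupp.mem_support_iff, Finset.mem_union, Set.Finite.mem_toFinset,
        Set.mem_setOf_eq, hD v, Place.ord_inv]
      omega
    have hdisj : Disjoint hZfin.toFinset hPfin.toFinset := by
      rw [Finset.disjoint_left]
      intro v hv hv'
      simp only [Set.Finite.mem_toFinset, Set.mem_setOf_eq, Place.ord_inv] at hv hv'
      omega
    rw [hsupp, Finset.sum_union hdisj]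
    have h1 : ∑ v ∈ hZfin.toFinset, D v = (Module.finrank K⟮f⟯ F : ℤ) := by
      rw [← hZsum]
      exact Finset.sum_congr rfl fun v _ => hD v
    have h2 : ∑ v ∈ hPfin.toFinset, D v = -(Module.finrank K⟮f⟯ F : ℤ) := by
      rw [← hPsum, ← Finset.sum_neg_distrib]
      refine Finset.sum_congr rfl fun v _ => ?_
      rw [hD v, Place.ord_inv, neg_neg]
    rw [h1, h2, add_neg_cancel]

end Fermat.Agent.S24
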