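import Fermat.Agent.S24.H72_FF1b
import Fermat.Agent.S24.H59_FF1d

/-!
# S24, piece FF1d (helper72 + helper59): principal divisors have degree zero.

Glue of `ff_zeros` (FF1b, `H72_FF1b.lean`) with helper59's `ff_degree_principal_of`
(`H59_FF1d.lean`).
-/

set_option autoImplicit false

noncomputable section

open AlgebraicCurve IntermediateField

namespace Fermat.Agent.S24

variable {K F : Type*} [Field K] [Field F] [Algebra K F] [IsAlgClosed K] [CharZero K]

/-- FF1b for all transcendental elements, in the packaged form used by helper59. -/
theorem h72_zerosStmt : H59.ZerosStmt K F := fun x hx _ => ff_zeros x hx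

/-- FF1d. Principal divisors have degree zero. -/
theorem ff_degree_principal (x : F) (hx : Transcendental K x) [FiniteDimensional K⟮x⟯ F]
    (f : F) (hf : f ≠ 0) :
    {v : Place K F | v.ord f ≠ 0}.Finite ∧
      ∀ D : Divisor K F, (∀ v, D v = v.ord f) → Divisor.degree D = 0 :=
  ff_degree_principal_of h72_zerosStmt x hx f hf

end Fermat.Agent.S24
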