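import Fermat.Agent.S24.H17_FF2

/-!
# S24 / function-field layer (helper85): FF3, the Riemann–Hurwitz count

`K` algebraically closed of characteristic zero, `F / K⟮x⟯` finite.  For a non-zero differential
`ω` with divisor `D`:
`deg D = ∑_{a ∈ S} (n - r a) - n - r∞`, `n = [F : K⟮x⟯]`, where `r a` is the number of places over
`x = a`, `r∞` the number of poles of `x`, and `S` contains all branch values.

The interface statements FF1a (`deg v = 1`), FF1b (zeros of `y`), FF1d (principal divisors have
degree zero), FF2d and FF2e (order of `dx` at zeros of `x - a` and at poles of `x`) enter as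
explicit hypotheses of `ff_riemann_hurwitz_of`.
-/

set_option autoImplicit false

noncomputable section

open AlgebraicCurve KaehlerDifferential IntermediateField

namespace Fermat.Agent.S24.H85

variable {K F : Type*} [Field K] [Field F] [Algebra K F]

/-! ### Order and membership in the valuation ring -/

theorem mem_of_ord_nonneg (v : Place K F) {f : F} (h : 0 ≤ v.ord f) :
    f ∈ v.toValuationSubring := by
  rcases eq_or_ne f 0 with rfl | hf
  · exact v.toValuationSubring.zero_mem
  obtain ⟨π, hπ⟩ := IsDiscreteValuationRing.exists_irreducible v.toValuationSubring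
  obtain ⟨u, hu⟩ := v.exists_unit_mul_zpow hf hπ
  obtain ⟨n, hn⟩ := Int.eq_ofNat_of_zero_le h
  rw [hu, hn, zpow_natCast]
  exact v.toValuationSubring.mul_mem _ _ (Subtype.mem _)
    (v.toValuationSubring.pow_mem (Subtype.mem _) n)

theorem ord_nonneg_of_mem (v : Place K F) {f : F} (h : f ∈ v.toValuationSubring) :
    0 ≤ v.ord f := by
  rcases eq_or_ne f 0 with rfl | hf
  · simp
  have h1 : v.adicValuation f ≤ 1 := by
    have := v.adicValuation_coe ⟨f, h⟩
    rw [show ((⟨f, h⟩ : v.toValuationSubring) : F) = f from rfl] at this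
    rw [this]
    exact IsDedekindDomain.HeightOneSpectrum.intValuation_le_one _ _
  have h2 : WithZero.log (v.adicValuation f) ≤ 0 := by
    rw [← WithZero.log_one]
    exact (WithZero.log_le_log (v.adicValuation_ne_zero hf) one_ne_zero).mpr h1
  simp only [Place.ord]
  omega

theorem ord_pos_of_mem_maximalIdeal (v : Place K F) {f : F} (hf : f ≠ 0)
    (h : f ∈ v.toValuationSubring)
    (hm : (⟨f, h⟩ : v.toValuationSubring) ∈ IsLocalRing.maximalIdeal v.toValuationSubring) :
    0 < v.ord f := by
  have h1 : v.adicValuation f < 1 := by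
    have := v.adicValuation_coe ⟨f, h⟩
    rw [show ((⟨f, h⟩ : v.toValuationSubring) : F) = f from rfl] at this
    rw [this]
    exact (IsDedekindDomain.HeightOneSpectrum.intValuation_lt_one_iff_mem _ _).mpr hm
  have h2 : WithZero.log (v.adicValuation f) < 0 := by
    rw [← WithZero.log_one]
    exact (WithZero.log_lt_log (v.adicValuation_ne_zero hf) one_ne_zero).mpr h1
  simp only [Place.ord]
  omega

theorem mem_maximalIdeal_of_ord_pos (v : Place K F) {f : F} (hpos : 0 < v.ord f)
    (h : f ∈ v.toValuationSubring) :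
    (⟨f, h⟩ : v.toValuationSubring) ∈ IsLocalRing.maximalIdeal v.toValuationSubring := by
  have hf : f ≠ 0 := by
    rintro rfl
    simp at hpos
  rw [← v.heightOneSpectrum_asIdeal,
    ← IsDedekindDomain.HeightOneSpectrum.intValuation_lt_one_iff_mem, ← v.adicValuation_coe]
  show v.adicValuation f < 1
  have h2 : WithZero.log (v.adicValuation f) < 0 := by
    simp only [Place.ord] at hpos
    omega
  rw [← WithZero.log_one] at h2
  exact (WithZero.log_lt_log (v.adicValuation_ne_zero hf) one_ne_zero).mp h2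


/-! ### The fields `K⟮x - a⟯` and `K⟮x⁻¹⟯` -/

theorem adjoin_sub_algebraMap (x : F) (a : K) : K⟮x - algebraMap K F a⟯ = K⟮x⟯ := by
  apply le_antisymm
  · rw [IntermediateField.adjoin_simple_le_iff]
    exact sub_mem (IntermediateField.mem_adjoin_simple_self K x)
      (IntermediateField.algebraMap_mem _ a)
  · rw [IntermediateField.adjoin_simple_le_iff]
    have h : (x - algebraMap K F a) + algebraMap K F a ∈ K⟮x - algebraMap K F a⟯ :=
      add_mem (IntermediateField.mem_adjoin_simple_self K _)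
        (IntermediateField.algebraMap_mem _ a)
    rwa [sub_add_cancel] at h

theorem adjoin_inv (x : F) : K⟮x⁻¹⟯ = K⟮x⟯ := by
  apply le_antisymm
  · rw [IntermediateField.adjoin_simple_le_iff]
    exact inv_mem (IntermediateField.mem_adjoin_simple_self K x)
  · rw [IntermediateField.adjoin_simple_le_iff]
    have h := inv_mem (IntermediateField.mem_adjoin_simple_self K x⁻¹)
    rwa [inv_inv] at h

theorem finiteDimensional_of_eq {E E' : IntermediateField K F} (h : E = E')
    [FiniteDimensional E F] : FiniteDimensional E' F := by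
  subst h
  infer_instance

theorem finrank_of_eq {E E' : IntermediateField K F} (h : E = E') :
    Module.finrank E F = Module.finrank E' F := by
  subst h
  rfl

theorem transcendental_sub_algebraMap {x : F} (hx : Transcendental K x) (a : K) :
    Transcendental K (x - algebraMap K F a) := by
  intro h
  apply hx
  have h2 := h.add (isAlgebraic_algebraMap (R := K) (A := F) a)
  simpa using h2

theorem transcendental_inv {x : F} (hx : Transcendental K x) : Transcendental K x⁻¹ := by
  intro h
  apply hx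
  have h2 := h.inv
  simpa using h2

/-! ### Places and values of `x` -/

/-- At a place of degree one where `x` is regular, `x - a` vanishes for some constant `a`. -/
theorem exists_ord_sub_pos (v : Place K F) (hdeg : v.deg = 1) {x : F} (hx : Transcendental K x)
    (hmem : x ∈ v.toValuationSubring) : ∃ a : K, 0 < v.ord (x - algebraMap K F a) := by
  have h1 : (⊥ : Subalgebra K v.ResidueField) = ⊤ :=
    Subalgebra.bot_eq_top_of_finrank_eq_one hdeg
  have h2 : IsLocalRing.residue v.toValuationSubring ⟨x, hmem⟩ ∈ (⊥ : Subalgebra K v.ResidueField) := by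
    rw [h1]
    exact Algebra.mem_top
  obtain ⟨a, ha⟩ := Algebra.mem_bot.mp h2
  refine ⟨a, ?_⟩
  have hne : x - algebraMap K F a ≠ 0 := by
    intro h0
    apply hx
    rw [sub_eq_zero.mp h0]
    exact isAlgebraic_algebraMap a
  have hmem' : x - algebraMap K F a ∈ v.toValuationSubring :=
    v.toValuationSubring.sub_mem hmem (v.algebraMap_mem' a)
  refine ord_pos_of_mem_maximalIdeal v hne hmem' ?_
  rw [← IsLocalRing.residue_eq_zero_iff]
  have h3 : (⟨x - algebraMap K F a, hmem'⟩ : v.toValuationSubring)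
      = ⟨x, hmem⟩ - algebraMap K v.toValuationSubring a := by
    ext
    rfl
  rw [h3, map_sub, sub_eq_zero, ← ha]
  rfl

theorem eq_of_ord_sub_pos (v : Place K F) {x : F} {a b : K}
    (ha : 0 < v.ord (x - algebraMap K F a)) (hb : 0 < v.ord (x - algebraMap K F b)) : a = b := by
  by_contra hab
  have hma := mem_of_ord_nonneg v ha.le
  have hmb := mem_of_ord_nonneg v hb.le
  have h1 := mem_maximalIdeal_of_ord_pos v ha hma
  have h2 := mem_maximalIdeal_of_ord_pos v hb hmb
  have h3 := (IsLocalRing.maximalIdeal v.toValuationSubring).sub_mem h2 h1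
  have hc : algebraMap K F (a - b) ∈ v.toValuationSubring := v.algebraMap_mem' _
  have h4 : (⟨x - algebraMap K F b, hmb⟩ : v.toValuationSubring) - ⟨x - algebraMap K F a, hma⟩
      = ⟨algebraMap K F (a - b), hc⟩ := by
    ext
    show (x - algebraMap K F b) - (x - algebraMap K F a) = algebraMap K F (a - b)
    rw [map_sub]
    ring
  rw [h4] at h3
  have hne : algebraMap K F (a - b) ≠ 0 := by
    rw [Ne, map_eq_zero_iff _ (algebraMap K F).injective, sub_eq_zero]
    exact hab
  have h5 := ord_pos_of_mem_maximalIdeal v hne hc h3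
  rw [H17.ord_algebraMap_eq_zero] at h5
  exact lt_irrefl _ h5

theorem not_ord_sub_pos_of_pole (v : Place K F) {x : F} (hx : v.ord x < 0) (a : K) :
    ¬ 0 < v.ord (x - algebraMap K F a) := by
  intro ha
  have hma := mem_of_ord_nonneg v ha.le
  have hmem : x ∈ v.toValuationSubring := by
    have h := v.toValuationSubring.add_mem _ _ hma (v.algebraMap_mem' a)
    rwa [sub_add_cancel] at h
  have := ord_nonneg_of_mem v hmem
  omega

/-! ### Degree as a finite sum -/

theorem degree_eq_sum_of_subset (hdeg : ∀ v : Place K F, v.deg = 1) (E : Divisor K F)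
    (T : Finset (Place K F)) (hT : E.support ⊆ T) : Divisor.degree E = ∑ v ∈ T, E v := by
  have h1 : Divisor.degree E = ∑ v ∈ E.support, E v := by
    simp only [Divisor.degree, Finsupp.liftAddHom_apply, Finsupp.sum, AddMonoidHom.coe_mulRight,
      hdeg, Nat.cast_one, mul_one]
  rw [h1]
  exact Finset.sum_subset hT fun v _ hv => Finsupp.notMem_support_iff.mp hv


/-! ### The divisor of `dx` -/

section Main

/-- Zeros of `x - a`: finitely many, orders sum to `[F : K⟮x⟯]`. -/
theorem zeros_sub (x : F) (hx : Transcendental K x) [FiniteDimensional K⟮x⟯ F]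
    (hzeros : ∀ y : F, Transcendental K y → FiniteDimensional K⟮y⟯ F →
      {v : Place K F | 0 < v.ord y}.Finite ∧
        ∑ᶠ v ∈ {v : Place K F | 0 < v.ord y}, v.ord y = (Module.finrank K⟮y⟯ F : ℤ))
    (a : K) :
    ∃ Z : Finset (Place K F), (∀ v, v ∈ Z ↔ 0 < v.ord (x - algebraMap K F a)) ∧
      ∑ v ∈ Z, v.ord (x - algebraMap K F a) = (Module.finrank K⟮x⟯ F : ℤ) ∧
      Z.card = Nat.card {v : Place K F // 0 < v.ord (x - algebraMap K F a)} := by
  have h := hzeros (x - algebraMap K F a) (transcendental_sub_algebraMap hx a)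
    (finiteDimensional_of_eq (adjoin_sub_algebraMap x a).symm)
  rw [finrank_of_eq (adjoin_sub_algebraMap x a)] at h
  obtain ⟨hfin, h2⟩ := h
  refine ⟨hfin.toFinset, fun v => ?_, ?_, ?_⟩
  · rw [Set.Finite.mem_toFinset, Set.mem_ofPred_eq]
  · rw [← finsum_mem_eq_finite_toFinset_sum _ hfin]
    exact h2
  · rw [← Set.ncard_eq_toFinset_card _ hfin, ← Nat.card_coe_set_eq]
    rfl

/-- Poles of `x`: finitely many, orders sum to `-[F : K⟮x⟯]`. -/
theorem poles (x : F) (hx : Transcendental K x) [FiniteDimensional K⟮x⟯ F]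
    (hzeros : ∀ y : F, Transcendental K y → FiniteDimensional K⟮y⟯ F →
      {v : Place K F | 0 < v.ord y}.Finite ∧
        ∑ᶠ v ∈ {v : Place K F | 0 < v.ord y}, v.ord y = (Module.finrank K⟮y⟯ F : ℤ)) :
    ∃ P : Finset (Place K F), (∀ v, v ∈ P ↔ v.ord x < 0) ∧
      ∑ v ∈ P, v.ord x = -(Module.finrank K⟮x⟯ F : ℤ) ∧
      P.card = Nat.card {v : Place K F // v.ord x < 0} := by
  have h := hzeros x⁻¹ (transcendental_inv hx) (finiteDimensional_of_eq (adjoin_inv x).symm)
  rw [finrank_of_eq (adjoin_inv x)] at h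
  have hset : {v : Place K F | 0 < v.ord x⁻¹} = {v : Place K F | v.ord x < 0} := by
    ext v
    simp only [Set.mem_ofPred_eq, Place.ord_inv]
    omega
  rw [hset] at h
  obtain ⟨hfin, h2⟩ := h
  refine ⟨hfin.toFinset, fun v => ?_, ?_, ?_⟩
  · rw [Set.Finite.mem_toFinset, Set.mem_ofPred_eq]
  · rw [finsum_mem_eq_finite_toFinset_sum _ hfin] at h2
    rw [← h2, ← Finset.sum_neg_distrib]
    refine Finset.sum_congr rfl fun v _ => ?_
    rw [Place.ord_inv, neg_neg]
  · rw [← Set.ncard_eq_toFinset_card _ hfin, ← Nat.card_coe_set_eq]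
    rfl

/-- The degree of the divisor of `dx`. -/
theorem degree_div_dx (x : F) (hx : Transcendental K x) [FiniteDimensional K⟮x⟯ F]
    (hdeg : ∀ v : Place K F, v.deg = 1)
    (hzeros : ∀ y : F, Transcendental K y → FiniteDimensional K⟮y⟯ F →
      {v : Place K F | 0 < v.ord y}.Finite ∧
        ∑ᶠ v ∈ {v : Place K F | 0 < v.ord y}, v.ord y = (Module.finrank K⟮y⟯ F : ℤ))
    (hzero : ∀ (v : Place K F) (a : K), 0 < v.ord (x - algebraMap K F a) →
      v.ordDifferential (D K F x) = v.ord (x - algebraMap K F a) - 1)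
    (hpole : ∀ v : Place K F, v.ord x < 0 → v.ordDifferential (D K F x) = v.ord x - 1)
    (S : Finset K) (r : K → ℕ)
    (hr : ∀ a ∈ S, Nat.card {v : Place K F // 0 < v.ord (x - algebraMap K F a)} = r a)
    (hS : ∀ a ∉ S, Nat.card {v : Place K F // 0 < v.ord (x - algebraMap K F a)}
      = Module.finrank K⟮x⟯ F)
    (rinf : ℕ) (hrinf : Nat.card {v : Place K F // v.ord x < 0} = rinf)
    (E : Divisor K F) (hE : ∀ v, E v = v.ordDifferential (D K F x)) :
    Divisor.degree E
      = ∑ a ∈ S, ((Module.finrank K⟮x⟯ F : ℤ) - r a) - Module.finrank K⟮x⟯ F - rinf := by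
  classical
  choose Z hZmem hZsum hZcard using zeros_sub x hx hzeros
  obtain ⟨P, hPmem, hPsum, hPcard⟩ := poles x hx hzeros
  -- the sum of `e - 1` over the zeros of `x - a`
  have hZsum' : ∀ a, ∑ v ∈ Z a, (v.ord (x - algebraMap K F a) - 1)
      = (Module.finrank K⟮x⟯ F : ℤ) - (Z a).card := by
    intro a
    rw [Finset.sum_sub_distrib, hZsum a, Finset.sum_const, nsmul_eq_mul, mul_one]
  have hEZ : ∀ a, ∀ v ∈ Z a, E v = v.ord (x - algebraMap K F a) - 1 := fun a v hv => by
    rw [hE v, hzero v a ((hZmem a v).mp hv)]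
  have hEP : ∀ v ∈ P, E v = v.ord x - 1 := fun v hv => by
    rw [hE v, hpole v ((hPmem v).mp hv)]
  -- support
  have hsupp : E.support ⊆ P ∪ S.biUnion Z := by
    intro v hv
    by_contra hvT
    rw [Finset.mem_union, not_or] at hvT
    obtain ⟨hvP, hvZ⟩ := hvT
    have hx0 : 0 ≤ v.ord x := by
      rw [hPmem] at hvP
      omega
    obtain ⟨a, ha⟩ := exists_ord_sub_pos v (hdeg v) hx (mem_of_ord_nonneg v hx0)
    have haS : a ∉ S := fun haS =>
      hvZ (Finset.mem_biUnion.mpr ⟨a, haS, (hZmem a v).mpr ha⟩)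
    have h0 : ∑ w ∈ Z a, (w.ord (x - algebraMap K F a) - 1) = 0 := by
      rw [hZsum' a, hZcard a, hS a haS, sub_self]
    have h1 := (Finset.sum_eq_zero_iff_of_nonneg (fun w hw => by
      have := (hZmem a w).mp hw
      omega)).mp h0 v ((hZmem a v).mpr ha)
    exact (Finsupp.mem_support_iff.mp hv) (by rw [hEZ a v ((hZmem a v).mpr ha), h1])
  rw [degree_eq_sum_of_subset hdeg E _ hsupp]
  have hdisj1 : Disjoint P (S.biUnion Z) := by
    rw [Finset.disjoint_left]
    intro v hvP hvZ
    obtain ⟨a, -, hva⟩ := Finset.mem_biUnion.mp hvZ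
    exact not_ord_sub_pos_of_pole v ((hPmem v).mp hvP) a ((hZmem a v).mp hva)
  have hdisj2 : (S : Set K).PairwiseDisjoint Z := by
    intro a _ b _ hab
    rw [Function.onFun, Finset.disjoint_left]
    intro v hva hvb
    exact hab (eq_of_ord_sub_pos v ((hZmem a v).mp hva) ((hZmem b v).mp hvb))
  rw [Finset.sum_union hdisj1, Finset.sum_biUnion hdisj2, Finset.sum_congr rfl hEP,
    Finset.sum_sub_distrib, hPsum, Finset.sum_const, nsmul_eq_mul, mul_one, hPcard, hrinf]
  have h3 : ∑ a ∈ S, ∑ v ∈ Z a, E v = ∑ a ∈ S, ((Module.finrank K⟮x⟯ F : ℤ) - r a) := by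
    refine Finset.sum_congr rfl fun a ha => ?_
    rw [Finset.sum_congr rfl (hEZ a), hZsum' a, hZcard a, hr a ha]
  rw [h3]
  ring

variable [IsAlgClosed K] [CharZero K]

/-- **FF3** (Riemann–Hurwitz count), with the interface statements FF1a, FF1b, FF1d, FF2d, FF2e as
hypotheses. -/
theorem ff_riemann_hurwitz_of (x : F) (hx : Transcendental K x) [FiniteDimensional K⟮x⟯ F]
    (hdeg : ∀ v : Place K F, v.deg = 1)
    (hzeros : ∀ y : F, Transcendental K y → FiniteDimensional K⟮y⟯ F →
      {v : Place K F | 0 < v.ord y}.Finite ∧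
        ∑ᶠ v ∈ {v : Place K F | 0 < v.ord y}, v.ord y = (Module.finrank K⟮y⟯ F : ℤ))
    (hprinc : ∀ f : F, f ≠ 0 → {v : Place K F | v.ord f ≠ 0}.Finite ∧
      ∀ E : Divisor K F, (∀ v, E v = v.ord f) → Divisor.degree E = 0)
    (hzero : ∀ (v : Place K F) (a : K), 0 < v.ord (x - algebraMap K F a) →
      v.ordDifferential (D K F x) = v.ord (x - algebraMap K F a) - 1)
    (hpole : ∀ v : Place K F, v.ord x < 0 → v.ordDifferential (D K F x) = v.ord x - 1)
    (S : Finset K) (r : K → ℕ)
    (hr : ∀ a ∈ S, Nat.card {v : Place K F // 0 < v.ord (x - algebraMap K F a)} = r a)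
    (hS : ∀ a ∉ S, Nat.card {v : Place K F // 0 < v.ord (x - algebraMap K F a)}
      = Module.finrank K⟮x⟯ F)
    (rinf : ℕ) (hrinf : Nat.card {v : Place K F // v.ord x < 0} = rinf)
    (ω : Ω[F⁄K]) (hω : ω ≠ 0) (E : Divisor K F) (hE : ∀ v, E v = v.ordDifferential ω) :
    Divisor.degree E
      = ∑ a ∈ S, ((Module.finrank K⟮x⟯ F : ℤ) - r a) - Module.finrank K⟮x⟯ F - rinf := by
  classical
  obtain ⟨f, rfl⟩ := ff_omega_span x hx x hx ω
  have hf : f ≠ 0 := by
    rintro rfl
    exact hω (zero_smul _ _)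
  have hdx : D K F x ≠ 0 := ff_D_ne_zero x hx x hx
  obtain ⟨hfin, hdeg0⟩ := hprinc f hf
  let Ef : Divisor K F := Finsupp.ofSupportFinite (fun v => v.ord f) hfin
  have hEf : ∀ v, Ef v = v.ord f := fun v => rfl
  have hsub : ∀ v, (E - Ef) v = v.ordDifferential (D K F x) := fun v => by
    rw [Finsupp.sub_apply, hE v, hEf v, ff_ordDifferential_smul x hx v f hf _ hdx]
    ring
  have h1 := degree_div_dx x hx hdeg hzeros hzero hpole S r hr hS rinf hrinf (E - Ef) hsub
  rw [map_sub, hdeg0 Ef hEf, sub_zero] at h1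
  exact h1

end Main

end Fermat.Agent.S24.H85
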