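import Mathlib
import Fermat.Prelude.Def_AlgebraicCurve_DivisorClassGroup
import Fermat.Agent.S24.FF.Dict
import Fermat.Agent.S24.H72_FF1

/-!
# S24, piece FF1b (helper72): the zeros of a non-constant function.

`K` algebraically closed of characteristic zero, `x : F` transcendental over `K`,
`F / K(x)` finite.  Then `x` has finitely many zeros and their orders sum to `[F : K(x)]`.

The proof is the fundamental identity `∑ e f = n` for the integral closure `B` of `K[x]` in `F`
at the prime `(x)` of `K[x]`, together with the dictionary between the places of `F / K`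
containing `B` and the height-one primes of `B`.  The core statement `h72_zeros_abstract` is
proved for an abstract principal ideal domain `A = K[t]` with fraction field `E` and an abstract
Dedekind domain `B`, finite over `A`, with fraction field `F`.
-/

set_option autoImplicit false
set_option linter.unusedSectionVars false
set_option linter.deprecated false

noncomputable section

open AlgebraicCurve IntermediateField Polynomial IsDedekindDomain

namespace Fermat.Agent.S24

section Abstract

variable {K F : Type*} [Field K] [Field F] [Algebra K F]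
variable (A : Type*) [CommRing A] [IsDomain A] [IsPrincipalIdealRing A]
variable (E : Type*) [Field E]
variable [Algebra K A] [Algebra A E] [IsFractionRing A E]
variable [Algebra A F] [Algebra E F] [IsScalarTower A E F] [IsScalarTower K A F]
variable [FiniteDimensional E F] [Algebra.IsSeparable E F]
variable (t : A) (ht : Prime t)
variable (hconst : ∀ a : A, ∃ c : K, a - algebraMap K A c ∈ Ideal.span {t})


include ht in
theorem h72a_p_ne_bot : Ideal.span {t} ≠ (⊥ : Ideal A) := by
  rw [Ne, Ideal.span_singleton_eq_bot]
  exact ht.ne_zero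

include ht in
theorem h72a_p_isPrime : (Ideal.span {t} : Ideal A).IsPrime :=
  (Ideal.span_singleton_prime ht.ne_zero).mpr ht

include ht in
theorem h72a_p_isMaximal : (Ideal.span {t} : Ideal A).IsMaximal :=
  (h72a_p_isPrime A t ht).isMaximal (h72a_p_ne_bot A t ht)

include ht in
theorem h72a_inertiaDeg_eq_one [IsAlgClosed K]
    (hconst : ∀ a : A, ∃ c : K, a - algebraMap K A c ∈ Ideal.span {t})
    (B : Type*) [CommRing B] [Algebra A B] [Algebra.IsIntegral A B]
    (P : Ideal B) [P.IsPrime] [P.LiesOver (Ideal.span {t})] :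
    Ideal.inertiaDeg' (Ideal.span {t}) P = 1 := by
  rw [Ideal.inertiaDeg'_algebraMap]
  let f : K →+* (A ⧸ (Ideal.span {t} : Ideal A)) :=
    (Ideal.Quotient.mk (Ideal.span {t})).comp (algebraMap K A)
  have hf : Function.Surjective f := by
    intro a
    obtain ⟨a, rfl⟩ := Ideal.Quotient.mk_surjective a
    obtain ⟨c, hc⟩ := hconst a
    refine ⟨c, ?_⟩
    rw [RingHom.comp_apply]
    exact (Ideal.Quotient.eq.mpr hc).symm
  let g : (A ⧸ (Ideal.span {t} : Ideal A)) →+* (B ⧸ P) :=
    algebraMap (A ⧸ (Ideal.span {t} : Ideal A)) (B ⧸ P)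
  have hg : g.IsIntegral := Algebra.IsIntegral.isIntegral
  have hgf : (g.comp f).IsIntegral :=
    RingHom.IsIntegral.trans f g (RingHom.isIntegral_of_surjective f hf) hg
  have hbij : Function.Bijective (g.comp f) :=
    IsAlgClosed.ringHom_bijective_of_isIntegral (g.comp f) hgf
  have hgbij : Function.Bijective g := by
    refine ⟨?_, ?_⟩
    · intro a b hab
      obtain ⟨a', rfl⟩ := hf a
      obtain ⟨b', rfl⟩ := hf b
      exact congrArg f (hbij.1 hab)
    · intro y
      obtain ⟨c, hc⟩ := hbij.2 y
      exact ⟨f c, hc⟩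
  have : Nontrivial (A ⧸ (Ideal.span {t} : Ideal A)) :=
    Ideal.Quotient.nontrivial_iff.mpr (h72a_p_isPrime A t ht).ne_top
  exact Module.finrank_of_bijective_algebraMap hgbij

end Abstract

section Dict2

open WithZero

variable {K F : Type*} [Field K] [Field F] [Algebra K F]
variable (B : Type*) [CommRing B] [IsDedekindDomain B] [Algebra B F] [IsFractionRing B F]
variable [Algebra K B] [IsScalarTower K B F]

/-- `ord` at the place of a height-one prime, on elements of `B`. -/
theorem h72_ord_algebraMap (w : HeightOneSpectrum B) (b : B) (hb : b ≠ 0) :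
    (Place.ofHeightOneSpectrum (K := K) (F := F) w).ord (algebraMap B F b)
      = -(WithZero.log (w.intValuation b)) := by
  have hbF : algebraMap B F b ≠ 0 := by
    rwa [Ne, map_eq_zero_iff _ (IsFractionRing.injective B F)]
  rw [ord_ofHeightOneSpectrum (K := K) w hbF, HeightOneSpectrum.valuation_of_algebraMap]

theorem h72_ord_pos_iff (w : HeightOneSpectrum B) (b : B) (hb : b ≠ 0) :
    0 < (Place.ofHeightOneSpectrum (K := K) (F := F) w).ord (algebraMap B F b)
      ↔ b ∈ w.asIdeal := by
  rw [h72_ord_algebraMap B w b hb, ← HeightOneSpectrum.intValuation_lt_one_iff_mem,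
    neg_pos, WithZero.log_lt_iff_lt_exp (w.intValuation_ne_zero b hb), exp_zero]

theorem h72_ord_eq_multiplicity (w : HeightOneSpectrum B) (b : B) (hb : b ≠ 0) :
    (Place.ofHeightOneSpectrum (K := K) (F := F) w).ord (algebraMap B F b)
      = (multiplicity w.asIdeal (Ideal.span {b}) : ℤ) := by
  rw [h72_ord_algebraMap B w b hb, HeightOneSpectrum.intValuation_eq_exp_neg_multiplicity w hb,
    log_exp, neg_neg]

theorem h72_ofHeightOneSpectrum_injective :
    Function.Injective (Place.ofHeightOneSpectrum (K := K) (F := F) (R := B)) := by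
  intro w₁ w₂ h
  have h1 : (w₁.valuation F).valuationSubring = (w₂.valuation F).valuationSubring :=
    congrArg Place.toValuationSubring h
  exact HeightOneSpectrum.eq_of_valuation_isEquiv_valuation
    ((Valuation.isEquiv_iff_valuationSubring _ _).mpr h1)

end Dict2

section Main

variable {K F : Type*} [Field K] [Field F] [Algebra K F]

theorem h72_mem_of_ord_nonneg (v : Place K F) {f : F} (h : 0 ≤ v.ord f) :
    f ∈ v.toValuationSubring := by
  rcases eq_or_ne f 0 with rfl | hf
  · exact v.toValuationSubring.zero_mem
  obtain ⟨π, hπ⟩ := IsDiscreteValuationRing.exists_irreducible v.toValuationSubring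
  obtain ⟨u, hu⟩ := v.exists_unit_mul_zpow hf hπ
  obtain ⟨n, hn⟩ := Int.eq_ofNat_of_zero_le h
  rw [hu, hn, zpow_natCast]
  exact v.toValuationSubring.mul_mem _ _ (Subtype.mem _)
    (v.toValuationSubring.pow_mem (Subtype.mem _) n)

variable (A : Type*) [CommRing A] [IsDomain A] [IsPrincipalIdealRing A]
variable (E : Type*) [Field E]
variable [Algebra K A] [Algebra A E] [IsFractionRing A E]
variable [Algebra A F] [Algebra E F] [IsScalarTower A E F] [IsScalarTower K A F]
variable (B : Type*) [CommRing B] [IsDedekindDomain B] [Algebra A B] [Module.Finite A B]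
variable [Algebra B F] [IsFractionRing B F] [IsScalarTower A B F]
variable [Algebra K B] [IsScalarTower K B F]
variable (t : A) (ht : Prime t) (hgen : Algebra.adjoin K {t} = ⊤)

include hgen in
/-- If `t ∈ O_v` then `A = K[t] ⊆ O_v`. -/
theorem h72_A_le (v : Place K F) (hv : algebraMap A F t ∈ v.toValuationSubring) (a : A) :
    algebraMap A F a ∈ v.toValuationSubring := by
  have ha : a ∈ Algebra.adjoin K {t} := by rw [hgen]; exact Algebra.mem_top
  induction ha using Algebra.adjoin_induction with
  | mem x hx =>
    rw [Set.mem_singleton_iff] at hx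
    rw [hx]; exact hv
  | algebraMap r =>
    rw [← IsScalarTower.algebraMap_apply K A F]
    exact v.algebraMap_mem' r
  | add x y _ _ hx hy =>
    rw [map_add]; exact v.toValuationSubring.add_mem _ _ hx hy
  | mul x y _ _ hx hy =>
    rw [map_mul]; exact v.toValuationSubring.mul_mem _ _ hx hy

include hgen in
/-- If `t ∈ O_v` then `B ⊆ O_v`. -/
theorem h72_B_le (v : Place K F) (hv : algebraMap A F t ∈ v.toValuationSubring) (b : B) :
    algebraMap B F b ∈ v.toValuationSubring := by
  have hb : IsIntegral A b := Algebra.IsIntegral.isIntegral b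
  let φ : A →+* v.toValuationSubring :=
    (algebraMap A F).codRestrict v.toValuationSubring.toSubring (h72_A_le A t hgen v hv)
  have hb' : IsIntegral v.toValuationSubring (algebraMap B F b) :=
    IsIntegral.map_of_comp_eq φ (algebraMap B F)
      (by ext a; exact IsScalarTower.algebraMap_apply A B F a) hb
  obtain ⟨y, hy⟩ := IsIntegrallyClosed.isIntegral_iff.mp hb'
  rw [← hy]
  exact y.2

include hgen in
theorem h72a_hconst (a : A) : ∃ c : K, a - algebraMap K A c ∈ Ideal.span {t} := by
  have ha : a ∈ Algebra.adjoin K {t} := by rw [hgen]; exact Algebra.mem_top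
  rw [Algebra.adjoin_singleton_eq_range_aeval] at ha
  obtain ⟨q, rfl⟩ := ha
  refine ⟨q.coeff 0, ?_⟩
  have h1 : (X : K[X]) ∣ q - C (q.coeff 0) := by
    rw [Polynomial.X_dvd_iff]; simp
  obtain ⟨r, hr⟩ := h1
  have h2 : (Polynomial.aeval t) q - algebraMap K A (q.coeff 0) = t * Polynomial.aeval t r := by
    have := congrArg (Polynomial.aeval t) hr
    rw [map_sub, map_mul, Polynomial.aeval_X, Polynomial.aeval_C] at this
    exact this
  show (Polynomial.aeval t) q - algebraMap K A (q.coeff 0) ∈ Ideal.span {t}
  rw [h2]
  exact Ideal.mul_mem_right _ _ (Ideal.subset_span rfl)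

end Main

section Main2

theorem h72_zeros_abstract
    {K F : Type*} [Field K] [Field F] [Algebra K F] [IsAlgClosed K]
    (A : Type*) [CommRing A] [IsDomain A] [IsPrincipalIdealRing A]
    (E : Type*) [Field E]
    [Algebra K A] [Algebra A E] [IsFractionRing A E]
    [Algebra A F] [Algebra E F] [IsScalarTower A E F] [IsScalarTower K A F]
    (B : Type*) [CommRing B] [IsDedekindDomain B] [Algebra A B] [Module.Finite A B]
    [Algebra B F] [IsFractionRing B F] [IsScalarTower A B F]
    [Algebra K B] [IsScalarTower K B F]
    (t : A) (ht : Prime t) (hgen : Algebra.adjoin K {t} = ⊤) :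
    {v : Place K F | 0 < v.ord (algebraMap A F t)}.Finite ∧
      ∑ᶠ v ∈ {v : Place K F | 0 < v.ord (algebraMap A F t)}, v.ord (algebraMap A F t)
        = (Module.finrank E F : ℤ) := by
  classical
  have hp0 : (Ideal.span {t} : Ideal A) ≠ ⊥ := h72a_p_ne_bot A t ht
  have hpmax : (Ideal.span {t} : Ideal A).IsMaximal := h72a_p_isMaximal A t ht
  have htF : algebraMap A F t = algebraMap B F (algebraMap A B t) :=
    IsScalarTower.algebraMap_apply A B F t
  have hinjAF : Function.Injective (algebraMap A F) := by
    rw [IsScalarTower.algebraMap_eq A E F]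
    exact (algebraMap E F).injective.comp (IsFractionRing.injective A E)
  have hinjAB : Function.Injective (algebraMap A B) := by
    intro a b hab
    apply hinjAF
    rw [IsScalarTower.algebraMap_apply A B F, IsScalarTower.algebraMap_apply A B F, hab]
  have htB0 : algebraMap A B t ≠ 0 := by
    intro h
    exact ht.ne_zero (hinjAB (by rw [h, map_zero]))
  have hmap : Ideal.map (algebraMap A B) (Ideal.span {t}) = Ideal.span {algebraMap A B t} := by
    rw [Ideal.map_span, Set.image_singleton]
  have hmap0 : Ideal.map (algebraMap A B) (Ideal.span {t}) ≠ ⊥ := by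
    rw [hmap, Ne, Ideal.span_singleton_eq_bot]; exact htB0
  have hfaith : FaithfulSMul A B := (faithfulSMul_iff_algebraMap_injective A B).mpr hinjAB
  have htf : Module.IsTorsionFree A B := inferInstance
  have key := Ideal.sum_ramification_inertia B E F hp0
  -- the set of height-one primes containing `t`
  set W : Set (HeightOneSpectrum B) := {w | algebraMap A B t ∈ w.asIdeal} with hW
  have hΦ : Set.BijOn (Place.ofHeightOneSpectrum (K := K) (F := F) (R := B)) W
      {v | 0 < v.ord (algebraMap A F t)} := by
    refine ⟨?_, (h72_ofHeightOneSpectrum_injective B).injOn, ?_⟩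
    · intro w hw
      show 0 < (Place.ofHeightOneSpectrum w).ord (algebraMap A F t)
      rw [htF, h72_ord_pos_iff B w _ htB0]
      exact hw
    · intro v hv
      have hvt : algebraMap A F t ∈ v.toValuationSubring :=
        h72_mem_of_ord_nonneg v (le_of_lt hv)
      obtain ⟨w, hw⟩ := exists_heightOneSpectrum_of_le v (h72_B_le A B t hgen v hvt)
      have hvw : Place.ofHeightOneSpectrum (K := K) (F := F) w = v := Place.ext hw.symm
      refine ⟨w, ?_, hvw⟩
      have h1 : 0 < (Place.ofHeightOneSpectrum (K := K) (F := F) w).ord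
          (algebraMap B F (algebraMap A B t)) := by
        rw [hvw, ← htF]; exact hv
      exact (h72_ord_pos_iff B w _ htB0).mp h1
  have hΨ : Set.BijOn HeightOneSpectrum.asIdeal W
      (↑(IsDedekindDomain.primesOverFinset (Ideal.span {t}) B) : Set (Ideal B)) := by
    rw [IsDedekindDomain.coe_primesOverFinset hp0 B]
    refine ⟨?_, ?_, ?_⟩
    · intro w hw
      refine ⟨w.isPrime, ⟨?_⟩⟩
      refine hpmax.eq_of_le ?_ ?_
      · exact (Ideal.comap_ne_top _ w.isPrime.ne_top)
      · rw [Ideal.span_le, Set.singleton_subset_iff]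
        exact hw
    · intro w₁ _ w₂ _ h
      exact HeightOneSpectrum.ext h
    · intro P hP
      have hPne : P ≠ ⊥ := Ideal.ne_bot_of_mem_primesOver hp0 hP
      obtain ⟨hPprime, hPlies⟩ := hP
      refine ⟨⟨P, hPprime, hPne⟩, ?_, rfl⟩
      show algebraMap A B t ∈ P
      have : t ∈ P.under A := by
        rw [← hPlies.over]; exact Ideal.subset_span rfl
      exact this
  have hord : ∀ w ∈ W, (Place.ofHeightOneSpectrum (K := K) (F := F) w).ord (algebraMap A F t)
      = ((Ideal.ramificationIdx' (Ideal.span {t}) w.asIdeal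
          * Ideal.inertiaDeg' (Ideal.span {t}) w.asIdeal : ℕ) : ℤ) := by
    intro w hw
    have hmem := hΨ.mapsTo hw
    rw [Finset.mem_coe, IsDedekindDomain.mem_primesOverFinset_iff hp0 B] at hmem
    have := hmem.1
    have := hmem.2
    rw [h72a_inertiaDeg_eq_one A t ht (h72a_hconst A t hgen) B w.asIdeal, mul_one,
      Ideal.IsDedekindDomain.ramificationIdx'_eq_multiplicity hmap0 w.isPrime, hmap, htF,
      h72_ord_eq_multiplicity B w _ htB0]
  have hWfin : W.Finite := by
    have := (IsDedekindDomain.primesOverFinset (Ideal.span {t}) B).finite_toSet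
    exact (Set.BijOn.finite_iff_finite hΨ).mpr this
  refine ⟨(Set.BijOn.finite_iff_finite hΦ).mp hWfin, ?_⟩
  rw [← finsum_mem_eq_of_bijOn (Place.ofHeightOneSpectrum (K := K) (F := F) (R := B)) hΦ
    (f := fun w => (Place.ofHeightOneSpectrum (K := K) (F := F) w).ord (algebraMap A F t))
    (fun w _ => rfl)]
  rw [finsum_mem_congr rfl hord]
  rw [finsum_mem_eq_of_bijOn HeightOneSpectrum.asIdeal hΨ
    (g := fun P => ((Ideal.ramificationIdx' (Ideal.span {t}) P
          * Ideal.inertiaDeg' (Ideal.span {t}) P : ℕ) : ℤ)) (fun w _ => rfl)]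
  rw [finsum_mem_coe_finset, ← Nat.cast_sum, key]

end Main2

section Concrete

open scoped IntermediateField.algebraAdjoinAdjoin

variable {K F : Type*} [Field K] [Field F] [Algebra K F]

/-- FF1b. Zeros of `x`: finitely many, and the orders sum to `[F : K(x)]`. -/
theorem ff_zeros [IsAlgClosed K] [CharZero K] (x : F) (hx : Transcendental K x)
    [FiniteDimensional K⟮x⟯ F] :
    {v : Place K F | 0 < v.ord x}.Finite ∧
      ∑ᶠ v ∈ {v : Place K F | 0 < v.ord x}, v.ord x = (Module.finrank K⟮x⟯ F : ℤ) := by
  have hPID : IsPrincipalIdealRing (Algebra.adjoin K {x}) :=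
    IsPrincipalIdealRing.of_surjective
      (Polynomial.algEquivOfTranscendental K x hx).toRingEquiv.toRingHom
      (Polynomial.algEquivOfTranscendental K x hx).surjective
  have hprime : Prime (⟨x, Algebra.self_mem_adjoin_singleton K x⟩ : Algebra.adjoin K {x}) := by
    have h := (MulEquiv.prime_iff (p := (X : K[X]))
      (Polynomial.algEquivOfTranscendental K x hx)).mpr (Polynomial.prime_X (R := K))
    rwa [Polynomial.algEquivOfTranscendental_apply_X] at h
  have hDed : IsDedekindDomain (integralClosure (Algebra.adjoin K {x}) F) :=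
    integralClosure.isDedekindDomain (Algebra.adjoin K {x}) K⟮x⟯ F
  have hfin : Module.Finite (Algebra.adjoin K {x}) (integralClosure (Algebra.adjoin K {x}) F) :=
    IsIntegralClosure.finite (Algebra.adjoin K {x}) K⟮x⟯ F _
  have hfrac : IsFractionRing (integralClosure (Algebra.adjoin K {x}) F) F :=
    integralClosure.isFractionRing_of_finite_extension K⟮x⟯ F
  have hgen : Algebra.adjoin K {(⟨x, Algebra.self_mem_adjoin_singleton K x⟩ : Algebra.adjoin K {x})}
      = ⊤ := by
    have h := Algebra.adjoin_adjoin_coe_preimage (R := K) (s := ({x} : Set F))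
    have h2 : ((↑) : Algebra.adjoin K ({x} : Set F) → F) ⁻¹' {x}
        = {(⟨x, Algebra.self_mem_adjoin_singleton K x⟩ : Algebra.adjoin K {x})} := by
      ext y
      simp only [Set.mem_preimage, Set.mem_singleton_iff]
      exact ⟨fun hy => Subtype.ext hy, fun hy => congrArg Subtype.val hy⟩
    rwa [h2] at h
  exact h72_zeros_abstract (Algebra.adjoin K {x}) K⟮x⟯
    (integralClosure (Algebra.adjoin K {x}) F) ⟨x, Algebra.self_mem_adjoin_singleton K x⟩ hprime hgen

end Concrete

end Fermat.Agent.S24
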