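import Mathlib

/-!
# S24 / function-field layer (helper17): Kähler differentials of a function field in one variable

`Ω[F⁄K]` is spanned by `D x` as soon as `F` is algebraic over `K⟮x⟯` (characteristic zero).
-/

set_option autoImplicit false

namespace Fermat.Agent.S24.H17

open KaehlerDifferential IntermediateField Polynomial

variable {K F : Type*} [Field K] [Field F] [Algebra K F]

/-- The elements `f` of `F` whose differential lies in the line spanned by `ω`. -/
def dSpanField (ω : Ω[F⁄K]) : IntermediateField K F where
  carrier := {f | D K F f ∈ Submodule.span F {ω}}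
  mul_mem' := by
    intro a b ha hb
    simp only [Set.mem_ofPred_eq] at ha hb ⊢
    rw [Derivation.leibniz]
    exact Submodule.add_mem _ (Submodule.smul_mem _ _ hb) (Submodule.smul_mem _ _ ha)
  one_mem' := by
    simp only [Set.mem_ofPred_eq]
    rw [Derivation.map_one_eq_zero]
    exact Submodule.zero_mem _
  add_mem' := by
    intro a b ha hb
    simp only [Set.mem_ofPred_eq] at ha hb ⊢
    rw [map_add]
    exact Submodule.add_mem _ ha hb
  zero_mem' := by
    simp only [Set.mem_ofPred_eq]
    rw [map_zero]
    exact Submodule.zero_mem _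
  algebraMap_mem' := by
    intro r
    simp only [Set.mem_ofPred_eq]
    rw [Derivation.map_algebraMap]
    exact Submodule.zero_mem _
  inv_mem' := by
    intro a ha
    simp only [Set.mem_ofPred_eq] at ha ⊢
    rcases eq_or_ne a 0 with rfl | h0
    · simp
    · have h1 : D K F (a * a⁻¹) = 0 := by
        rw [mul_inv_cancel₀ h0, Derivation.map_one_eq_zero]
      rw [Derivation.leibniz] at h1
      have h2 : D K F a⁻¹ = -(a⁻¹ • a⁻¹ • D K F a) := by
        have h3 : a • D K F a⁻¹ = -(a⁻¹ • D K F a) := eq_neg_of_add_eq_zero_left h1
        calc D K F a⁻¹ = a⁻¹ • a • D K F a⁻¹ := by rw [smul_smul, inv_mul_cancel₀ h0, one_smul]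
          _ = -(a⁻¹ • a⁻¹ • D K F a) := by rw [h3, smul_neg]
      rw [h2]
      exact Submodule.neg_mem _ (Submodule.smul_mem _ _ (Submodule.smul_mem _ _ ha))

theorem mem_dSpanField {ω : Ω[F⁄K]} {f : F} :
    f ∈ dSpanField (K := K) ω ↔ D K F f ∈ Submodule.span F {ω} := Iff.rfl

/-- Differentiating a polynomial expression in `f` with coefficients in `dSpanField ω`. -/
theorem D_aeval_sub_mem (ω : Ω[F⁄K]) (f : F) (p : Polynomial (dSpanField (K := K) ω)) :
    D K F (aeval f p) - aeval f (derivative p) • D K F f ∈ Submodule.span F {ω} := by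
  induction p using Polynomial.induction_on' with
  | add p q hp hq =>
    have : D K F (aeval f (p + q)) - aeval f (derivative (p + q)) • D K F f
        = (D K F (aeval f p) - aeval f (derivative p) • D K F f)
          + (D K F (aeval f q) - aeval f (derivative q) • D K F f) := by
      rw [map_add, map_add, derivative_add, map_add, add_smul]
      abel
    rw [this]
    exact Submodule.add_mem _ hp hq
  | monomial n a =>
    have h1 : aeval f (monomial n a) = (a : F) * f ^ n := by
      rw [aeval_monomial]; rfl
    have h2 : aeval f (derivative (monomial n a)) = (a : F) * (n : F) * f ^ (n - 1) := by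
      rw [derivative_monomial, aeval_monomial, map_mul, map_natCast]; rfl
    rw [h1, h2, Derivation.leibniz, Derivation.leibniz_pow]
    have h3 : (a : F) • (n • f ^ (n - 1) • D K F f) + f ^ n • D K F (a : F)
        - ((a : F) * (n : F) * f ^ (n - 1)) • D K F f = f ^ n • D K F (a : F) := by
      rw [← Nat.cast_smul_eq_nsmul F n, smul_smul, smul_smul, mul_assoc]
      abel
    rw [h3]
    exact Submodule.smul_mem _ _ a.2

/-- If `f` is algebraic over `K⟮x⟯` (characteristic zero) then `D f ∈ F · D x`. -/
theorem D_mem_span_D_of_isAlgebraic [CharZero K] (x f : F) (hf : IsAlgebraic K⟮x⟯ f) :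
    D K F f ∈ Submodule.span F {D K F x} := by
  set E := dSpanField (K := K) (D K F x) with hE
  have hxE : x ∈ E := Submodule.mem_span_singleton_self _
  have hle : K⟮x⟯ ≤ E := adjoin_simple_le_iff.mpr hxE
  -- `f` is algebraic over `E`
  have hfE : IsAlgebraic E f := by
    obtain ⟨p, hp0, hp⟩ := hf
    refine ⟨p.map (inclusion hle).toRingHom, ?_, ?_⟩
    · exact (Polynomial.map_ne_zero_iff (inclusion hle).toRingHom.injective).mpr hp0
    · have hcomp : (algebraMap E F).comp (inclusion hle).toRingHom = algebraMap K⟮x⟯ F := rfl
      rw [aeval_def, eval₂_map, hcomp]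
      rw [aeval_def] at hp
      exact hp
  have hint : IsIntegral E f := hfE.isIntegral
  have : CharZero E := charZero_of_injective_algebraMap (algebraMap K E).injective
  have hsep : (minpoly E f).Separable := (minpoly.irreducible hint).separable
  have hne : aeval f (derivative (minpoly E f)) ≠ 0 := by
    have := hsep.aeval_derivative_ne_zero (minpoly.aeval E f)
    exact this
  have key := D_aeval_sub_mem (K := K) (D K F x) f (minpoly E f)
  rw [minpoly.aeval, map_zero, zero_sub] at key
  have key2 : aeval f (derivative (minpoly E f)) • D K F f ∈ Submodule.span F {D K F x} := by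
    have := Submodule.neg_mem _ key
    rwa [neg_neg] at this
  have := Submodule.smul_mem _ (aeval f (derivative (minpoly E f)))⁻¹ key2
  rwa [smul_smul, inv_mul_cancel₀ hne, one_smul] at this

/-- `Ω[F⁄K] = F · D x` if `F` is algebraic over `K⟮x⟯` (characteristic zero). -/
theorem span_D_eq_top [CharZero K] (x : F) [Algebra.IsAlgebraic K⟮x⟯ F] :
    Submodule.span F {D K F x} = ⊤ := by
  rw [eq_top_iff, ← KaehlerDifferential.span_range_derivation K F, Submodule.span_le]
  rintro _ ⟨f, rfl⟩
  exact D_mem_span_D_of_isAlgebraic x f (Algebra.IsAlgebraic.isAlgebraic f)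

end Fermat.Agent.S24.H17
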