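import Fermat.Prelude.Def_AlgebraicCurve_CanonicalDivisor
import Fermat.Agent.S24.H17_Kaehler

/-!
# S24 / function-field layer (helper17): FF2a, FF2b, FF2c

For a function field `F / K` in one variable (`K` algebraically closed of characteristic zero,
`F` finite over `K⟮x⟯`):

* `ff_omega_span`: `Ω[F⁄K] = F · dy` for every non-constant `y`;
* `ff_D_ne_zero`: `dy ≠ 0` for every non-constant `y`;
* `ff_ordDifferential_smul`: `ord_v (f ω) = ord_v f + ord_v ω`.

General versions (no reference `x`) are in the namespace `Fermat.Agent.S24.H17`.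
-/

set_option autoImplicit false
set_option linter.style.haveILetI false

noncomputable section

open AlgebraicCurve KaehlerDifferential IntermediateField Polynomial TensorProduct

namespace Fermat.Agent.S24.H17

variable {K F : Type*} [Field K] [Field F] [Algebra K F]

/-! ### Transcendence degree one -/

open scoped IntermediateField.algebraAdjoinAdjoin in
/-- If `F` is algebraic over `K⟮x⟯` then it is algebraic over `K⟮y⟯` for every transcendental
`y`. -/
theorem isAlgebraic_adjoin_of_transcendental (x : F) [Algebra.IsAlgebraic K⟮x⟯ F]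
    (y : F) (hy : Transcendental K y) : Algebra.IsAlgebraic K⟮y⟯ F := by
  have h1 : Algebra.IsAlgebraic (Algebra.adjoin K ({x} : Set F)) F :=
    Algebra.IsAlgebraic.trans (Algebra.adjoin K ({x} : Set F)) K⟮x⟯ F
  have h2 : Algebra.trdeg K F ≤ 1 := by
    have := Algebra.IsAlgebraic.trdeg_le_cardinalMk K ({x} : Set F)
    simpa using this
  have h3 : AlgebraicIndependent K (fun _ : Unit => y) :=
    algebraicIndependent_unique_type_iff.mpr hy
  have h4 : IsTranscendenceBasis K (fun _ : Unit => y) :=
    h3.isTranscendenceBasis_of_lift_trdeg_le_of_finite (by simpa using h2)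
  have h5 := h4.isAlgebraic_field
  have h6 : Set.range (fun _ : Unit => y) = {y} := by
    ext z; simp [eq_comm]
  rwa [h6] at h5

/-! ### `dy ≠ 0` -/

/-- The derivation `p(y) ↦ p'(y)` on `K[y]` for transcendental `y`. -/
def adjoinDeriv (y : F) (hy : Transcendental K y) :
    Derivation K (Algebra.adjoin K ({y} : Set F)) F :=
  Derivation.mk'
    ((aeval y).toLinearMap ∘ₗ (Polynomial.derivative (R := K)) ∘ₗ
      (Polynomial.algEquivOfTranscendental K y hy).symm.toLinearMap)
    (by
      have key : ∀ b : Algebra.adjoin K ({y} : Set F),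
          aeval y ((Polynomial.algEquivOfTranscendental K y hy).symm b) = (b : F) := by
        intro b
        obtain ⟨p, rfl⟩ := (Polynomial.algEquivOfTranscendental K y hy).surjective b
        rw [AlgEquiv.symm_apply_apply, Polynomial.algEquivOfTranscendental_apply,
          Polynomial.aeval_subalgebra_coe]
      intro a b
      simp only [LinearMap.coe_comp, Function.comp_apply, AlgEquiv.toLinearMap_apply,
        AlgHom.toLinearMap_apply, map_mul, Polynomial.derivative_mul, map_add, key]
      rw [Algebra.smul_def, Algebra.smul_def]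
      change _ = (a : F) * _ + (b : F) * _
      ring)

theorem adjoinDeriv_gen (y : F) (hy : Transcendental K y) :
    adjoinDeriv y hy ⟨y, Algebra.self_mem_adjoin_singleton K y⟩ = 1 := by
  simp [adjoinDeriv, Polynomial.algEquivOfTranscendental_symm_gen]

open scoped IntermediateField.algebraAdjoinAdjoin in
/-- In characteristic zero, `dy ≠ 0` in `Ω[F⁄K]` for `y` transcendental with `F / K⟮y⟯`
algebraic. -/
theorem D_ne_zero_of_transcendental [CharZero K] (y : F) (hy : Transcendental K y)
    [Algebra.IsAlgebraic K⟮y⟯ F] : D K F y ≠ 0 := by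
  intro h0
  haveI : CharZero K⟮y⟯ := charZero_of_injective_algebraMap (algebraMap K K⟮y⟯).injective
  haveI : Algebra.FormallyEtale (Algebra.adjoin K ({y} : Set F)) K⟮y⟯ :=
    Algebra.FormallyEtale.of_isLocalization (nonZeroDivisors (Algebra.adjoin K ({y} : Set F)))
  haveI : Algebra.FormallyEtale K⟮y⟯ F := Algebra.FormallyEtale.of_isSeparable K⟮y⟯ F
  haveI : Algebra.FormallyEtale (Algebra.adjoin K ({y} : Set F)) F :=
    Algebra.FormallyEtale.comp (Algebra.adjoin K ({y} : Set F)) K⟮y⟯ F
  have h1 := tensorKaehlerEquivOfFormallyEtale_symm_D_algebraMap K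
    (Algebra.adjoin K ({y} : Set F)) F ⟨y, Algebra.self_mem_adjoin_singleton K y⟩
  have h2 : (1 : F) ⊗ₜ[Algebra.adjoin K ({y} : Set F)]
      D K (Algebra.adjoin K ({y} : Set F)) ⟨y, Algebra.self_mem_adjoin_singleton K y⟩ = 0 := by
    rw [← h1]
    change (tensorKaehlerEquivOfFormallyEtale K (Algebra.adjoin K ({y} : Set F)) F).symm
      (D K F y) = 0
    rw [h0, map_zero]
  have h3 := congrArg (LinearMap.liftBaseChange F (adjoinDeriv y hy).liftKaehlerDifferential) h2
  rw [LinearMap.liftBaseChange_tmul, map_zero, Derivation.liftKaehlerDifferential_comp_D,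
    adjoinDeriv_gen, one_smul] at h3
  exact one_ne_zero h3

/-! ### Places: constants have order zero, uniformizers are transcendental -/

/-- The coordinate differential of a place is `dt` for some `t` of order one. -/
theorem exists_dCoord_eq (v : Place K F) : ∃ t : F, v.ord t = 1 ∧ v.dCoord = D K F t := by
  refine ⟨((IsDiscreteValuationRing.exists_irreducible v.toValuationSubring).choose : F), ?_, rfl⟩
  exact v.ord_coe_irreducible
    (IsDiscreteValuationRing.exists_irreducible v.toValuationSubring).choose_spec

theorem ord_algebraMap_eq_zero (v : Place K F) (c : K) : v.ord (algebraMap K F c) = 0 := by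
  rcases eq_or_ne c 0 with rfl | hc
  · rw [map_zero, v.ord_zero]
  · have h1 : algebraMap K F c ∈ v.toValuationSubring := v.algebraMap_mem' c
    have h2 : algebraMap K F c⁻¹ ∈ v.toValuationSubring := v.algebraMap_mem' c⁻¹
    have h3 : algebraMap K F c * algebraMap K F c⁻¹ = 1 := by
      rw [← map_mul, mul_inv_cancel₀ hc, map_one]
    have h4 : algebraMap K F c⁻¹ * algebraMap K F c = 1 := by
      rw [← map_mul, inv_mul_cancel₀ hc, map_one]
    let u : v.toValuationSubringˣ :=
      ⟨⟨algebraMap K F c, h1⟩, ⟨algebraMap K F c⁻¹, h2⟩, Subtype.ext h3, Subtype.ext h4⟩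
    exact v.ord_coe_unit u

/-- Over an algebraically closed constant field, an element with non-zero order at some place
is transcendental. -/
theorem transcendental_of_ord_ne_zero [IsAlgClosed K] (v : Place K F) (t : F)
    (ht : v.ord t ≠ 0) : Transcendental K t := by
  intro halg
  have hint : IsIntegral K t := halg.isIntegral
  have hdeg : (minpoly K t).degree = 1 :=
    IsAlgClosed.degree_eq_one_of_irreducible K (minpoly.irreducible hint)
  obtain ⟨c, hc⟩ := minpoly.mem_range_of_degree_eq_one K t hdeg
  exact ht (hc ▸ ord_algebraMap_eq_zero v c)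

/-- Every place of a function field in one variable satisfies `DCoordGenerates`. -/
theorem dCoordGenerates [IsAlgClosed K] [CharZero K] (x : F) [Algebra.IsAlgebraic K⟮x⟯ F]
    (v : Place K F) : v.DCoordGenerates := by
  obtain ⟨t, ht, hd⟩ := exists_dCoord_eq v
  have htr : Transcendental K t := transcendental_of_ord_ne_zero v t (by rw [ht]; exact one_ne_zero)
  haveI := isAlgebraic_adjoin_of_transcendental x t htr
  exact ⟨by rw [hd]; exact span_D_eq_top t⟩

/-- `Ω[F⁄K]` is non-trivial for a function field in one variable. -/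
theorem nontrivial_kaehler [CharZero K] (x : F) (hx : Transcendental K x)
    [Algebra.IsAlgebraic K⟮x⟯ F] : Nontrivial Ω[F⁄K] :=
  ⟨⟨D K F x, 0, D_ne_zero_of_transcendental x hx⟩⟩

/-- The coefficient of a non-zero differential with respect to `dt_v` is non-zero. -/
theorem differentialCoeff_ne_zero [IsAlgClosed K] [CharZero K] (x : F)
    [Algebra.IsAlgebraic K⟮x⟯ F] (v : Place K F) (ω : Ω[F⁄K]) (hω : ω ≠ 0) :
    v.differentialCoeff ω ≠ 0 := by
  haveI := dCoordGenerates x v
  intro h0
  apply hω
  rw [← v.differentialCoeff_smul_dCoord ω, h0, zero_smul]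

end Fermat.Agent.S24.H17

namespace Fermat.Agent.S24

variable {K F : Type*} [Field K] [Field F] [Algebra K F] [IsAlgClosed K] [CharZero K]

/-- FF2a. `Ω[F/K]` is spanned by `dy` for any non-constant `y`. -/
theorem ff_omega_span (x : F) (hx : Transcendental K x) [FiniteDimensional K⟮x⟯ F]
    (y : F) (hy : Transcendental K y) (ω : Ω[F⁄K]) : ∃ f : F, ω = f • D K F y := by
  haveI := H17.isAlgebraic_adjoin_of_transcendental x y hy
  have h : ω ∈ Submodule.span F {D K F y} := by
    rw [H17.span_D_eq_top y]
    exact Submodule.mem_top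
  obtain ⟨f, hf⟩ := Submodule.mem_span_singleton.mp h
  exact ⟨f, hf.symm⟩

/-- FF2b. `dy ≠ 0` for non-constant `y`. -/
theorem ff_D_ne_zero (x : F) (hx : Transcendental K x) [FiniteDimensional K⟮x⟯ F]
    (y : F) (hy : Transcendental K y) : D K F y ≠ 0 := by
  haveI := H17.isAlgebraic_adjoin_of_transcendental x y hy
  exact H17.D_ne_zero_of_transcendental y hy

/-- FF2c. `ord_v (f ω) = ord_v f + ord_v ω`. -/
theorem ff_ordDifferential_smul (x : F) (hx : Transcendental K x) [FiniteDimensional K⟮x⟯ F]
    (v : Place K F) (f : F) (hf : f ≠ 0) (ω : Ω[F⁄K]) (hω : ω ≠ 0) :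
    v.ordDifferential (f • ω) = v.ord f + v.ordDifferential ω := by
  haveI := H17.dCoordGenerates x v
  haveI := H17.nontrivial_kaehler x hx
  exact v.ordDifferential_smul hf (H17.differentialCoeff_ne_zero x v ω hω)

end Fermat.Agent.S24
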