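import Mathlib.Analysis.Complex.TaylorSeries
import Mathlib.Analysis.Complex.LocallyUniformLimit
import Mathlib.Analysis.Calculus.IteratedDeriv.Lemmas
import Mathlib.RingTheory.PowerSeries.Basic

/-!
# S24, analytic layer: Taylor series at `0` as a formal power series (helper89)

`h89tay G : PowerSeries ℂ` is the Taylor series of `G : ℂ → ℂ` at `0`. We prove that it is
multiplicative on analytic functions, that it represents `G` on the unit disc when `G` is
holomorphic there, and that its coefficients are continuous for locally uniform convergence.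
-/

set_option autoImplicit false

noncomputable section

namespace Fermat.Agent.S24

open Filter Topology

/-- Taylor series at `0` as a formal power series. -/
def h89tay (G : ℂ → ℂ) : PowerSeries ℂ :=
  PowerSeries.mk fun m => ((m.factorial : ℂ))⁻¹ * iteratedDeriv m G 0

theorem h89tay_coeff (G : ℂ → ℂ) (m : ℕ) :
    PowerSeries.coeff m (h89tay G) = ((m.factorial : ℂ))⁻¹ * iteratedDeriv m G 0 := by
  simp [h89tay]

theorem h89tay_congr {F G : ℂ → ℂ} (h : F =ᶠ[𝓝 0] G) : h89tay F = h89tay G := by
  ext m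
  rw [h89tay_coeff, h89tay_coeff, h.iteratedDeriv_eq]

theorem h89tay_mul {F G : ℂ → ℂ} (hF : AnalyticAt ℂ F 0) (hG : AnalyticAt ℂ G 0) :
    h89tay (F * G) = h89tay F * h89tay G := by
  ext m
  simp only [h89tay_coeff, iteratedDeriv_mul hF.contDiffAt hG.contDiffAt, Finset.mul_sum,
    PowerSeries.coeff_mul, Finset.Nat.sum_antidiagonal_eq_sum_range_succ_mk, Nat.succ_eq_add_one]
  refine Finset.sum_congr rfl fun i hi ↦ ?_
  rw [Nat.cast_choose _ (by grind)]
  field_simp [Nat.factorial_ne_zero]

theorem h89tay_one : h89tay (1 : ℂ → ℂ) = 1 := by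
  ext m
  have h2 : iteratedDeriv m (1 : ℂ → ℂ) 0 = if m = 0 then 1 else 0 := by
    simpa [ite_apply] using! iteratedDeriv_const
  simp +contextual [h89tay_coeff, h2, PowerSeries.coeff_one]

theorem h89tay_pow {F : ℂ → ℂ} (hF : AnalyticAt ℂ F 0) (n : ℕ) :
    h89tay (F ^ n) = h89tay F ^ n := by
  induction n with
  | zero => simpa using h89tay_one
  | succ n ih => rw [pow_succ, pow_succ, h89tay_mul (hF.pow n) hF, ih]

theorem h89tay_sub {F G : ℂ → ℂ} (hF : AnalyticAt ℂ F 0) (hG : AnalyticAt ℂ G 0) :
    h89tay (F - G) = h89tay F - h89tay G := by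
  ext m
  simp [h89tay_coeff, iteratedDeriv_sub hF.contDiffAt hG.contDiffAt, mul_sub]

theorem h89tay_id : h89tay (fun q : ℂ => q) = PowerSeries.X := by
  ext m
  rw [h89tay_coeff, iteratedDeriv_fun_id_zero, PowerSeries.coeff_X]
  split_ifs with h
  · subst h; simp
  · simp

/-- The Taylor series represents a function holomorphic on the unit disc. -/
theorem h89tay_hasSum {F : ℂ → ℂ} (hF : DifferentiableOn ℂ F (Metric.ball 0 1)) {q : ℂ}
    (hq : ‖q‖ < 1) :
    HasSum (fun n : ℕ => PowerSeries.coeff n (h89tay F) * q ^ n) (F q) := by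
  have h := Complex.hasSum_taylorSeries_on_ball hF (z := q) (by simpa using hq)
  have e : (fun n : ℕ => PowerSeries.coeff n (h89tay F) * q ^ n)
      = fun n : ℕ => ((n.factorial : ℂ))⁻¹ • (q - 0) ^ n • iteratedDeriv n F 0 := by
    funext n
    rw [h89tay_coeff, sub_zero, smul_eq_mul, smul_eq_mul]
    ring
  rw [e]
  exact h

/-- Iterated derivatives are continuous for locally uniform convergence of holomorphic
functions. -/
theorem h89_tendstoLocallyUniformlyOn_iteratedDeriv {ι : Type*} {φ : Filter ι} [φ.NeBot]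
    {F : ι → ℂ → ℂ} {f : ℂ → ℂ} {U : Set ℂ} (hU : IsOpen U)
    (hf : TendstoLocallyUniformlyOn F f φ U) (hF : ∀ᶠ n in φ, DifferentiableOn ℂ (F n) U)
    (m : ℕ) :
    TendstoLocallyUniformlyOn (fun n => iteratedDeriv m (F n)) (iteratedDeriv m f) φ U ∧
      ∀ᶠ n in φ, DifferentiableOn ℂ (iteratedDeriv m (F n)) U := by
  induction m with
  | zero => simpa [iteratedDeriv_zero] using And.intro hf hF
  | succ m ih =>
    refine ⟨?_, ?_⟩
    · have := ih.1.deriv ih.2 hU
      simpa only [iteratedDeriv_succ, Function.comp_def] using this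
    · filter_upwards [ih.2] with n hn
      rw [iteratedDeriv_succ]
      exact hn.deriv hU

/-- Taylor coefficients are continuous for locally uniform convergence. -/
theorem h89tay_coeff_tendsto {ι : Type*} {φ : Filter ι} [φ.NeBot]
    {F : ι → ℂ → ℂ} {f : ℂ → ℂ} {U : Set ℂ} (hU : IsOpen U) (h0 : (0 : ℂ) ∈ U)
    (hf : TendstoLocallyUniformlyOn F f φ U) (hF : ∀ᶠ n in φ, DifferentiableOn ℂ (F n) U)
    (m : ℕ) :
    Tendsto (fun n => PowerSeries.coeff m (h89tay (F n))) φ
      (𝓝 (PowerSeries.coeff m (h89tay f))) := by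
  simp only [h89tay_coeff]
  exact ((h89_tendstoLocallyUniformlyOn_iteratedDeriv hU hf hF m).1.tendsto_at h0).const_mul _

end Fermat.Agent.S24
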