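import Fermat.Prelude.Def_ModularCurve_X0
import Fermat.Agent.S24.JAnDef
import Fermat.Agent.S24.H89_Taylor
import Mathlib.NumberTheory.ModularForms.EisensteinSeries.QExpansion
import Mathlib.NumberTheory.ModularForms.Discriminant
import Mathlib.NumberTheory.ModularForms.DedekindEta
import Mathlib.RingTheory.PowerSeries.PiTopology

/-!
# S24, AN-q: the formal series `ModularCurve.jNum` is the `q`-expansion of `q · j` (helper89)
-/

set_option autoImplicit false

noncomputable section

namespace Fermat.Agent.S24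

open Filter Topology UpperHalfPlane ModularForm EisensteinSeries
open scoped MatrixGroups ArithmeticFunction.sigma

/-! ## The Eisenstein series `E₄` -/

/-- The cusp function of `E₄` on the unit disc. -/
def h89e4 : ℂ → ℂ := cuspFunction 1 (E (k := 4) (by norm_num))

theorem h89e4_differentiableOn : DifferentiableOn ℂ h89e4 (Metric.ball 0 1) := by
  intro q hq
  exact (ModularFormClass.differentiableAt_cuspFunction (E (k := 4) (by norm_num)) one_pos
    one_mem_strictPeriods_SL (by simpa using hq)).differentiableWithinAt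

theorem h89e4_qParam (τ : ℍ) : h89e4 (Function.Periodic.qParam 1 τ) = E (k := 4) (by norm_num) τ :=
  SlashInvariantFormClass.eq_cuspFunction (E (k := 4) (by norm_num)) τ one_mem_strictPeriods_SL
    one_ne_zero

theorem h89tay_e4 : h89tay h89e4 = ModularCurve.eisenstein4.map (Int.castRingHom ℂ) := by
  ext m
  have h := E_qExpansion_coeff (k := 4) (by norm_num) (by decide) m
  have hb : (bernoulli 4 : ℂ) = -1 / 30 := by
    rw [bernoulli_eq_bernoulli'_of_ne_one (by norm_num), bernoulli'_four]
    norm_num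
  rw [PowerSeries.coeff_map, ModularCurve.eisenstein4, PowerSeries.coeff_mk]
  have e : PowerSeries.coeff m (h89tay h89e4)
      = (qExpansion 1 (E (k := 4) (by norm_num))).coeff m := rfl
  rw [e, h]
  split_ifs with hm
  · simp
  · simp only [hb, ArithmeticFunction.sigma_apply]
    push_cast
    norm_num

/-! ## The Euler product -/

/-- The analytic Euler product `∏ (1 - q ^ (n + 1))`. -/
def h89P (q : ℂ) : ℂ := ∏' n : ℕ, (1 - q ^ (n + 1))

theorem h89P_differentiableOn : DifferentiableOn ℂ h89P (Metric.ball 0 1) :=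
  ModularForm.differentiableOn_tprod_one_sub_pow

theorem h89P_ne_zero {q : ℂ} (hq : ‖q‖ < 1) : h89P q ≠ 0 := by
  have h := tprod_one_add_ne_zero_of_summable (f := fun n : ℕ => -q ^ (n + 1)) ?_ ?_
  · simpa [h89P, sub_eq_add_neg] using h
  · intro i h0
    have h1 : q ^ (i + 1) = 1 := by
      have : (1 : ℂ) + -q ^ (i + 1) = 0 := h0
      linear_combination -this
    have h2 : ‖q‖ ^ (i + 1) = 1 := by rw [← norm_pow, h1, norm_one]
    have h3 : ‖q‖ ^ (i + 1) < 1 := pow_lt_one₀ (norm_nonneg _) hq (by omega)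
    linarith
  · simpa using (summable_nat_add_iff 1).mpr (summable_geometric_of_lt_one (norm_nonneg _) hq)

/-- The finite partial products. -/
def h89Ps (s : Finset ℕ) (q : ℂ) : ℂ := ∏ n ∈ s, (1 - q ^ (n + 1))

theorem h89Ps_analyticAt (s : Finset ℕ) (q : ℂ) : AnalyticAt ℂ (h89Ps s) q := by
  unfold h89Ps
  fun_prop

theorem h89tay_Ps (s : Finset ℕ) :
    h89tay (h89Ps s)
      = (∏ n ∈ s, (1 - PowerSeries.X ^ (n + 1) : PowerSeries ℤ)).map (Int.castRingHom ℂ) := by
  classical
  induction s using Finset.induction_on with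
  | empty =>
    have : h89Ps ∅ = 1 := by funext q; simp [h89Ps]
    rw [this, h89tay_one]; simp
  | insert a s ha ih =>
    have e : h89Ps (insert a s) = ((1 : ℂ → ℂ) - (fun q : ℂ => q) ^ (a + 1)) * h89Ps s := by
      funext q
      simp [h89Ps, Finset.prod_insert ha]
    have hid : AnalyticAt ℂ (fun q : ℂ => q) 0 := analyticAt_id
    have h1 : AnalyticAt ℂ (1 : ℂ → ℂ) 0 := analyticAt_const
    rw [e, h89tay_mul (h1.sub (hid.pow _)) (h89Ps_analyticAt s 0), ih,
      h89tay_sub h1 (hid.pow _), h89tay_one, h89tay_pow hid, h89tay_id, Finset.prod_insert ha]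
    simp

theorem h89tay_P : h89tay h89P = ModularCurve.etaProd.map (Int.castRingHom ℂ) := by
  ext m
  -- analytic side
  have hloc : TendstoLocallyUniformlyOn (fun (s : Finset ℕ) (q : ℂ) => h89Ps s q) h89P atTop
      (Metric.ball 0 1) := by
    have h := ModularForm.multipliableLocallyUniformlyOn_one_sub_pow.hasProdLocallyUniformlyOn
    rw [hasProdLocallyUniformlyOn_iff_tendstoLocallyUniformlyOn] at h
    exact h
  have hdiff : ∀ᶠ s : Finset ℕ in atTop, DifferentiableOn ℂ (h89Ps s) (Metric.ball 0 1) :=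
    Eventually.of_forall fun s q _ => (h89Ps_analyticAt s q).differentiableAt.differentiableWithinAt
  have h1 := h89tay_coeff_tendsto Metric.isOpen_ball (Metric.mem_ball_self one_pos) hloc hdiff m
  -- formal side
  have h2 : Tendsto (fun s : Finset ℕ =>
      ((PowerSeries.coeff m (∏ n ∈ s, (1 - PowerSeries.X ^ (n + 1) : PowerSeries ℤ)) : ℤ) : ℂ))
      atTop (𝓝 ((PowerSeries.coeff m ModularCurve.etaProd : ℤ) : ℂ)) := by
    open PowerSeries.WithPiTopology in
    have hp := (PowerSeries.WithPiTopology.multipliable_one_sub_X_pow ℤ).hasProd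
    have hc := (PowerSeries.WithPiTopology.continuous_coeff ℤ m).tendsto
      (∏' n : ℕ, (1 - PowerSeries.X ^ (n + 1) : PowerSeries ℤ))
    have := hc.comp hp
    exact ((continuous_of_discreteTopology (f := fun z : ℤ => (z : ℂ))).tendsto _).comp this
  simp only [h89tay_Ps, PowerSeries.coeff_map, eq_intCast] at h1
  rw [PowerSeries.coeff_map, eq_intCast]
  exact tendsto_nhds_unique h1 h2

/-! ## The quotient `E₄ ^ 3 / P ^ 24` -/

/-- `q · j` as a function of `q` on the unit disc. -/
def h89H (q : ℂ) : ℂ := h89e4 q ^ 3 / h89P q ^ 24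

theorem h89H_differentiableOn : DifferentiableOn ℂ h89H (Metric.ball 0 1) := by
  refine DifferentiableOn.div (h89e4_differentiableOn.pow 3) (h89P_differentiableOn.pow 24) ?_
  intro q hq
  exact pow_ne_zero _ (h89P_ne_zero (by simpa using hq))

theorem h89_analyticAt_zero {F : ℂ → ℂ} (hF : DifferentiableOn ℂ F (Metric.ball 0 1)) :
    AnalyticAt ℂ F 0 :=
  hF.analyticAt (Metric.isOpen_ball.mem_nhds (Metric.mem_ball_self one_pos))

theorem h89tay_H_mul : h89tay h89H * h89tay h89P ^ 24 = h89tay h89e4 ^ 3 := by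
  have hH := h89_analyticAt_zero h89H_differentiableOn
  have hP := h89_analyticAt_zero h89P_differentiableOn
  have hE := h89_analyticAt_zero h89e4_differentiableOn
  rw [← h89tay_pow hP, ← h89tay_pow hE, ← h89tay_mul hH (hP.pow 24)]
  apply h89tay_congr
  filter_upwards [Metric.isOpen_ball.mem_nhds (Metric.mem_ball_self (x := (0 : ℂ)) one_pos)]
    with q hq
  have hne : h89P q ^ 24 ≠ 0 := pow_ne_zero _ (h89P_ne_zero (by simpa using hq))
  simp only [Pi.mul_apply, Pi.pow_apply, h89H]
  exact div_mul_cancel₀ _ hne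

theorem h89tay_H : h89tay h89H = ModularCurve.jNum.map (Int.castRingHom ℂ) := by
  have h1 := h89tay_H_mul
  rw [h89tay_P, h89tay_e4] at h1
  have h2 : (ModularCurve.etaProd.map (Int.castRingHom ℂ)) ^ 24
      * ModularCurve.dedekindEtaUnitInv.map (Int.castRingHom ℂ) = 1 := by
    rw [← map_pow, ← map_mul]
    have := ModularCurve.dedekindEtaUnit_mul_inv
    rw [ModularCurve.dedekindEtaUnit] at this
    rw [this, map_one]
  calc h89tay h89H
      = h89tay h89H * ((ModularCurve.etaProd.map (Int.castRingHom ℂ)) ^ 24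
          * ModularCurve.dedekindEtaUnitInv.map (Int.castRingHom ℂ)) := by rw [h2, mul_one]
    _ = (h89tay h89H * (ModularCurve.etaProd.map (Int.castRingHom ℂ)) ^ 24)
          * ModularCurve.dedekindEtaUnitInv.map (Int.castRingHom ℂ) := by ring
    _ = ModularCurve.jNum.map (Int.castRingHom ℂ) := by
        rw [h1, ModularCurve.jNum, map_mul, map_pow]

theorem h89H_qParam (τ : ℍ) :
    h89H (Function.Periodic.qParam 1 τ) = jAn τ * Function.Periodic.qParam 1 τ := by
  have hq0 : Function.Periodic.qParam 1 (τ : ℂ) ≠ 0 := Function.Periodic.qParam_ne_zero _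
  have hq1 : ‖Function.Periodic.qParam 1 (τ : ℂ)‖ < 1 :=
    Function.Periodic.norm_qParam_lt_one one_pos τ.im_pos
  have hΔ : ModularForm.discriminant τ
      = Function.Periodic.qParam 1 τ * h89P (Function.Periodic.qParam 1 τ) ^ 24 := by
    rw [ModularForm.discriminant_eq_q_prod, h89P,
      (ModularForm.multipliable_one_sub_pow hq1).tprod_pow]
  have hP : h89P (Function.Periodic.qParam 1 τ) ^ 24 ≠ 0 := pow_ne_zero _ (h89P_ne_zero hq1)
  rw [h89H, jAn, hΔ, h89e4_qParam]
  field_simp

/-- AN-q. The formal series `ModularCurve.jNum` (over `ℤ`) is the `q`-expansion of `q · j`. -/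
theorem jAn_hasSum (τ : ℍ) :
    HasSum (fun n : ℕ => ((PowerSeries.coeff n ModularCurve.jNum : ℤ) : ℂ)
        * (Function.Periodic.qParam 1 τ) ^ n)
      (jAn τ * Function.Periodic.qParam 1 τ) := by
  have hq1 : ‖Function.Periodic.qParam 1 (τ : ℂ)‖ < 1 :=
    Function.Periodic.norm_qParam_lt_one one_pos τ.im_pos
  have h := h89tay_hasSum h89H_differentiableOn hq1
  rw [h89tay_H, h89H_qParam] at h
  simpa [PowerSeries.coeff_map] using h

end Fermat.Agent.S24
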