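import Fermat.Agent.S24.H59_OrdDifferential
import Fermat.Agent.S24.H17_FF2

/-!
# S24, FF2d / FF2e (exact interface statements) and FF1a / FF1c

Assembles `H59_OrdDifferential` (the local computation) with helper17's FF2a / FF2b.
-/

set_option autoImplicit false
set_option linter.style.haveILetI false

noncomputable section

open AlgebraicCurve KaehlerDifferential IntermediateField

namespace Fermat.Agent.S24

variable {K F : Type*} [Field K] [Field F] [Algebra K F] [IsAlgClosed K] [CharZero K]

omit [IsAlgClosed K] [CharZero K] in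
/-- FF1c (general form). For non-constant `f`, `F / K(f)` is again finite. -/
theorem H59.finite_of_transcendental (x : F) [FiniteDimensional K⟮x⟯ F]
    (f : F) (hf : Transcendental K f) : FiniteDimensional K⟮f⟯ F := by
  haveI : Algebra.IsAlgebraic K⟮x⟯ F := Algebra.IsAlgebraic.of_finite _ _
  haveI := H17.isAlgebraic_adjoin_of_transcendental x f hf
  haveI : Algebra.EssFiniteType K K⟮x⟯ :=
    IntermediateField.essFiniteType_iff.mpr ⟨{x}, by simp⟩
  haveI : Algebra.EssFiniteType K F := Algebra.EssFiniteType.comp K K⟮x⟯ F
  haveI : Algebra.EssFiniteType K⟮f⟯ F := Algebra.EssFiniteType.of_comp K K⟮f⟯ F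
  exact Algebra.finite_of_essFiniteType_of_isAlgebraic

/-- FF1a (general form). Every place has degree one. -/
theorem H59.ff_deg_eq_one' (x : F) [FiniteDimensional K⟮x⟯ F] (v : Place K F) : v.deg = 1 :=
  ff_deg_eq_one_of (fun f hf => H59.finite_of_transcendental x f hf) v

/-- FF2d. At a zero of `y - a` of order `e`: `ord_v (dy) = e - 1`. -/
theorem ff_ordDifferential_zero (x : F) (hx : Transcendental K x) [FiniteDimensional K⟮x⟯ F]
    (v : Place K F) (y : F) (a : K) (hy : 0 < v.ord (y - algebraMap K F a)) :
    v.ordDifferential (D K F y) = v.ord (y - algebraMap K F a) - 1 :=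
  ff_ordDifferential_zero_of (fun f hf => H59.finite_of_transcendental x f hf)
    (fun y hy ω => ff_omega_span x hx y hy ω) (fun y hy => ff_D_ne_zero x hx y hy) v y a hy

/-- FF2e. At a pole of `y`: `ord_v (dy) = ord_v y - 1`. -/
theorem ff_ordDifferential_pole (x : F) (hx : Transcendental K x) [FiniteDimensional K⟮x⟯ F]
    (v : Place K F) (y : F) (hy : v.ord y < 0) :
    v.ordDifferential (D K F y) = v.ord y - 1 :=
  ff_ordDifferential_pole_of (fun f hf => H59.finite_of_transcendental x f hf)
    (fun y hy ω => ff_omega_span x hx y hy ω) (fun y hy => ff_D_ne_zero x hx y hy) v y hy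

end Fermat.Agent.S24
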