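import Mathlib

/-!
# S24 / function-field layer (helper17): the derivation `θ = q d/dq` on Laurent series

`θ (∑ aₙ qⁿ) = ∑ n aₙ qⁿ` is a `K`-derivation of `LaurentSeries K`.  Consequence: for an intermediate
field `E` of `LaurentSeries K / K` and `x ∈ E` having a nonzero coefficient in nonzero degree
(characteristic zero), the Kähler differential `D K E x` is nonzero.
-/

set_option autoImplicit false

namespace Fermat.Agent.S24.H17

open HahnSeries KaehlerDifferential

variable {K : Type*} [Field K]

/-- The underlying function of `θ = q d/dq`. -/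
noncomputable def thetaFun (f : LaurentSeries K) : LaurentSeries K where
  coeff n := (n : K) * f.coeff n
  isPWO_support' := f.isPWO_support.mono (by
    intro n hn
    simp only [Function.mem_support, ne_eq] at hn ⊢
    intro h
    exact hn (by rw [h, mul_zero]))

@[simp]
theorem thetaFun_coeff (f : LaurentSeries K) (n : ℤ) :
    (thetaFun f).coeff n = (n : K) * f.coeff n := rfl

theorem support_thetaFun_subset (f : LaurentSeries K) : (thetaFun f).support ⊆ f.support := by
  intro n hn
  simp only [HahnSeries.mem_support, thetaFun_coeff, ne_eq] at hn ⊢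
  intro h
  exact hn (by rw [h, mul_zero])

theorem thetaFun_add (f g : LaurentSeries K) : thetaFun (f + g) = thetaFun f + thetaFun g := by
  ext n
  simp [mul_add]

theorem thetaFun_single_zero (c : K) : thetaFun (HahnSeries.single (0 : ℤ) c) = 0 := by
  ext n
  rw [thetaFun_coeff, HahnSeries.coeff_zero]
  rcases eq_or_ne n 0 with rfl | hn
  · simp
  · rw [HahnSeries.coeff_single_of_ne hn, mul_zero]

theorem thetaFun_mul (f g : LaurentSeries K) :
    thetaFun (f * g) = f * thetaFun g + g * thetaFun f := by
  ext n
  rw [thetaFun_coeff, HahnSeries.coeff_add, HahnSeries.coeff_mul,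
    HahnSeries.coeff_mul_right' g.isPWO_support (support_thetaFun_subset g),
    mul_comm g (thetaFun f),
    HahnSeries.coeff_mul_left' f.isPWO_support (support_thetaFun_subset f),
    Finset.mul_sum, ← Finset.sum_add_distrib]
  refine Finset.sum_congr rfl fun ij hij => ?_
  have hsum : ij.1 + ij.2 = n := (Finset.mem_antidiagonal.mp hij).2.2
  rw [thetaFun_coeff, thetaFun_coeff, ← hsum]
  push_cast
  ring

theorem algebraMap_eq_single_zero (c : K) :
    algebraMap K (LaurentSeries K) c = HahnSeries.single 0 c := by
  have h1 : algebraMap K (PowerSeries K) c = PowerSeries.C c := by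
    simp
  rw [HahnSeries.algebraMap_apply', h1, HahnSeries.ofPowerSeries_C]
  rfl

theorem thetaFun_algebraMap_mul (c : K) (f : LaurentSeries K) :
    thetaFun (algebraMap K (LaurentSeries K) c * f)
      = algebraMap K (LaurentSeries K) c * thetaFun f := by
  rw [thetaFun_mul, algebraMap_eq_single_zero, thetaFun_single_zero, mul_zero, add_zero]

section

attribute [local instance 2000] Algebra.toModule

/-- `θ = q d/dq` as a `K`-linear map (for the module structure coming from the algebra structure). -/
noncomputable def thetaLin : LaurentSeries K →ₗ[K] LaurentSeries K where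
  toFun := thetaFun
  map_add' := thetaFun_add
  map_smul' c f := by
    rw [RingHom.id_apply, Algebra.smul_def, Algebra.smul_def]
    exact thetaFun_algebraMap_mul c f

/-- `θ = q d/dq` as a `K`-derivation of `LaurentSeries K`. -/
noncomputable def theta : Derivation K (LaurentSeries K) (LaurentSeries K) :=
  Derivation.mk' thetaLin (fun f g => by
    show thetaFun (f * g) = f • thetaFun g + g • thetaFun f
    rw [smul_eq_mul, smul_eq_mul, thetaFun_mul])

theorem theta_apply (f : LaurentSeries K) : theta f = thetaFun f := rfl

/-- If `x` lies in the intermediate field `E` and `θ x ≠ 0`, then `D K E x ≠ 0`. -/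
theorem D_ne_zero_of_thetaFun_ne_zero (E : IntermediateField K (LaurentSeries K)) (x : E)
    (hx : thetaFun (x : LaurentSeries K) ≠ 0) : D K E x ≠ 0 := by
  intro h0
  let d : Derivation K E (LaurentSeries K) := (theta (K := K)).compAlgebraMap E
  have h1 : d.liftKaehlerDifferential (D K E x) = d x := Derivation.liftKaehlerDifferential_comp_D d x
  rw [h0, map_zero] at h1
  exact hx h1.symm

end

/-- If `x ∈ E` has a nonzero coefficient in some degree `n` with `(n : K) ≠ 0`, then `D K E x ≠ 0`. -/
theorem D_ne_zero_of_coeff_ne_zero (E : IntermediateField K (LaurentSeries K)) (x : E)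
    (n : ℤ) (hn : (n : K) ≠ 0) (hx : (x : LaurentSeries K).coeff n ≠ 0) : D K E x ≠ 0 := by
  apply D_ne_zero_of_thetaFun_ne_zero
  intro h
  have := congrArg (fun g : LaurentSeries K => g.coeff n) h
  simp only [thetaFun_coeff, HahnSeries.coeff_zero] at this
  exact (mul_ne_zero hn hx) this

end Fermat.Agent.S24.H17
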