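import Mathlib

/-!
# Scott's lemma / Ree's inequality for a transitive pair of permutations (S24 work package WP-Scott)

For permutations `s t` of a finite nonempty type `X` generating a transitive group,
`#orbits(s) + #orbits(t) + #orbits(s * t) ≤ |X| + 2` and the sum
`|X| + #orbits(s) + #orbits(t) + #orbits(s * t)` is even.
-/

set_option autoImplicit false

namespace Fermat.Agent.S24

open Equiv MulAction

section OrbitCount

variable {X : Type*}

/-- `y` is in the orbit of `x` under `zpowers g` iff `x` and `y` are in the same cycle. -/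
theorem h1_orbitRel_zpowers_iff (g : Perm X) (x y : X) :
    (MulAction.orbitRel (Subgroup.zpowers g) X) x y ↔ g.SameCycle y x := by
  rw [MulAction.orbitRel_apply, MulAction.mem_orbit_iff]
  constructor
  · rintro ⟨⟨h, hh⟩, rfl⟩
    obtain ⟨k, rfl⟩ := Subgroup.mem_zpowers_iff.mp hh
    exact ⟨k, rfl⟩
  · rintro ⟨k, hk⟩
    exact ⟨⟨g ^ k, Subgroup.zpow_mem_zpowers g k⟩, hk⟩

variable [Fintype X] [DecidableEq X]

/-- The number of orbits of `zpowers g` is `#fixed points + #cycles`. -/
theorem h1_card_orbits_add_sum_cycleType (g : Perm X) :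
    Nat.card (MulAction.orbitRel.Quotient (Subgroup.zpowers g) X) + g.cycleType.sum
      = Fintype.card X + Multiset.card g.cycleType := by
  classical
  -- the classifying map
  let F : X → (Function.fixedPoints g) ⊕ (g.cycleFactorsFinset : Set (Perm X)) := fun x =>
    if h : g x = x then Sum.inl ⟨x, h⟩
    else Sum.inr ⟨g.cycleOf x, Perm.cycleOf_mem_cycleFactorsFinset_iff.mpr
      (Perm.mem_support.mpr h)⟩
  have hF : ∀ x y, (MulAction.orbitRel (Subgroup.zpowers g) X) x y → F x = F y := by
    intro x y hxy
    rw [h1_orbitRel_zpowers_iff] at hxy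
    by_cases hx : g x = x
    · have hyx : y = x := by
        obtain ⟨k, hk⟩ := hxy.symm
        rw [← hk]
        exact (Perm.zpow_apply_eq_self_of_apply_eq_self hx k)
      subst hyx
      rfl
    · have hy : g y ≠ y := by
        intro hy
        apply hx
        obtain ⟨k, hk⟩ := hxy
        rw [← hk]
        rw [← Perm.mul_apply, ← zpow_one_add, add_comm, zpow_add_one, Perm.mul_apply, hy]
      simp only [F, dif_neg hx, dif_neg hy]
      congr 1
      exact Subtype.ext hxy.symm.cycleOf_eq
  let Φ : MulAction.orbitRel.Quotient (Subgroup.zpowers g) X →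
      (Function.fixedPoints g) ⊕ (g.cycleFactorsFinset : Set (Perm X)) :=
    Quotient.lift F hF
  have hinj : Function.Injective Φ := by
    intro q₁ q₂
    induction q₁ using Quotient.inductionOn with | _ x => ?_
    induction q₂ using Quotient.inductionOn with | _ y => ?_
    intro h
    change F x = F y at h
    apply Quotient.sound
    change (MulAction.orbitRel (Subgroup.zpowers g) X) x y
    rw [h1_orbitRel_zpowers_iff]
    by_cases hx : g x = x
    · by_cases hy : g y = y
      · simp only [F, dif_pos hx, dif_pos hy, Sum.inl.injEq] at h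
        have hxy : x = y := congrArg Subtype.val h
        subst hxy
        exact Perm.SameCycle.refl _ _
      · simp [F, dif_pos hx, dif_neg hy] at h
    · by_cases hy : g y = y
      · simp [F, dif_neg hx, dif_pos hy] at h
      · simp only [F, dif_neg hx, dif_neg hy, Sum.inr.injEq, Subtype.mk.injEq] at h
        have hxs : x ∈ (g.cycleOf x).support := by
          rw [Perm.mem_support_cycleOf_iff]
          exact ⟨Perm.SameCycle.refl _ _, Perm.mem_support.mpr hx⟩
        rw [h, Perm.mem_support_cycleOf_iff] at hxs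
        exact hxs.1
  have hsurj : Function.Surjective Φ := by
    rintro (⟨x, hx⟩ | ⟨c, hc⟩)
    · refine ⟨Quotient.mk _ x, ?_⟩
      change F x = _
      have hx' : g x = x := hx
      simp only [F, dif_pos hx']
    · have hc' : c ∈ g.cycleFactorsFinset := hc
      have hcyc : c.IsCycle := (Perm.mem_cycleFactorsFinset_iff.mp hc').1
      obtain ⟨x, hx, -⟩ := hcyc
      have hxs : x ∈ c.support := Perm.mem_support.mpr hx
      have hcx : c = g.cycleOf x := Perm.cycle_is_cycleOf hxs hc'
      have hgx : g x ≠ x := by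
        have := (Perm.mem_cycleFactorsFinset_iff.mp hc').2 x hxs
        rw [← this]
        exact hx
      refine ⟨Quotient.mk _ x, ?_⟩
      change F x = _
      simp only [F, dif_neg hgx]
      congr 1
      exact Subtype.ext hcx.symm
  have hcard : Nat.card (MulAction.orbitRel.Quotient (Subgroup.zpowers g) X)
      = Nat.card ((Function.fixedPoints g) ⊕ (g.cycleFactorsFinset : Set (Perm X))) :=
    Nat.card_eq_of_bijective Φ ⟨hinj, hsurj⟩
  rw [hcard, Nat.card_sum, Nat.card_eq_fintype_card, Perm.card_fixedPoints,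
    Nat.card_eq_fintype_card]
  have h1 : Fintype.card (g.cycleFactorsFinset : Set (Perm X)) = Multiset.card g.cycleType := by
    rw [Perm.cycleType_def, Multiset.card_map]
    simp
  rw [h1]
  have := g.sum_cycleType_le
  omega

/-- The sign of a permutation in terms of the number of orbits. -/
theorem h1_sign_eq (g : Perm X) :
    Perm.sign g = (-1 : ℤˣ) ^ (Fintype.card X
      + Nat.card (MulAction.orbitRel.Quotient (Subgroup.zpowers g) X)) := by
  rw [Perm.sign_of_cycleType]
  have h := h1_card_orbits_add_sum_cycleType g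
  have hle := g.sum_cycleType_le
  have h2 : Fintype.card X + Nat.card (MulAction.orbitRel.Quotient (Subgroup.zpowers g) X)
      = 2 * (Fintype.card X - g.cycleType.sum)
        + (g.cycleType.sum + Multiset.card g.cycleType) := by omega
  rw [h2, pow_add (-1 : ℤˣ) (2 * _) _, pow_mul]
  simp

/-- Parity part of WP-Scott. -/
theorem h1_even (s t : Perm X) :
    Even (Fintype.card X
      + Nat.card (MulAction.orbitRel.Quotient (Subgroup.zpowers s) X)
      + Nat.card (MulAction.orbitRel.Quotient (Subgroup.zpowers t) X)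
      + Nat.card (MulAction.orbitRel.Quotient (Subgroup.zpowers (s * t)) X)) := by
  have h := Perm.sign_mul s t
  rw [h1_sign_eq s, h1_sign_eq t, h1_sign_eq (s * t), ← pow_add] at h
  have hne : (-1 : ℤˣ) ≠ 1 := by decide
  have h3 : (-1 : ℤˣ) ^ ((Fintype.card X
      + Nat.card (MulAction.orbitRel.Quotient (Subgroup.zpowers (s * t)) X))
      + (Fintype.card X + Nat.card (MulAction.orbitRel.Quotient (Subgroup.zpowers s) X)
      + (Fintype.card X + Nat.card (MulAction.orbitRel.Quotient (Subgroup.zpowers t) X)))) = 1 := by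
    rw [pow_add, h, ← pow_add, ← two_mul, pow_mul]
    simp
  rw [neg_one_pow_eq_one_iff_even hne] at h3
  have h4 : Even (2 * Fintype.card X) := even_two_mul _
  rcases h3 with ⟨k, hk⟩
  rcases h4 with ⟨m, hm⟩
  refine ⟨k - Fintype.card X, ?_⟩
  omega

end OrbitCount

section Linear

variable {X : Type*}

/-- The permutation operator `v ↦ v ∘ g⁻¹` on `X → ℚ`. -/
noncomputable def h1_permOp (g : Perm X) : (X → ℚ) →ₗ[ℚ] (X → ℚ) :=
  LinearMap.funLeft ℚ ℚ g.symm

@[simp] theorem h1_permOp_apply (g : Perm X) (v : X → ℚ) (x : X) :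
    h1_permOp g v x = v (g.symm x) := rfl

theorem h1_permOp_mul (g h : Perm X) : h1_permOp (g * h) = h1_permOp g ∘ₗ h1_permOp h := by
  ext v x
  simp [h1_permOp_apply, Perm.mul_def]

theorem h1_permOp_one : h1_permOp (1 : Perm X) = LinearMap.id := by
  ext v x
  rfl

theorem h1_permOp_single [DecidableEq X] (g : Perm X) (x : X) :
    h1_permOp g (Pi.single x 1) = Pi.single (g x) 1 := by
  ext z
  simp only [h1_permOp_apply, Pi.single_apply]
  by_cases h : z = g x
  · subst h; simp
  · rw [if_neg h, if_neg]
    intro h'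
    apply h
    rw [← h', Equiv.apply_symm_apply]

/-- The "coboundary" operator `1 - g`. -/
noncomputable def h1_dOp (g : Perm X) : (X → ℚ) →ₗ[ℚ] (X → ℚ) :=
  LinearMap.id - h1_permOp g

theorem h1_dOp_apply (g : Perm X) (v : X → ℚ) (x : X) :
    h1_dOp g v x = v x - v (g.symm x) := rfl

theorem h1_mem_ker_dOp_iff (g : Perm X) (v : X → ℚ) :
    v ∈ LinearMap.ker (h1_dOp g) ↔ ∀ x, v (g x) = v x := by
  rw [LinearMap.mem_ker]
  constructor
  · intro h x
    have := congrFun h (g x)
    simp only [h1_dOp_apply, Equiv.symm_apply_apply, Pi.zero_apply] at this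
    linarith
  · intro h
    ext x
    simp only [h1_dOp_apply, Pi.zero_apply]
    have := h (g.symm x)
    simp only [Equiv.apply_symm_apply] at this
    linarith

/-- The subgroup of permutations leaving a function invariant. -/
def h1_stab (v : X → ℚ) : Subgroup (Perm X) where
  carrier := {h | ∀ y, v (h y) = v y}
  mul_mem' := fun {a b} ha hb y => by
    change v ((a * b) y) = v y
    rw [Perm.mul_apply, ha, hb]
  one_mem' := fun y => rfl
  inv_mem' := fun {a} ha y => by
    have := ha (a⁻¹ y)
    rw [← Perm.mul_apply, mul_inv_cancel, Perm.one_apply] at this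
    exact this.symm

theorem h1_mem_stab (v : X → ℚ) (h : Perm X) : h ∈ h1_stab v ↔ ∀ y, v (h y) = v y := Iff.rfl

theorem h1_const_on_orbits (g : Perm X) (v : X → ℚ) (hv : v ∈ LinearMap.ker (h1_dOp g))
    (x y : X) (hxy : (MulAction.orbitRel (Subgroup.zpowers g) X) x y) : v x = v y := by
  rw [h1_mem_ker_dOp_iff] at hv
  have hle : Subgroup.zpowers g ≤ h1_stab v := by
    rw [Subgroup.zpowers_le]
    exact hv
  rw [MulAction.orbitRel_apply, MulAction.mem_orbit_iff] at hxy
  obtain ⟨⟨h, hh⟩, rfl⟩ := hxy
  exact hle hh y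

variable [Fintype X]

/-- The fixed space of `g` is the space of functions on the orbits. -/
noncomputable def h1_kerEquiv (g : Perm X) :
    LinearMap.ker (h1_dOp g) ≃ₗ[ℚ] (MulAction.orbitRel.Quotient (Subgroup.zpowers g) X → ℚ) where
  toFun v := fun q => Quotient.liftOn' q v.1 (fun x y hxy => h1_const_on_orbits g v.1 v.2 x y hxy)
  map_add' v w := by
    ext q
    induction q using Quotient.inductionOn' with | _ x => rfl
  map_smul' c v := by
    ext q
    induction q using Quotient.inductionOn' with | _ x => rfl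
  invFun w := ⟨fun x => w (Quotient.mk'' x), by
    rw [h1_mem_ker_dOp_iff]
    intro x
    congr 1
    apply Quotient.sound'
    rw [MulAction.orbitRel_apply, MulAction.mem_orbit_iff]
    exact ⟨⟨g, Subgroup.mem_zpowers g⟩, rfl⟩⟩
  left_inv v := by
    ext x
    rfl
  right_inv w := by
    ext q
    induction q using Quotient.inductionOn' with | _ x => rfl

theorem h1_finrank_ker (g : Perm X) :
    Module.finrank ℚ (LinearMap.ker (h1_dOp g))
      = Nat.card (MulAction.orbitRel.Quotient (Subgroup.zpowers g) X) := by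
  classical
  rw [(h1_kerEquiv g).finrank_eq, Module.finrank_fintype_fun_eq_card, Nat.card_eq_fintype_card]

theorem h1_finrank_range (g : Perm X) :
    Module.finrank ℚ (LinearMap.range (h1_dOp g))
      + Nat.card (MulAction.orbitRel.Quotient (Subgroup.zpowers g) X) = Fintype.card X := by
  rw [← h1_finrank_ker, LinearMap.finrank_range_add_finrank_ker, Module.finrank_fintype_fun_eq_card]

end Linear

section ScottComplex

variable {X : Type*}

/-- Functions invariant under `s` and `t` are constant when `⟨s, t⟩` is transitive. -/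
theorem h1_finrank_ker_inf_le (s t : Perm X)
    (htrans : ∀ x y : X, ∃ g ∈ Subgroup.closure {s, t}, g x = y) :
    Module.finrank ℚ ↥(LinearMap.ker (h1_dOp s) ⊓ LinearMap.ker (h1_dOp t)) ≤ 1 := by
  have hle : LinearMap.ker (h1_dOp s) ⊓ LinearMap.ker (h1_dOp t)
      ≤ Submodule.span ℚ {(fun _ => (1 : ℚ) : X → ℚ)} := by
    intro v hv
    rw [Submodule.mem_inf, h1_mem_ker_dOp_iff, h1_mem_ker_dOp_iff] at hv
    have hcl : Subgroup.closure {s, t} ≤ h1_stab v := by
      rw [Subgroup.closure_le]
      intro g hg
      rcases hg with rfl | hg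
      · exact hv.1
      · rw [Set.mem_singleton_iff] at hg
        subst hg
        exact hv.2
    rcases isEmpty_or_nonempty X with hX | ⟨⟨x₀⟩⟩
    · have : v = 0 := by
        ext x
        exact (hX.false x).elim
      rw [this]
      exact Submodule.zero_mem _
    · rw [Submodule.mem_span_singleton]
      refine ⟨v x₀, ?_⟩
      ext y
      obtain ⟨g, hg, rfl⟩ := htrans x₀ y
      simp only [Pi.smul_apply, smul_eq_mul, mul_one]
      exact (hcl hg x₀).symm
  refine (Submodule.finrank_mono hle).trans ?_
  refine (finrank_span_le_card _).trans ?_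
  simp

/-- Scott's lemma for the permutation module: dimension inequality. -/
theorem h1_scott_finrank [Fintype X] [Nonempty X] (s t u : Perm X) (hstu : s * t * u = 1)
    (htrans : ∀ x y : X, ∃ g ∈ Subgroup.closure {s, t}, g x = y) :
    2 * Fintype.card X ≤ Module.finrank ℚ (LinearMap.range (h1_dOp s))
      + Module.finrank ℚ (LinearMap.range (h1_dOp t))
      + Module.finrank ℚ (LinearMap.range (h1_dOp u)) + 2 := by
  classical
  set V := X → ℚ
  set Is := LinearMap.range (h1_dOp s)
  set It := LinearMap.range (h1_dOp t)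
  set Iu := LinearMap.range (h1_dOp u)
  let β : V →ₗ[ℚ] (Is × It × Iu) :=
    LinearMap.prod (h1_dOp s).rangeRestrict
      (LinearMap.prod (h1_dOp t).rangeRestrict (h1_dOp u).rangeRestrict)
  let δ : (Is × It × Iu) →ₗ[ℚ] V :=
    LinearMap.coprod Is.subtype
      (LinearMap.coprod (h1_permOp s ∘ₗ It.subtype) (h1_permOp s ∘ₗ h1_permOp t ∘ₗ Iu.subtype))
  have hPu : ∀ v : V, h1_permOp s (h1_permOp t (h1_permOp u v)) = v := by
    intro v
    have := congrArg (fun f => f v) (h1_permOp_mul (s * t) u)
    simp only [h1_permOp_mul s t, hstu, h1_permOp_one, LinearMap.id_coe, id_eq,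
      LinearMap.coe_comp, Function.comp_apply] at this
    exact this.symm
  have hβ1 : ∀ v, ((β v).1 : V) = h1_dOp s v := fun v => rfl
  have hβ2 : ∀ v, ((β v).2.1 : V) = h1_dOp t v := fun v => rfl
  have hβ3 : ∀ v, ((β v).2.2 : V) = h1_dOp u v := fun v => rfl
  have hδ : ∀ w : Is × It × Iu, δ w = (w.1 : V) + (h1_permOp s (w.2.1 : V)
      + h1_permOp s (h1_permOp t (w.2.2 : V))) := fun w => rfl
  have hδβ : ∀ v, δ (β v) = 0 := by
    intro v
    rw [hδ, hβ1, hβ2, hβ3]
    simp only [h1_dOp, LinearMap.sub_apply, LinearMap.id_coe, id_eq, map_sub, hPu]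
    abel
  have hrange_le : LinearMap.range β ≤ LinearMap.ker δ := by
    rintro _ ⟨v, rfl⟩
    exact hδβ v
  have hkerβ : LinearMap.ker β ≤ LinearMap.ker (h1_dOp s) ⊓ LinearMap.ker (h1_dOp t) := by
    intro v hv
    rw [LinearMap.mem_ker] at hv
    rw [Submodule.mem_inf, LinearMap.mem_ker, LinearMap.mem_ker]
    refine ⟨?_, ?_⟩
    · rw [← hβ1, hv]; rfl
    · rw [← hβ2, hv]; rfl
  have hkerβ1 : Module.finrank ℚ (LinearMap.ker β) ≤ 1 :=
    (Submodule.finrank_mono hkerβ).trans (h1_finrank_ker_inf_le s t htrans)
  -- the range of `δ` contains `Is` and `It`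
  have hIs : Is ≤ LinearMap.range δ := by
    rintro _ ⟨v, rfl⟩
    refine ⟨(⟨h1_dOp s v, ⟨v, rfl⟩⟩, 0, 0), ?_⟩
    rw [hδ]
    simp
  have hIt : It ≤ LinearMap.range δ := by
    rintro _ ⟨v, rfl⟩
    refine ⟨(⟨h1_dOp s (h1_dOp t v), ⟨_, rfl⟩⟩, ⟨h1_dOp t v, ⟨v, rfl⟩⟩, 0), ?_⟩
    rw [hδ]
    simp only [Submodule.coe_zero, map_zero, add_zero]
    simp only [h1_dOp, LinearMap.sub_apply, LinearMap.id_coe, id_eq, map_sub]
    abel
  -- differences of basis vectors lie in the range of `δ`
  have hdiff : ∀ g ∈ Subgroup.closure {s, t}, ∀ x : X,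
      (Pi.single (g x) 1 - Pi.single x 1 : V) ∈ LinearMap.range δ := by
    intro g hg
    induction hg using Subgroup.closure_induction with
    | mem g hg =>
      intro x
      rcases hg with rfl | hg
      · apply hIs
        refine ⟨-(Pi.single x 1), ?_⟩
        simp only [h1_dOp, map_neg, LinearMap.sub_apply, LinearMap.id_coe, id_eq,
          h1_permOp_single]
        abel
      · rw [Set.mem_singleton_iff] at hg
        subst hg
        apply hIt
        refine ⟨-(Pi.single x 1), ?_⟩
        simp only [h1_dOp, map_neg, LinearMap.sub_apply, LinearMap.id_coe, id_eq,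
          h1_permOp_single]
        abel
    | one =>
      intro x
      simp
    | mul g h _ _ ihg ihh =>
      intro x
      have h1 := ihg (h x)
      have h2 := ihh x
      have := Submodule.add_mem _ h1 h2
      rw [Perm.mul_apply]
      convert this using 1
      abel
    | inv g _ ihg =>
      intro x
      have h1 := ihg (g⁻¹ x)
      rw [← Perm.mul_apply, mul_inv_cancel, Perm.one_apply] at h1
      have := Submodule.neg_mem _ h1
      convert this using 1
      abel
  obtain ⟨x₀⟩ := ‹Nonempty X›
  have htop : LinearMap.range δ ⊔ Submodule.span ℚ {(Pi.single x₀ 1 : V)} = ⊤ := by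
    rw [eq_top_iff]
    intro v _
    have hv : v = ∑ x, v x • (Pi.single x 1 : V) := by
      ext y
      simp [Finset.sum_apply, Pi.single_apply]
    rw [hv]
    refine Submodule.sum_mem _ (fun x _ => Submodule.smul_mem _ _ ?_)
    have hx : (Pi.single x 1 : V) = (Pi.single x 1 - Pi.single x₀ 1) + Pi.single x₀ 1 := by abel
    rw [hx]
    refine Submodule.add_mem _ (Submodule.mem_sup_left ?_)
      (Submodule.mem_sup_right (Submodule.mem_span_singleton_self _))
    obtain ⟨g, hg, hgx⟩ := htrans x₀ x
    have := hdiff g hg x₀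
    rwa [hgx] at this
  have hrangeδ : Fintype.card X ≤ Module.finrank ℚ (LinearMap.range δ) + 1 := by
    have h1 : Module.finrank ℚ (⊤ : Submodule ℚ V) = Fintype.card X := by
      rw [finrank_top, Module.finrank_fintype_fun_eq_card]
    rw [← h1, ← htop]
    refine (Submodule.finrank_add_le_finrank_add_finrank _ _).trans ?_
    gcongr
    refine (finrank_span_le_card _).trans ?_
    simp
  have hrnβ := LinearMap.finrank_range_add_finrank_ker β
  have hrnδ := LinearMap.finrank_range_add_finrank_ker δ
  have hmono := Submodule.finrank_mono hrange_le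
  have hV : Module.finrank ℚ V = Fintype.card X := Module.finrank_fintype_fun_eq_card ℚ
  have hW : Module.finrank ℚ (Is × It × Iu)
      = Module.finrank ℚ Is + (Module.finrank ℚ It + Module.finrank ℚ Iu) := by
    rw [Module.finrank_prod, Module.finrank_prod]
  omega

end ScottComplex

/-- **WP-Scott**: Ree/Scott inequality and parity for a transitive pair of permutations. -/
theorem h1_wp_scott {X : Type*} [Fintype X] [Nonempty X] (s t : Equiv.Perm X)
    (htrans : ∀ x y : X, ∃ g ∈ Subgroup.closure {s, t}, g x = y) :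
    Nat.card (MulAction.orbitRel.Quotient (Subgroup.zpowers s) X)
      + Nat.card (MulAction.orbitRel.Quotient (Subgroup.zpowers t) X)
      + Nat.card (MulAction.orbitRel.Quotient (Subgroup.zpowers (s * t)) X) ≤ Fintype.card X + 2
    ∧ Even (Fintype.card X
      + Nat.card (MulAction.orbitRel.Quotient (Subgroup.zpowers s) X)
      + Nat.card (MulAction.orbitRel.Quotient (Subgroup.zpowers t) X)
      + Nat.card (MulAction.orbitRel.Quotient (Subgroup.zpowers (s * t)) X)) := by
  classical
  refine ⟨?_, h1_even s t⟩
  have h := h1_scott_finrank s t (s * t)⁻¹ (mul_inv_cancel _) htrans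
  have hs := h1_finrank_range s
  have ht := h1_finrank_range t
  have hu := h1_finrank_range (s * t)⁻¹
  rw [Subgroup.zpowers_inv] at hu
  omega

end Fermat.Agent.S24
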