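import Mathlib
import Fermat.Prelude.Def_ModularCurve_CanonicalDivisor
import Fermat.Agent.S24.FF.Dict

/-!
# S24, FF2d / FF2e: the order of `dy` at a zero of `y - a` and at a pole of `y`

`K` algebraically closed of characteristic zero, `F / K` a function field in one variable,
`v` a place of `F / K` with valuation ring `O_v` and (chosen) uniformizer `π`.

Route (purely algebraic):
* `O_v` is a localisation of the integral closure `C` of `K[π]` in `F`, and `C` is a finite
  `K[π]`-module; hence `O_v` is essentially of finite type over `K` and `Ω[O_v/K]` is a finite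
  `O_v`-module;
* the residue field of `O_v` is `K`, so `Ω[O_v/K] = O_v dπ + m Ω[O_v/K]`, and by Nakayama
  `Ω[O_v/K] = O_v dπ`;
* hence `dg ∈ O_v dπ` for `g ∈ O_v`, and for `g = u π ^ e` with `e ≠ 0` one gets
  `dg = π ^ (e - 1) (e u + π c) dπ` with `e u + π c` a unit (characteristic zero).

The results are stated with the needed function-field inputs (`F / K(f)` finite for non-constant
`f`; `Ω[F/K]` spanned by `dy`, `dy ≠ 0` for non-constant `y`) as explicit hypotheses.
-/

set_option autoImplicit false
set_option linter.style.haveILetI false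

noncomputable section

open AlgebraicCurve KaehlerDifferential IntermediateField IsDedekindDomain
open scoped IntermediateField.algebraAdjoinAdjoin

namespace Fermat.Agent.S24

namespace H59

variable {K F : Type*} [Field K] [Field F] [Algebra K F]

/-! ## The uniformizer underlying `Place.dCoord` -/

/-- The (chosen) uniformizer underlying `Place.dCoord`. -/
def unif (v : Place K F) : v.toValuationSubring :=
  (IsDiscreteValuationRing.exists_irreducible v.toValuationSubring).choose

theorem unif_irreducible (v : Place K F) : Irreducible (unif v) :=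
  (IsDiscreteValuationRing.exists_irreducible v.toValuationSubring).choose_spec

theorem dCoord_eq (v : Place K F) : v.dCoord = D K F (unif v : F) := rfl

theorem ord_unif (v : Place K F) : v.ord (unif v : F) = 1 :=
  v.ord_coe_irreducible (unif_irreducible v)

theorem unif_ne_zero (v : Place K F) : (unif v : F) ≠ 0 := by
  intro h
  have := ord_unif v
  rw [h, v.ord_zero] at this
  exact zero_ne_one this

theorem unif_mem_maximalIdeal (v : Place K F) :
    unif v ∈ IsLocalRing.maximalIdeal v.toValuationSubring := by
  rw [(unif_irreducible v).maximalIdeal_eq]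
  exact Ideal.mem_span_singleton_self _

/-- Elements of `K` have order zero. -/
theorem ord_algebraMap (v : Place K F) (a : K) : v.ord (algebraMap K F a) = 0 := by
  rcases eq_or_ne a 0 with rfl | ha
  · simp
  · have hu : IsUnit (algebraMap K v.toValuationSubring a) := (ha.isUnit).map _
    have := v.ord_coe_unit hu.unit
    simpa using this

/-- An element of a field extension algebraic over the algebraically closed field `K` is a
constant. -/
theorem exists_algebraMap_eq_of_isAlgebraic {L : Type*} [Field L] [Algebra K L] [IsAlgClosed K]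
    {x : L} (hx : IsAlgebraic K x) : ∃ a : K, algebraMap K L a = x := by
  have : Algebra.IsAlgebraic K K⟮x⟯ := IntermediateField.isAlgebraic_adjoin_simple hx.isIntegral
  have h := IntermediateField.eq_bot_of_isAlgClosed_of_isAlgebraic K⟮x⟯
  have hx' : x ∈ K⟮x⟯ := IntermediateField.mem_adjoin_simple_self K x
  rw [h, IntermediateField.mem_bot] at hx'
  exact hx'

theorem unif_transcendental [IsAlgClosed K] (v : Place K F) :
    Transcendental K (unif v : F) := by
  intro halg
  obtain ⟨a, ha⟩ := exists_algebraMap_eq_of_isAlgebraic halg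
  have h1 := ord_unif v
  rw [← ha, ord_algebraMap] at h1
  exact zero_ne_one h1

/-! ## `O_v` and the integral closure of `K[π]` -/

/-- Elements integral over a subring contained in a valuation ring lie in the valuation ring. -/
theorem mem_valuationSubring_of_isIntegral {A : Type*} [CommRing A] [Algebra A F]
    (O : ValuationSubring F) (hA : ∀ a : A, algebraMap A F a ∈ O) {c : F} (hc : IsIntegral A c) :
    c ∈ O := by
  letI : Algebra A O := ((algebraMap A F).codRestrict O.toSubring hA).toAlgebra
  haveI : IsScalarTower A O F := IsScalarTower.of_algebraMap_eq fun a => rfl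
  have h2 : IsIntegral O c := hc.tower_top
  obtain ⟨y, hy⟩ := IsIntegrallyClosed.isIntegral_iff.mp h2
  rw [← hy]
  exact y.2

theorem adjoin_le_valuationSubring (v : Place K F) (π : F) (hπmem : π ∈ v.toValuationSubring)
    (a : Algebra.adjoin K {π}) : algebraMap (Algebra.adjoin K {π}) F a ∈ v.toValuationSubring := by
  obtain ⟨a, ha⟩ := a
  show a ∈ v.toValuationSubring
  induction ha using Algebra.adjoin_induction with
  | mem x hx => rw [Set.mem_singleton_iff.mp hx]; exact hπmem
  | algebraMap r => exact v.algebraMap_mem' r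
  | add x y _ _ hx hy => exact add_mem hx hy
  | mul x y _ _ hx hy => exact mul_mem hx hy

/-- The valuation ring of a place is essentially of finite type over `K`, as soon as it contains
a transcendental element `π` with `F / K(π)` finite (and separable: characteristic zero).
Moreover every element of `O_v` is a fraction `n / d` of elements integral over `K[π]`, with
`d` a unit of `O_v`. -/
theorem essFiniteType_and_fraction [CharZero K] (v : Place K F) (π : F)
    (hπmem : π ∈ v.toValuationSubring) (htr : Transcendental K π)
    [FiniteDimensional K⟮π⟯ F] :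
    Algebra.EssFiniteType K v.toValuationSubring ∧
    ∀ g : v.toValuationSubring, ∃ n d : v.toValuationSubring,
      IsIntegral (Algebra.adjoin K {π}) (n : F) ∧ IsIntegral (Algebra.adjoin K {π}) (d : F) ∧
      IsUnit d ∧ g * d = n := by
  classical
  -- `A = K[π]` is a PID.
  let e := Polynomial.algEquivOfTranscendental K π htr
  haveI : IsPrincipalIdealRing (Algebra.adjoin K {π}) :=
    IsPrincipalIdealRing.of_surjective e.toRingEquiv.toRingHom e.surjective
  haveI : CharZero K⟮π⟯ := charZero_of_injective_algebraMap (algebraMap K K⟮π⟯).injective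
  haveI : Algebra.IsSeparable K⟮π⟯ F := Algebra.IsSeparable.of_integral K⟮π⟯ F
  -- the integral closure `C` of `A` in `F`
  haveI : Module.Finite (Algebra.adjoin K {π}) (integralClosure (Algebra.adjoin K {π}) F) :=
    IsIntegralClosure.finite (Algebra.adjoin K {π}) K⟮π⟯ F _
  haveI : IsDedekindDomain (integralClosure (Algebra.adjoin K {π}) F) :=
    integralClosure.isDedekindDomain (Algebra.adjoin K {π}) K⟮π⟯ F
  haveI : IsFractionRing (integralClosure (Algebra.adjoin K {π}) F) F :=
    integralClosure.isFractionRing_of_finite_extension K⟮π⟯ F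
  -- `A ⊆ O_v`, `C ⊆ O_v`
  have hA := adjoin_le_valuationSubring v π hπmem
  have hC : ∀ c : integralClosure (Algebra.adjoin K {π}) F,
      algebraMap (integralClosure (Algebra.adjoin K {π}) F) F c ∈ v.toValuationSubring :=
    fun c => mem_valuationSubring_of_isIntegral v.toValuationSubring hA c.2
  obtain ⟨w, hw⟩ := exists_heightOneSpectrum_of_le v hC
  have hmem : ∀ x : F, x ∈ v.toValuationSubring ↔ w.valuation F x ≤ 1 := fun x => by
    rw [hw, Valuation.mem_valuationSubring_iff]
  -- finite type
  haveI : Algebra.FiniteType K (Algebra.adjoin K {π}) :=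
    Algebra.FiniteType.adjoin_of_finite (Set.finite_singleton π)
  haveI : Algebra.FiniteType K (integralClosure (Algebra.adjoin K {π}) F) :=
    Algebra.FiniteType.trans (S := Algebra.adjoin K {π}) inferInstance inferInstance
  obtain ⟨S, hS⟩ := (inferInstance :
    Algebra.FiniteType K (integralClosure (Algebra.adjoin K {π}) F)).out
  let φ₀ : integralClosure (Algebra.adjoin K {π}) F →+* v.toValuationSubring :=
    (algebraMap (integralClosure (Algebra.adjoin K {π}) F) F).codRestrict
      v.toValuationSubring.toSubring hC
  let φ : integralClosure (Algebra.adjoin K {π}) F →ₐ[K] v.toValuationSubring :=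
    { φ₀ with commutes' := fun a => Subtype.ext rfl }
  have hφ : ∀ c, ((φ c : v.toValuationSubring) : F)
      = algebraMap (integralClosure (Algebra.adjoin K {π}) F) F c := fun c => rfl
  have hmemφ : ∀ c, φ c ∈ Algebra.adjoin K ((S.image φ : Finset v.toValuationSubring) :
      Set v.toValuationSubring) := by
    intro c
    have h1 : c ∈ Algebra.adjoin K (S : Set (integralClosure (Algebra.adjoin K {π}) F)) := by
      rw [hS]; exact Algebra.mem_top
    have h2 : φ c ∈ (Algebra.adjoin K
        (S : Set (integralClosure (Algebra.adjoin K {π}) F))).map φ := ⟨c, h1, rfl⟩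
    rw [AlgHom.map_adjoin] at h2
    simpa using h2
  -- the fractions
  have hfrac : ∀ g : v.toValuationSubring,
      ∃ n d : integralClosure (Algebra.adjoin K {π}) F, IsUnit (φ d) ∧ g * φ d = φ n := by
    intro g
    have hg : w.valuation F (g : F) ≤ 1 := (hmem _).mp g.2
    obtain ⟨n, ⟨d, hd⟩, hnd⟩ := w.exists_primeCompl_mul_eq_of_integer (g : F) hg
    refine ⟨n, d, ?_, Subtype.ext (by rw [hφ n]; exact hnd)⟩
    have hd1 : w.valuation F (algebraMap _ F d) = 1 := by
      rw [HeightOneSpectrum.valuation_of_algebraMap]
      exact (w.intValuation_eq_one_iff_mem_primeCompl d).mpr hd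
    have hd0 : algebraMap (integralClosure (Algebra.adjoin K {π}) F) F d ≠ 0 := by
      intro h
      rw [h, map_zero] at hd1
      exact zero_ne_one hd1
    have hinv : (algebraMap (integralClosure (Algebra.adjoin K {π}) F) F d)⁻¹
        ∈ v.toValuationSubring := by
      rw [hmem, map_inv₀, hd1, inv_one]
    exact ⟨⟨φ d, ⟨_, hinv⟩, Subtype.ext (mul_inv_cancel₀ hd0), Subtype.ext (inv_mul_cancel₀ hd0)⟩,
      rfl⟩
  refine ⟨?_, fun g => ?_⟩
  · rw [Algebra.essFiniteType_iff]
    refine ⟨S.image φ, fun g => ?_⟩
    obtain ⟨n, d, hd, hnd⟩ := hfrac g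
    exact ⟨φ d, hmemφ d, hd, hnd ▸ hmemφ n⟩
  · obtain ⟨n, d, hd, hnd⟩ := hfrac g
    exact ⟨φ n, φ d, n.2, d.2, hd, hnd⟩

/-! ## The residue field is `K` -/

/-- The residue class of an element of `O_v` integral over `K[π]` (`π ∈ m_v`) is a constant. -/
theorem residue_mem_range_of_isIntegral [IsAlgClosed K] (v : Place K F) (π : v.toValuationSubring)
    (hπ : π ∈ IsLocalRing.maximalIdeal v.toValuationSubring) (c : v.toValuationSubring)
    (hc : IsIntegral (Algebra.adjoin K {(π : F)}) (c : F)) :
    ∃ a : K, algebraMap K v.ResidueField a = IsLocalRing.residue v.toValuationSubring c := by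
  have hA := adjoin_le_valuationSubring v (π : F) π.2
  let ψ : Algebra.adjoin K {(π : F)} →+* v.toValuationSubring :=
    (algebraMap (Algebra.adjoin K {(π : F)}) F).codRestrict v.toValuationSubring.toSubring hA
  let ρ : Algebra.adjoin K {(π : F)} →+* v.ResidueField :=
    (IsLocalRing.residue v.toValuationSubring).comp ψ
  -- the image of `K[π]` in the residue field consists of constants
  have hrange : ∀ a : Algebra.adjoin K {(π : F)}, ρ a ∈ Set.range (algebraMap K v.ResidueField) := by
    rintro ⟨a, ha⟩
    induction ha using Algebra.adjoin_induction with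
    | mem x hx =>
      refine ⟨0, ?_⟩
      rw [map_zero]
      symm
      have : ψ ⟨x, Algebra.subset_adjoin hx⟩ = π := Subtype.ext (Set.mem_singleton_iff.mp hx)
      show IsLocalRing.residue v.toValuationSubring (ψ ⟨x, Algebra.subset_adjoin hx⟩) = 0
      rw [this]
      exact (IsLocalRing.residue_eq_zero_iff _).mpr hπ
    | algebraMap r => exact ⟨r, rfl⟩
    | add x y hx hy hx' hy' =>
      obtain ⟨a, ha⟩ := hx'
      obtain ⟨b, hb⟩ := hy'
      refine ⟨a + b, ?_⟩
      have : (⟨x + y, add_mem hx hy⟩ : Algebra.adjoin K {(π : F)}) = ⟨x, hx⟩ + ⟨y, hy⟩ := rfl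
      rw [this, map_add, map_add, ha, hb]
    | mul x y hx hy hx' hy' =>
      obtain ⟨a, ha⟩ := hx'
      obtain ⟨b, hb⟩ := hy'
      refine ⟨a * b, ?_⟩
      have : (⟨x * y, mul_mem hx hy⟩ : Algebra.adjoin K {(π : F)}) = ⟨x, hx⟩ * ⟨y, hy⟩ := rfl
      rw [this, map_mul, map_mul, ha, hb]
  obtain ⟨p, hpm, hp⟩ := hc
  -- `p(c) = 0` in `O_v`
  have hp' : Polynomial.eval₂ ψ c p = 0 := by
    apply Subtype.ext
    have := Polynomial.hom_eval₂ p ψ v.toValuationSubring.subtype c
    rw [ZeroMemClass.coe_zero]
    exact this.trans hp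
  have hp'' : Polynomial.eval₂ ρ (IsLocalRing.residue v.toValuationSubring c) p = 0 := by
    have := Polynomial.hom_eval₂ p ψ (IsLocalRing.residue v.toValuationSubring) c
    rw [hp', map_zero] at this
    exact this.symm
  have hlift : p.map ρ ∈ Polynomial.lifts (algebraMap K v.ResidueField) := by
    rw [Polynomial.lifts_iff_coeff_lifts]
    intro n
    rw [Polynomial.coeff_map]
    exact hrange _
  obtain ⟨q, hqmap, -, hqm⟩ := Polynomial.lifts_and_degree_eq_and_monic hlift (hpm.map ρ)
  have hint : IsIntegral K (IsLocalRing.residue v.toValuationSubring c) := by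
    refine ⟨q, hqm, ?_⟩
    rw [← Polynomial.eval_map, hqmap, Polynomial.eval_map]
    exact hp''
  exact exists_algebraMap_eq_of_isAlgebraic hint.isAlgebraic

/-- The residue field of a place is `K`: every element of `O_v` is congruent to a constant. -/
theorem exists_sub_mem_maximalIdeal [IsAlgClosed K] [CharZero K] (v : Place K F)
    [FiniteDimensional K⟮(unif v : F)⟯ F] (g : v.toValuationSubring) :
    ∃ a : K, g - algebraMap K v.toValuationSubring a
      ∈ IsLocalRing.maximalIdeal v.toValuationSubring := by
  obtain ⟨n, d, hn, hd, hdu, hnd⟩ :=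
    (essFiniteType_and_fraction v (unif v : F) (unif v).2 (unif_transcendental v)).2 g
  obtain ⟨a, ha⟩ := residue_mem_range_of_isIntegral v (unif v) (unif_mem_maximalIdeal v) n hn
  obtain ⟨b, hb⟩ := residue_mem_range_of_isIntegral v (unif v) (unif_mem_maximalIdeal v) d hd
  have hb0 : algebraMap K v.ResidueField b ≠ 0 := by
    rw [hb]
    intro h
    exact ((IsLocalRing.residue_eq_zero_iff _).mp h) hdu
  refine ⟨a / b, ?_⟩
  rw [← IsLocalRing.residue_eq_zero_iff, map_sub, sub_eq_zero]
  have h1 : IsLocalRing.residue v.toValuationSubring (algebraMap K v.toValuationSubring (a / b))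
      = algebraMap K v.ResidueField (a / b) := rfl
  rw [h1, map_div₀, eq_div_iff hb0, ha, hb, ← map_mul, hnd]

/-- Every place has degree one (`K` algebraically closed), once `F / K(π)` is finite. -/
theorem deg_eq_one [IsAlgClosed K] [CharZero K] (v : Place K F)
    [FiniteDimensional K⟮(unif v : F)⟯ F] : v.deg = 1 := by
  have hsurj : Function.Surjective (algebraMap K v.ResidueField) := by
    intro r
    obtain ⟨g, rfl⟩ := IsLocalRing.residue_surjective r
    obtain ⟨a, ha⟩ := exists_sub_mem_maximalIdeal v g
    refine ⟨a, ?_⟩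
    rw [← IsLocalRing.residue_eq_zero_iff, map_sub, sub_eq_zero] at ha
    exact ha.symm
  have hbij : Function.Bijective (algebraMap K v.ResidueField) :=
    ⟨(algebraMap K v.ResidueField).injective, hsurj⟩
  have e : K ≃ₗ[K] v.ResidueField :=
    LinearEquiv.ofBijective (Algebra.linearMap K v.ResidueField) hbij
  rw [Place.deg, ← e.finrank_eq, Module.finrank_self]

/-! ## Nakayama: `Ω[O_v/K] = O_v dπ` -/

/-- Nakayama: if the residue field of `O_v` is `K` and `Ω[O_v/K]` is a finite `O_v`-module, then
`Ω[O_v/K]` is generated by `dπ`. -/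
theorem span_D_unif_eq_top (v : Place K F)
    [Module.Finite v.toValuationSubring Ω[v.toValuationSubring⁄K]]
    (hres : ∀ g : v.toValuationSubring, ∃ a : K,
      g - algebraMap K v.toValuationSubring a ∈ IsLocalRing.maximalIdeal v.toValuationSubring) :
    Submodule.span v.toValuationSubring {D K v.toValuationSubring (unif v)} = ⊤ := by
  apply top_le_iff.mp
  refine Submodule.le_of_le_smul_of_le_jacobson_bot
    (I := IsLocalRing.maximalIdeal v.toValuationSubring) Module.Finite.fg_top
    (IsLocalRing.maximalIdeal_le_jacobson _) ?_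
  rw [← KaehlerDifferential.span_range_derivation, Submodule.span_le]
  rintro _ ⟨g, rfl⟩
  obtain ⟨a, ha⟩ := hres g
  rw [(unif_irreducible v).maximalIdeal_eq, Ideal.mem_span_singleton'] at ha
  obtain ⟨h, hh⟩ := ha
  have hg : g = algebraMap K v.toValuationSubring a + h * unif v := by
    rw [hh]; ring
  have hD : D K v.toValuationSubring g
      = h • D K v.toValuationSubring (unif v) + unif v • D K v.toValuationSubring h := by
    rw [hg, map_add, Derivation.map_algebraMap, zero_add, Derivation.leibniz]
  rw [SetLike.mem_coe, hD]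
  refine Submodule.add_mem_sup (Submodule.smul_mem _ _ (Submodule.mem_span_singleton_self _)) ?_
  refine Submodule.smul_mem_smul (unif_mem_maximalIdeal v) ?_
  rw [KaehlerDifferential.span_range_derivation]
  exact Submodule.mem_top

/-- Consequence: for `g ∈ O_v`, `dg = c dπ` with `c ∈ O_v`. -/
theorem exists_D_eq_smul_dCoord (v : Place K F)
    [Module.Finite v.toValuationSubring Ω[v.toValuationSubring⁄K]]
    (hres : ∀ g : v.toValuationSubring, ∃ a : K,
      g - algebraMap K v.toValuationSubring a ∈ IsLocalRing.maximalIdeal v.toValuationSubring)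
    (g : v.toValuationSubring) :
    ∃ c : v.toValuationSubring, D K F (g : F) = (c : F) • v.dCoord := by
  have h1 : D K v.toValuationSubring g ∈
      Submodule.span v.toValuationSubring {D K v.toValuationSubring (unif v)} := by
    rw [span_D_unif_eq_top v hres]; exact Submodule.mem_top
  obtain ⟨c, hc⟩ := Submodule.mem_span_singleton.mp h1
  refine ⟨c, ?_⟩
  have h2 := congrArg (KaehlerDifferential.map K K v.toValuationSubring F) hc
  rw [map_smul, KaehlerDifferential.map_D, KaehlerDifferential.map_D] at h2
  exact h2.symm

/-! ## The order of `dg` -/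

/-- The main computation: if `d(O_v) ⊆ O_v dπ`, then `ord_v (dg) = ord_v g - 1` whenever
`ord_v g ≠ 0` (characteristic zero). -/
theorem ordDifferential_D_of_ord_ne_zero [CharZero K] (v : Place K F)
    [v.DCoordGenerates] [Nontrivial Ω[F⁄K]]
    (hO : ∀ g : v.toValuationSubring, ∃ c : v.toValuationSubring,
      D K F (g : F) = (c : F) • v.dCoord)
    (g : F) (hg : v.ord g ≠ 0) : v.ordDifferential (D K F g) = v.ord g - 1 := by
  have hg0 : g ≠ 0 := by
    rintro rfl
    exact hg v.ord_zero
  obtain ⟨u, hu⟩ := v.exists_unit_mul_zpow hg0 (unif_irreducible v)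
  obtain ⟨c, hc⟩ := hO (u : v.toValuationSubring)
  set e : ℤ := v.ord g with he
  set π : v.toValuationSubring := unif v with hπ
  have hπ0 : (π : F) ≠ 0 := unif_ne_zero v
  -- the unit `e u + π c`
  have heK : ((e : ℤ) : K) ≠ 0 := Int.cast_ne_zero.mpr hg
  have hU : IsUnit ((u : v.toValuationSubring) * algebraMap K v.toValuationSubring (e : K)
      + π * c) := by
    by_contra hcon
    have h1 : (u : v.toValuationSubring) * algebraMap K v.toValuationSubring (e : K)
        + π * c ∈ nonunits v.toValuationSubring := hcon
    have h2 : -(π * c) ∈ nonunits v.toValuationSubring := by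
      rw [mem_nonunits_iff, IsUnit.neg_iff]
      intro h
      exact (unif_irreducible v).not_isUnit (isUnit_of_mul_isUnit_left h)
    have h3 := IsLocalRing.nonunits_add h1 h2
    rw [add_neg_cancel_right] at h3
    exact h3 (u.isUnit.mul ((heK.isUnit).map _))
  have hUord := v.ord_coe_unit hU.unit
  rw [IsUnit.unit_spec] at hUord
  have hcoe : (((u : v.toValuationSubring) * algebraMap K v.toValuationSubring (e : K)
      + π * c : v.toValuationSubring) : F)
      = ((u : v.toValuationSubring) : F) * (e : F) + (π : F) * (c : F) := by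
    push_cast
    rw [Place.coe_algebraMap, map_intCast]
  rw [hcoe] at hUord
  have hU0 : ((u : v.toValuationSubring) : F) * (e : F) + (π : F) * (c : F) ≠ 0 := by
    rw [← hcoe]
    intro h
    exact hU.ne_zero (Subtype.ext h)
  -- the differential
  have hD : D K F g = ((π : F) ^ (e - 1)
      * (((u : v.toValuationSubring) : F) * (e : F) + (π : F) * (c : F))) • v.dCoord := by
    have hπe : (π : F) ^ e = (π : F) ^ (e - 1) * (π : F) := by
      rw [← zpow_add_one₀ hπ0, sub_add_cancel]
    rw [hu, Derivation.leibniz, Derivation.leibniz_zpow, hc, ← dCoord_eq, hπe,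
      ← Int.cast_smul_eq_zsmul F e]
    module
  rw [Place.ordDifferential, v.differentialCoeff_unique hD,
    v.ord_mul (zpow_ne_zero _ hπ0) hU0, hUord, v.ord_zpow, ord_unif]
  ring

/-- `ord_v (dg) = ord_v g - 1` whenever `ord_v g ≠ 0`, from the function-field inputs at the
uniformizer `π` of `v`: `F / K(π)` finite, `Ω[F/K] = F dπ`, `dπ ≠ 0`. -/
theorem ordDifferential_D_core [IsAlgClosed K] [CharZero K] (v : Place K F)
    (hfin : FiniteDimensional K⟮(unif v : F)⟯ F)
    (hspan : ∀ ω : Ω[F⁄K], ∃ f : F, ω = f • D K F (unif v : F))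
    (hne : D K F (unif v : F) ≠ 0)
    (g : F) (hg : v.ord g ≠ 0) : v.ordDifferential (D K F g) = v.ord g - 1 := by
  haveI := hfin
  haveI : Algebra.EssFiniteType K v.toValuationSubring :=
    (essFiniteType_and_fraction v (unif v : F) (unif v).2 (unif_transcendental v)).1
  haveI : v.DCoordGenerates := ⟨by
    rw [eq_top_iff]
    intro ω _
    obtain ⟨f, hf⟩ := hspan ω
    rw [hf]
    exact Submodule.smul_mem _ _ (Submodule.mem_span_singleton_self _)⟩
  haveI : Nontrivial Ω[F⁄K] := nontrivial_of_ne _ _ hne
  exact ordDifferential_D_of_ord_ne_zero v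
    (exists_D_eq_smul_dCoord v (exists_sub_mem_maximalIdeal v)) g hg

end H59

/-! ## FF2d / FF2e, with the function-field inputs as hypotheses -/

section FF

variable {K F : Type*} [Field K] [Field F] [Algebra K F] [IsAlgClosed K] [CharZero K]

/-- FF2d, from FF1c (`hfin`), FF2a (`hspan`), FF2b (`hne`).
At a zero of `y - a` of order `e`: `ord_v (dy) = e - 1`. -/
theorem ff_ordDifferential_zero_of
    (hfin : ∀ f : F, Transcendental K f → FiniteDimensional K⟮f⟯ F)
    (hspan : ∀ y : F, Transcendental K y → ∀ ω : Ω[F⁄K], ∃ f : F, ω = f • D K F y)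
    (hne : ∀ y : F, Transcendental K y → D K F y ≠ 0)
    (v : Place K F) (y : F) (a : K) (hy : 0 < v.ord (y - algebraMap K F a)) :
    v.ordDifferential (D K F y) = v.ord (y - algebraMap K F a) - 1 := by
  have htr := H59.unif_transcendental v
  have h := H59.ordDifferential_D_core v (hfin _ htr) (hspan _ htr) (hne _ htr)
    (y - algebraMap K F a) hy.ne'
  rwa [map_sub, Derivation.map_algebraMap, sub_zero] at h

/-- FF2e, from FF1c (`hfin`), FF2a (`hspan`), FF2b (`hne`).
At a pole of `y`: `ord_v (dy) = ord_v y - 1`. -/
theorem ff_ordDifferential_pole_of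
    (hfin : ∀ f : F, Transcendental K f → FiniteDimensional K⟮f⟯ F)
    (hspan : ∀ y : F, Transcendental K y → ∀ ω : Ω[F⁄K], ∃ f : F, ω = f • D K F y)
    (hne : ∀ y : F, Transcendental K y → D K F y ≠ 0)
    (v : Place K F) (y : F) (hy : v.ord y < 0) :
    v.ordDifferential (D K F y) = v.ord y - 1 := by
  have htr := H59.unif_transcendental v
  exact H59.ordDifferential_D_core v (hfin _ htr) (hspan _ htr) (hne _ htr) y hy.ne

/-- FF1a, from FF1c (`hfin`): every place has degree one. -/
theorem ff_deg_eq_one_of
    (hfin : ∀ f : F, Transcendental K f → FiniteDimensional K⟮f⟯ F)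
    (v : Place K F) : v.deg = 1 := by
  haveI := hfin _ (H59.unif_transcendental v)
  exact H59.deg_eq_one v

end FF

end Fermat.Agent.S24
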