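import Fermat.Agent.S24.H85_FF3
import Fermat.Agent.S24.H59_FF1d
import Fermat.Agent.S24.H59_FF2de

/-!
# S24 / FF3 glue (helper85): the Riemann–Hurwitz count from FF1b alone

All other interface statements (FF1a, FF1c, FF1d, FF2a–e) are landed; the only remaining
hypothesis is FF1b in the form `H59.ZerosStmt K F`.
-/

set_option autoImplicit false

noncomputable section

open AlgebraicCurve KaehlerDifferential IntermediateField

namespace Fermat.Agent.S24

variable {K F : Type*} [Field K] [Field F] [Algebra K F] [IsAlgClosed K] [CharZero K]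

/-- **FF3** (Riemann–Hurwitz count) from FF1b. -/
theorem ff_riemann_hurwitz_of_zeros (hzeros : H59.ZerosStmt K F)
    (x : F) (hx : Transcendental K x) [FiniteDimensional K⟮x⟯ F]
    (S : Finset K) (r : K → ℕ)
    (hr : ∀ a ∈ S, Nat.card {v : Place K F // 0 < v.ord (x - algebraMap K F a)} = r a)
    (hS : ∀ a ∉ S, Nat.card {v : Place K F // 0 < v.ord (x - algebraMap K F a)}
      = Module.finrank K⟮x⟯ F)
    (rinf : ℕ) (hrinf : Nat.card {v : Place K F // v.ord x < 0} = rinf)
    (ω : Ω[F⁄K]) (hω : ω ≠ 0) (D : Divisor K F) (hD : ∀ v, D v = v.ordDifferential ω) :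
    Divisor.degree D
      = ∑ a ∈ S, ((Module.finrank K⟮x⟯ F : ℤ) - r a) - Module.finrank K⟮x⟯ F - rinf :=
  H85.ff_riemann_hurwitz_of x hx (fun v => ff_deg_eq_one x hx v)
    (fun y hy hfd => @hzeros y hy hfd)
    (fun f hf => ff_degree_principal_of hzeros x hx f hf)
    (fun v a h => ff_ordDifferential_zero x hx v x a h)
    (fun v h => ff_ordDifferential_pole x hx v x h)
    S r hr hS rinf hrinf ω hω D hD

end Fermat.Agent.S24
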