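import Fermat.Statements.S24
import Fermat.Agent.S24.FF.Dict

/-!
# S24 plan: exact interface statements (all `sorry` here; owners prove them in their own files
`Fermat/Agent/S24/H<seat>_<Name>.lean`, namespace `Fermat.Agent.S24`, SAME theorem names without
the `plan_` prefix). This file is WIP and must never be imported by `Fermat/Agent/S24.lean`.
-/

set_option autoImplicit false

noncomputable section

open AlgebraicCurve KaehlerDifferential IntermediateField
open scoped MatrixGroups Pointwise

namespace Fermat.Agent.S24.Plan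

/-! ## FF: function-field layer. `K` algebraically closed of char 0, `x : F` transcendental,
`F / K(x)` finite. -/
section FF

variable {K F : Type*} [Field K] [Field F] [Algebra K F] [IsAlgClosed K] [CharZero K]

/-- FF1a (helper72). Every place has degree one. -/
theorem plan_ff_deg_eq_one (x : F) (hx : Transcendental K x) [FiniteDimensional K⟮x⟯ F]
    (v : Place K F) : v.deg = 1 := sorry

/-- FF1b (helper72). Zeros of `x`: finitely many, and the orders sum to `[F : K(x)]`.
(Dictionary with primes over `(X)` of the integral closure of `K[X]` + sum e f = n.) -/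
theorem plan_ff_zeros (x : F) (hx : Transcendental K x) [FiniteDimensional K⟮x⟯ F] :
    {v : Place K F | 0 < v.ord x}.Finite ∧
      ∑ᶠ v ∈ {v : Place K F | 0 < v.ord x}, v.ord x = (Module.finrank K⟮x⟯ F : ℤ) := sorry

/-- FF1c (helper72). For non-constant `f`, `F / K(f)` is again finite. -/
theorem plan_ff_finite_of_transcendental (x : F) (hx : Transcendental K x)
    [FiniteDimensional K⟮x⟯ F] (f : F) (hf : Transcendental K f) :
    FiniteDimensional K⟮f⟯ F := sorry

/-- FF1d (helper72). Principal divisors have degree zero. -/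
theorem plan_ff_degree_principal (x : F) (hx : Transcendental K x) [FiniteDimensional K⟮x⟯ F]
    (f : F) (hf : f ≠ 0) :
    {v : Place K F | v.ord f ≠ 0}.Finite ∧
      ∀ D : Divisor K F, (∀ v, D v = v.ord f) → Divisor.degree D = 0 := sorry

/-- FF2a (helper17). `Ω[F/K]` is spanned by `dy` for any non-constant `y`. -/
theorem plan_ff_omega_span (x : F) (hx : Transcendental K x) [FiniteDimensional K⟮x⟯ F]
    (y : F) (hy : Transcendental K y) (ω : Ω[F⁄K]) : ∃ f : F, ω = f • D K F y := sorry

/-- FF2b (helper17). `dy ≠ 0` for non-constant `y`. -/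
theorem plan_ff_D_ne_zero (x : F) (hx : Transcendental K x) [FiniteDimensional K⟮x⟯ F]
    (y : F) (hy : Transcendental K y) : D K F y ≠ 0 := sorry

/-- FF2c (helper17). `ord_v (f ω) = ord_v f + ord_v ω`. -/
theorem plan_ff_ordDifferential_smul (x : F) (hx : Transcendental K x) [FiniteDimensional K⟮x⟯ F]
    (v : Place K F) (f : F) (hf : f ≠ 0) (ω : Ω[F⁄K]) (hω : ω ≠ 0) :
    v.ordDifferential (f • ω) = v.ord f + v.ordDifferential ω := sorry

/-- FF2d (helper17). At a zero of `y - a` of order `e`: `ord_v (dy) = e - 1`.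
(Algebraic proof: with `π` the uniformizer and `∂ = d/dπ`, show `∂ (O_v) ⊆ O_v`:
`O_v` is a localisation of the integral closure `B` of `K[π]`, `B` is a finite `K[π]`-module, so
`ord_v (∂ b) ≥ -M` on `O_v`; then expand `f = a₀ + a₁ π + ⋯ + π^M g`.) -/
theorem plan_ff_ordDifferential_zero (x : F) (hx : Transcendental K x) [FiniteDimensional K⟮x⟯ F]
    (v : Place K F) (y : F) (a : K) (hy : 0 < v.ord (y - algebraMap K F a)) :
    v.ordDifferential (D K F y) = v.ord (y - algebraMap K F a) - 1 := sorry

/-- FF2e (helper17). At a pole of `y`: `ord_v (dy) = ord_v y - 1`. -/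
theorem plan_ff_ordDifferential_pole (x : F) (hx : Transcendental K x) [FiniteDimensional K⟮x⟯ F]
    (v : Place K F) (y : F) (hy : v.ord y < 0) :
    v.ordDifferential (D K F y) = v.ord y - 1 := sorry

/-- FF3 (helper23). Riemann–Hurwitz count. -/
theorem plan_ff_riemann_hurwitz (x : F) (hx : Transcendental K x) [FiniteDimensional K⟮x⟯ F]
    (S : Finset K) (r : K → ℕ)
    (hr : ∀ a ∈ S, Nat.card {v : Place K F // 0 < v.ord (x - algebraMap K F a)} = r a)
    (hS : ∀ a ∉ S, Nat.card {v : Place K F // 0 < v.ord (x - algebraMap K F a)}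
      = Module.finrank K⟮x⟯ F)
    (rinf : ℕ) (hrinf : Nat.card {v : Place K F // v.ord x < 0} = rinf)
    (ω : Ω[F⁄K]) (hω : ω ≠ 0) (D : Divisor K F) (hD : ∀ v, D v = v.ordDifferential ω) :
    Divisor.degree D
      = ∑ a ∈ S, ((Module.finrank K⟮x⟯ F : ℤ) - r a) - Module.finrank K⟮x⟯ F - rinf := sorry

end FF

/-! ## GC: abstract Galois counting of primes (helper1). -/
section GC

variable {A B C : Type*} [CommRing A] [CommRing B] [CommRing C]
  [IsDomain A] [IsDomain B] [IsDomain C]
  [Algebra A B] [Algebra B C] [Algebra A C] [IsScalarTower A B C]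
  [Algebra.IsIntegral A B] [Algebra.IsIntegral B C]
  (G : Type*) [Group G] [Finite G] [MulSemiringAction G C] [IsGaloisGroup G A C]
  (H : Subgroup G) [IsGaloisGroup H B C]

/-- GC1 (helper1). Primes of the intermediate ring `B` over `p` correspond to orbits of the
decomposition group of one prime `P` of `C` over `p` acting on `G ⧸ H`
(`B = C^H`; the map `σ ↦ (σ⁻¹ • P) ∩ B` from `G` is onto by transitivity of `G` on primes over `p`
and lying-over, and its fibres are the `Stab(P)`-orbits on `G ⧸ H` by transitivity of `H`). -/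
theorem plan_gc_card_primesOver (p : Ideal A) [p.IsPrime] (P : Ideal C) [P.IsPrime]
    [P.LiesOver p] :
    Nat.card (p.primesOver B)
      = Nat.card (MulAction.orbitRel.Quotient (MulAction.stabilizer G P) (G ⧸ H)) := sorry

/-- GC3 (free). Orbit transfer along a surjection `π : Γ →* G` with `π⁻¹ H = Γ₀`. -/
theorem plan_gc_orbits_transfer {Γ G : Type*} [Group Γ] [Group G] (π : Γ →* G)
    (hπ : Function.Surjective π) (Γ₀ : Subgroup Γ) (H : Subgroup G) (hH : H.comap π = Γ₀)
    (γ : Γ) :
    Nat.card (MulAction.orbitRel.Quotient (Subgroup.zpowers (π γ)) (G ⧸ H))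
      = Nat.card (MulAction.orbitRel.Quotient (Subgroup.zpowers γ) (Γ ⧸ Γ₀)) := sorry

end GC

/-! ## GC2 (helper1): abstract count of the zeros of `t` in an intermediate field of a Galois
extension `L / E`, `E = K(t)`, from ONE valuation `w` of `L` that is invariant under `σ` and
whose value at `t` is at most the order of `σ`. Proof: `C` = integral closure of `K[t]` in `L`,
`P = {c ∈ C | w c < 1}` is a prime over `(t)`, `σ ∈ Stab P`, `|Stab P| = e(P|(t))`
(`Ideal.card_stabilizer_eq`, residue field `K` algebraically closed so `f = 1`),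
`e ≤ -log w t ≤ orderOf σ`, hence `Stab P = ⟨σ⟩`; then GC1 and the FF dictionary. -/
section GC2

open WithZero

theorem plan_gc_card_zeros
    {K E F L : Type*} [Field K] [IsAlgClosed K] [CharZero K] [Field E] [Field F] [Field L]
    [Algebra K E] [Algebra K F] [Algebra K L] [Algebra E F] [Algebra E L] [Algebra F L]
    [IsScalarTower K E F] [IsScalarTower K E L] [IsScalarTower E F L] [IsScalarTower K F L]
    [FiniteDimensional E L] [IsGalois E L]
    (t : E) (ht : Transcendental K t)
    (hE : ∀ y : E, ∃ p q : Polynomial K, Polynomial.aeval t q ≠ 0 ∧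
      y = Polynomial.aeval t p / Polynomial.aeval t q)
    (w : Valuation L ℤᵐ⁰) (hwK : ∀ c : K, c ≠ 0 → w (algebraMap K L c) = 1)
    (hwt : w (algebraMap E L t) < 1)
    (σ : L ≃ₐ[E] L) (hσ : ∀ y, w (σ y) = w y)
    (hord : exp (-(orderOf σ : ℤ)) ≤ w (algebraMap E L t)) :
    Nat.card {v : Place K F // 0 < v.ord (algebraMap E F t)}
      = Nat.card (MulAction.orbitRel.Quotient (Subgroup.zpowers σ)
          ((L ≃ₐ[E] L) ⧸ (IntermediateField.fixingSubgroup
            (IsScalarTower.toAlgHom E F L).fieldRange))) := sorry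

end GC2

/-! ## AN: analytic `j` (helper89 = AN-q). -/
section AN

open UpperHalfPlane ModularForm EisensteinSeries

/-- The analytic `j`-function. -/
def jAn (τ : ℍ) : ℂ := (E (k := 4) (by norm_num)) τ ^ 3 / ModularForm.discriminant τ

/-- AN-q (helper89). The formal series `ModularCurve.jNum` (over `ℤ`) is the `q`-expansion of
`q · j`. Needs: `EisensteinSeries.q_expansion_bernoulli` for `E₄` (`bernoulli 4 = -1/30`),
`discriminant_eq_q_prod`, and the comparison of the formal `tprod` `ModularCurve.etaProd` with the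
analytic product (Taylor coefficients of a locally uniform limit / `qExpansion_coeff_unique`). -/
theorem plan_jAn_hasSum (τ : ℍ) :
    HasSum (fun n : ℕ => ((PowerSeries.coeff n ModularCurve.jNum : ℤ) : ℂ) * (Function.Periodic.qParam 1 τ) ^ n)
      (jAn τ * Function.Periodic.qParam 1 τ) := sorry

/-- AN-inv. `j` is `SL(2,ℤ)`-invariant. -/
theorem plan_jAn_smul (γ : SL(2, ℤ)) (τ : ℍ) : jAn (γ • τ) = jAn τ := sorry

/-- AN-surj. `j` is surjective (else `1/(j - a)` is a bounded weight-0 level-1 form). -/
theorem plan_jAn_surjective (a : ℂ) : ∃ τ : ℍ, jAn τ = a := sorry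

end AN

end Fermat.Agent.S24.Plan
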