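import Mathlib

set_option autoImplicit false

namespace Fermat.Agent.S24

open Module

section fixed

variable {X : Type*}

/-- The permutation operator `f ↦ f ∘ g` on `X → ℚ`. -/
noncomputable def permOp (g : Equiv.Perm X) : (X → ℚ) →ₗ[ℚ] (X → ℚ) :=
  LinearMap.funLeft ℚ ℚ g

@[simp] lemma permOp_apply (g : Equiv.Perm X) (f : X → ℚ) (x : X) : permOp g f x = f (g x) := rfl

lemma permOp_mul (g h : Equiv.Perm X) : permOp (g * h) = permOp h ∘ₗ permOp g := by
  ext f x
  simp [permOp, LinearMap.funLeft]

lemma permOp_one : permOp (1 : Equiv.Perm X) = LinearMap.id := by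
  ext f x
  simp [permOp, LinearMap.funLeft]

/-- The subgroup of permutations fixing a function. -/
def fixer (f : X → ℚ) : Subgroup (Equiv.Perm X) where
  carrier := {h | ∀ x, f (h x) = f x}
  one_mem' := fun x => rfl
  mul_mem' := by
    intro a b ha hb x
    show f (a (b x)) = f x
    rw [ha, hb]
  inv_mem' := by
    intro a ha x
    have := ha (a⁻¹ x)
    have h2 : a (a⁻¹ x) = x := by simp
    rw [h2] at this
    exact this.symm

lemma mem_fixer {f : X → ℚ} {h : Equiv.Perm X} : h ∈ fixer f ↔ ∀ x, f (h x) = f x := Iff.rfl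

/-- The fixed space of `permOp g` is isomorphic to the functions on the orbits of `zpowers g`. -/
noncomputable def fixedEquiv (g : Equiv.Perm X) :
    (MulAction.orbitRel.Quotient (Subgroup.zpowers g) X → ℚ) ≃ₗ[ℚ]
      LinearMap.ker (permOp g - LinearMap.id) where
  toFun φ := ⟨fun x => φ (Quotient.mk'' x), by
    rw [LinearMap.mem_ker]
    ext x
    simp only [LinearMap.sub_apply, permOp_apply, LinearMap.id_apply, Pi.sub_apply, Pi.zero_apply]
    rw [sub_eq_zero]
    congr 1
    apply Quotient.sound'
    show (MulAction.orbitRel (Subgroup.zpowers g) X).r (g x) x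
    rw [MulAction.orbitRel_apply]
    exact ⟨⟨g, Subgroup.mem_zpowers g⟩, rfl⟩⟩
  map_add' φ ψ := by
    apply Subtype.ext
    funext x
    rfl
  map_smul' c φ := by
    apply Subtype.ext
    funext x
    rfl
  invFun f := fun q => Quotient.liftOn' q (f : X → ℚ) (by
    intro a b hab
    have hab' : (MulAction.orbitRel (Subgroup.zpowers g) X).r a b := hab
    rw [MulAction.orbitRel_apply] at hab'
    obtain ⟨⟨h, hh⟩, rfl⟩ := hab'
    have hf : g ∈ fixer (f : X → ℚ) := by
      intro x
      have := f.2
      rw [LinearMap.mem_ker] at this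
      have := congrFun this x
      simp only [LinearMap.sub_apply, permOp_apply, LinearMap.id_apply, Pi.sub_apply,
        Pi.zero_apply] at this
      exact sub_eq_zero.1 this
    have hle : Subgroup.zpowers g ≤ fixer (f : X → ℚ) := (Subgroup.zpowers_le).2 hf
    exact hle hh b)
  left_inv φ := by
    funext q
    induction q using Quotient.inductionOn' with
    | h x => rfl
  right_inv f := by
    apply Subtype.ext
    funext x
    rfl

lemma finrank_fixed [Fintype X] (g : Equiv.Perm X) :
    finrank ℚ (LinearMap.ker (permOp g - LinearMap.id)) =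
      Nat.card (MulAction.orbitRel.Quotient (Subgroup.zpowers g) X) := by
  classical
  let _ : Fintype (MulAction.orbitRel.Quotient (Subgroup.zpowers g) X) := Fintype.ofFinite _
  rw [← (fixedEquiv g).finrank_eq, Module.finrank_fintype_fun_eq_card, Nat.card_eq_fintype_card]

end fixed

section scott

variable {X : Type*} [Fintype X]

/-- `permOp g - 1`. -/
noncomputable def dOp (g : Equiv.Perm X) : (X → ℚ) →ₗ[ℚ] (X → ℚ) := permOp g - LinearMap.id

omit [Fintype X] in
lemma dOp_apply (g : Equiv.Perm X) (v : X → ℚ) : dOp g v = permOp g v - v := rfl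

/-- The map `β : V → R_t × R_s × R_u`. -/
noncomputable def scottBeta (s t : Equiv.Perm X) :
    (X → ℚ) →ₗ[ℚ] (LinearMap.range (dOp t) × LinearMap.range (dOp s) ×
      LinearMap.range (dOp (s * t)⁻¹)) :=
  LinearMap.prod (dOp t).rangeRestrict
    (LinearMap.prod (dOp s).rangeRestrict (dOp (s * t)⁻¹).rangeRestrict)

/-- The map `δ : R_t × R_s × R_u → V`. -/
noncomputable def scottDelta (s t : Equiv.Perm X) :
    (LinearMap.range (dOp t) × LinearMap.range (dOp s) ×
      LinearMap.range (dOp (s * t)⁻¹)) →ₗ[ℚ] (X → ℚ) :=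
  LinearMap.coprod (LinearMap.range (dOp t)).subtype
    (LinearMap.coprod (permOp t ∘ₗ (LinearMap.range (dOp s)).subtype)
      (permOp (s * t) ∘ₗ (LinearMap.range (dOp (s * t)⁻¹)).subtype))

omit [Fintype X] in
lemma scottDelta_apply (s t : Equiv.Perm X)
    (w : LinearMap.range (dOp t) × LinearMap.range (dOp s) × LinearMap.range (dOp (s * t)⁻¹)) :
    scottDelta s t w = (w.1 : X → ℚ) + (permOp t (w.2.1 : X → ℚ) + permOp (s * t) (w.2.2 : X → ℚ)) := by
  simp [scottDelta]

omit [Fintype X] in
lemma scottBeta_fst (s t : Equiv.Perm X) (v : X → ℚ) :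
    ((scottBeta s t v).1 : X → ℚ) = dOp t v := rfl

omit [Fintype X] in
lemma scottBeta_snd_fst (s t : Equiv.Perm X) (v : X → ℚ) :
    ((scottBeta s t v).2.1 : X → ℚ) = dOp s v := rfl

omit [Fintype X] in
lemma scottBeta_snd_snd (s t : Equiv.Perm X) (v : X → ℚ) :
    ((scottBeta s t v).2.2 : X → ℚ) = dOp (s * t)⁻¹ v := rfl

omit [Fintype X] in
lemma scottDelta_comp_beta (s t : Equiv.Perm X) (v : X → ℚ) :
    scottDelta s t (scottBeta s t v) = 0 := by
  rw [scottDelta_apply, scottBeta_fst, scottBeta_snd_fst, scottBeta_snd_snd]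
  funext x
  simp only [dOp_apply, Pi.add_apply, Pi.sub_apply, permOp_apply, Pi.zero_apply]
  have h1 : (s * t)⁻¹ ((s * t) x) = x := by simp
  have h2 : (s * t) x = s (t x) := rfl
  rw [h1, h2]
  ring

omit [Fintype X] in
lemma dOp_t_mem_range_delta (s t : Equiv.Perm X) (v : X → ℚ) :
    dOp t v ∈ LinearMap.range (scottDelta s t) := by
  refine ⟨(⟨dOp t v, LinearMap.mem_range_self _ v⟩, 0, 0), ?_⟩
  rw [scottDelta_apply]
  simp

omit [Fintype X] in
lemma permOp_inv_apply (g : Equiv.Perm X) (v : X → ℚ) : permOp g (permOp g⁻¹ v) = v := by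
  funext x
  simp

omit [Fintype X] in
lemma permOp_apply_inv (g : Equiv.Perm X) (v : X → ℚ) : permOp g⁻¹ (permOp g v) = v := by
  funext x
  simp

omit [Fintype X] in
/-- The range of `δ` is stable under `permOp t⁻¹`. -/
lemma permOp_t_inv_mem_range_delta (s t : Equiv.Perm X) (w : X → ℚ)
    (hw : w ∈ LinearMap.range (scottDelta s t)) :
    permOp t⁻¹ w ∈ LinearMap.range (scottDelta s t) := by
  have h : permOp t⁻¹ w = w - dOp t (permOp t⁻¹ w) := by
    rw [dOp_apply, permOp_inv_apply]
    abel
  rw [h]
  exact Submodule.sub_mem _ hw (dOp_t_mem_range_delta s t _)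

omit [Fintype X] in
lemma dOp_s_mem_range_delta (s t : Equiv.Perm X) (v : X → ℚ) :
    dOp s v ∈ LinearMap.range (scottDelta s t) := by
  have h1 : permOp t (dOp s v) ∈ LinearMap.range (scottDelta s t) := by
    refine ⟨(0, ⟨dOp s v, LinearMap.mem_range_self _ v⟩, 0), ?_⟩
    rw [scottDelta_apply]
    simp
  have h2 := permOp_t_inv_mem_range_delta s t _ h1
  rwa [permOp_apply_inv] at h2

/-- The subgroup of permutations `g` with `range (dOp g) ≤ range δ`. -/
def goodSubgroup (I : Submodule ℚ (X → ℚ)) : Subgroup (Equiv.Perm X) where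
  carrier := {g | ∀ v, dOp g v ∈ I}
  one_mem' := by
    intro v
    have : dOp (1 : Equiv.Perm X) v = 0 := by
      funext x
      simp [dOp_apply]
    rw [this]
    exact I.zero_mem
  mul_mem' := by
    intro a b ha hb v
    have : dOp (a * b) v = dOp b (permOp a v) + dOp a v := by
      funext x
      simp only [dOp_apply, Pi.sub_apply, Pi.add_apply, permOp_apply]
      have : (a * b) x = a (b x) := rfl
      rw [this]
      ring
    rw [this]
    exact I.add_mem (hb _) (ha _)
  inv_mem' := by
    intro a ha v
    have : dOp a⁻¹ v = - dOp a (permOp a⁻¹ v) := by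
      rw [dOp_apply, dOp_apply, permOp_inv_apply]
      abel
    rw [this]
    exact I.neg_mem (ha _)

omit [Fintype X] in
lemma closure_le_goodSubgroup (s t : Equiv.Perm X) :
    Subgroup.closure {s, t} ≤ goodSubgroup (LinearMap.range (scottDelta s t)) := by
  rw [Subgroup.closure_le]
  intro g hg
  rcases hg with rfl | rfl
  · exact fun v => dOp_s_mem_range_delta _ _ v
  · exact fun v => dOp_t_mem_range_delta _ _ v

omit [Fintype X] in
/-- Differences of basis vectors lie in the range of `δ`. -/
lemma single_sub_single_mem [DecidableEq X] (s t : Equiv.Perm X)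
    (htrans : ∀ x y : X, ∃ g ∈ Subgroup.closure {s, t}, g x = y) (x y : X) :
    (Pi.single x (1 : ℚ) - Pi.single y (1 : ℚ) : X → ℚ) ∈ LinearMap.range (scottDelta s t) := by
  obtain ⟨g, hg, hgx⟩ := htrans x y
  have h := closure_le_goodSubgroup s t hg (Pi.single y (1 : ℚ))
  have e : dOp g (Pi.single y (1 : ℚ)) = (Pi.single x (1 : ℚ) - Pi.single y (1 : ℚ) : X → ℚ) := by
    funext z
    simp only [dOp_apply, Pi.sub_apply, permOp_apply]
    congr 1
    by_cases hz : z = x
    · subst hz
      rw [hgx]
      simp
    · have : g z ≠ y := by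
        intro h'
        apply hz
        apply g.injective
        rw [h', hgx]
      simp [hz, this]
  rwa [e] at h

/-- The coordinate-sum functional. -/
noncomputable def sumFun : (X → ℚ) →ₗ[ℚ] ℚ :=
  ∑ x : X, LinearMap.proj x

lemma sumFun_apply (v : X → ℚ) : sumFun v = ∑ x, v x := by
  simp [sumFun]

lemma ker_sumFun_le (s t : Equiv.Perm X) [Nonempty X]
    (htrans : ∀ x y : X, ∃ g ∈ Subgroup.closure {s, t}, g x = y) :
    LinearMap.ker (sumFun (X := X)) ≤ LinearMap.range (scottDelta s t) := by
  classical
  intro v hv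
  rw [LinearMap.mem_ker, sumFun_apply] at hv
  obtain ⟨x0⟩ := ‹Nonempty X›
  have hv' : v = ∑ x, v x • (Pi.single x (1 : ℚ) - Pi.single x0 (1 : ℚ) : X → ℚ) := by
    funext z
    simp only [Finset.sum_apply, Pi.smul_apply, Pi.sub_apply, smul_eq_mul, mul_sub,
      Finset.sum_sub_distrib, Pi.single_apply, mul_ite, mul_one, mul_zero]
    rw [Finset.sum_ite_eq Finset.univ z v]
    by_cases hz : z = x0
    · simp [hz, hv]
    · simp [hz]
  rw [hv']
  exact Submodule.sum_mem _ fun x _ => Submodule.smul_mem _ _ (single_sub_single_mem s t htrans x x0)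

lemma finrank_ker_sumFun [Nonempty X] :
    finrank ℚ (LinearMap.ker (sumFun (X := X))) + 1 = Fintype.card X := by
  classical
  have h := LinearMap.finrank_range_add_finrank_ker (sumFun (X := X))
  have hsurj : LinearMap.range (sumFun (X := X)) = ⊤ := by
    rw [LinearMap.range_eq_top]
    intro c
    obtain ⟨x0⟩ := ‹Nonempty X›
    refine ⟨Pi.single x0 c, ?_⟩
    rw [sumFun_apply]
    simp
  rw [hsurj, finrank_top, Module.finrank_self, Module.finrank_fintype_fun_eq_card] at h
  omega

omit [Fintype X] in
lemma finrank_ker_beta_le (s t : Equiv.Perm X) [Nonempty X]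
    (htrans : ∀ x y : X, ∃ g ∈ Subgroup.closure {s, t}, g x = y) :
    finrank ℚ (LinearMap.ker (scottBeta s t)) ≤ 1 := by
  have hle : LinearMap.ker (scottBeta s t) ≤ Submodule.span ℚ {(fun _ => (1 : ℚ) : X → ℚ)} := by
    intro v hv
    rw [LinearMap.mem_ker] at hv
    have h1 : dOp t v = 0 := by
      rw [← scottBeta_fst s t v, hv]; rfl
    have h2 : dOp s v = 0 := by
      rw [← scottBeta_snd_fst s t v, hv]; rfl
    have ht : t ∈ fixer v := fun x => by
      have := congrFun h1 x
      simp only [dOp_apply, Pi.sub_apply, permOp_apply, Pi.zero_apply] at this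
      exact sub_eq_zero.1 this
    have hs : s ∈ fixer v := fun x => by
      have := congrFun h2 x
      simp only [dOp_apply, Pi.sub_apply, permOp_apply, Pi.zero_apply] at this
      exact sub_eq_zero.1 this
    have hcl : Subgroup.closure {s, t} ≤ fixer v := by
      rw [Subgroup.closure_le]
      intro g hg
      rcases hg with rfl | rfl
      · exact hs
      · exact ht
    obtain ⟨x0⟩ := ‹Nonempty X›
    rw [Submodule.mem_span_singleton]
    refine ⟨v x0, ?_⟩
    funext y
    obtain ⟨g, hg, hgy⟩ := htrans x0 y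
    have := hcl hg x0
    rw [hgy] at this
    simp [this]
  calc finrank ℚ (LinearMap.ker (scottBeta s t))
      ≤ finrank ℚ (Submodule.span ℚ {(fun _ => (1 : ℚ) : X → ℚ)}) :=
        Submodule.finrank_mono hle
    _ ≤ 1 := by
        have := finrank_span_le_card (R := ℚ) ({(fun _ => (1 : ℚ) : X → ℚ)} : Set (X → ℚ))
        simpa using this

lemma finrank_range_dOp (g : Equiv.Perm X) :
    finrank ℚ (LinearMap.range (dOp g)) +
      Nat.card (MulAction.orbitRel.Quotient (Subgroup.zpowers g) X) = Fintype.card X := by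
  have h := LinearMap.finrank_range_add_finrank_ker (dOp g)
  rw [Module.finrank_fintype_fun_eq_card] at h
  rw [← finrank_fixed g]
  exact h

/-- **Scott's inequality** for a transitive pair of permutations. -/
theorem scott_inequality [Nonempty X] (s t : Equiv.Perm X)
    (htrans : ∀ x y : X, ∃ g ∈ Subgroup.closure {s, t}, g x = y) :
    Nat.card (MulAction.orbitRel.Quotient (Subgroup.zpowers s) X)
      + Nat.card (MulAction.orbitRel.Quotient (Subgroup.zpowers t) X)
      + Nat.card (MulAction.orbitRel.Quotient (Subgroup.zpowers (s * t)) X) ≤ Fintype.card X + 2 := by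
  have hs := finrank_range_dOp s
  have ht := finrank_range_dOp t
  have hu := finrank_range_dOp (s * t)⁻¹
  rw [Subgroup.zpowers_inv] at hu
  have hD : finrank ℚ (LinearMap.range (dOp t) × LinearMap.range (dOp s) ×
      LinearMap.range (dOp (s * t)⁻¹)) =
      finrank ℚ (LinearMap.range (dOp t)) + (finrank ℚ (LinearMap.range (dOp s)) +
        finrank ℚ (LinearMap.range (dOp (s * t)⁻¹))) := by
    rw [Module.finrank_prod, Module.finrank_prod]
  have hδ := LinearMap.finrank_range_add_finrank_ker (scottDelta s t)
  have hβ := LinearMap.finrank_range_add_finrank_ker (scottBeta s t)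
  rw [Module.finrank_fintype_fun_eq_card] at hβ
  have hle : LinearMap.range (scottBeta s t) ≤ LinearMap.ker (scottDelta s t) := by
    rintro _ ⟨v, rfl⟩
    rw [LinearMap.mem_ker]
    exact scottDelta_comp_beta s t v
  have h1 : finrank ℚ (LinearMap.range (scottBeta s t)) ≤
      finrank ℚ (LinearMap.ker (scottDelta s t)) := Submodule.finrank_mono hle
  have h2 : finrank ℚ (LinearMap.ker (sumFun (X := X))) ≤
      finrank ℚ (LinearMap.range (scottDelta s t)) :=
    Submodule.finrank_mono (ker_sumFun_le s t htrans)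
  have h3 := finrank_ker_sumFun (X := X)
  have h4 := finrank_ker_beta_le s t htrans
  omega

end scott

section parity

variable {X : Type*}

lemma orbitRel_iff_sameCycle (g : Equiv.Perm X) (x y : X) :
    (MulAction.orbitRel (Subgroup.zpowers g) X).r x y ↔ g.SameCycle y x := by
  rw [MulAction.orbitRel_apply, MulAction.mem_orbit_iff]
  constructor
  · rintro ⟨⟨h, hh⟩, rfl⟩
    obtain ⟨k, rfl⟩ := Subgroup.mem_zpowers_iff.1 hh
    exact ⟨k, rfl⟩
  · rintro ⟨k, hk⟩
    exact ⟨⟨g ^ k, ⟨k, rfl⟩⟩, hk⟩

open Classical in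
/-- Auxiliary map: a point goes to itself if fixed, and to its cycle otherwise. -/
noncomputable def orbitAux [Fintype X] (g : Equiv.Perm X) (x : X) :
    (Function.fixedPoints g) ⊕ {c // c ∈ g.cycleFactorsFinset} :=
  if h : g x = x then Sum.inl ⟨x, h⟩
  else Sum.inr ⟨g.cycleOf x,
    Equiv.Perm.cycleOf_mem_cycleFactorsFinset_iff.2 (Equiv.Perm.mem_support.2 h)⟩

open Classical in
lemma orbitAux_eq_iff [Fintype X] (g : Equiv.Perm X) (x y : X) :
    orbitAux g x = orbitAux g y ↔ g.SameCycle x y := by
  unfold orbitAux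
  constructor
  · intro h
    by_cases hx : g x = x <;> by_cases hy : g y = y
    · rw [dif_pos hx, dif_pos hy] at h
      have := Sum.inl.inj h
      have : x = y := congrArg Subtype.val this
      rw [this]
    · rw [dif_pos hx, dif_neg hy] at h
      exact absurd h (by simp)
    · rw [dif_neg hx, dif_pos hy] at h
      exact absurd h (by simp)
    · rw [dif_neg hx, dif_neg hy] at h
      have := Sum.inr.inj h
      have : g.cycleOf x = g.cycleOf y := congrArg Subtype.val this
      exact (Equiv.Perm.sameCycle_iff_cycleOf_eq_of_mem_support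
        (Equiv.Perm.mem_support.2 hx) (Equiv.Perm.mem_support.2 hy)).2 this
  · intro h
    by_cases hx : g x = x
    · have hy : g y = y := h.apply_eq_self_iff.1 hx
      have hxy : x = y := h.eq_of_left hx
      subst hxy
      rfl
    · have hy : ¬ g y = y := fun hy => hx (h.apply_eq_self_iff.2 hy)
      rw [dif_neg hx, dif_neg hy]
      congr 1
      apply Subtype.ext
      exact h.cycleOf_eq

open Classical in
lemma orbitAux_surjective [Fintype X] (g : Equiv.Perm X) : Function.Surjective (orbitAux g) := by
  rintro (⟨x, hx⟩ | ⟨c, hc⟩)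
  · refine ⟨x, ?_⟩
    unfold orbitAux
    have hx' : g x = x := hx
    rw [dif_pos hx']
  · have hcyc := (Equiv.Perm.mem_cycleFactorsFinset_iff.1 hc).1
    obtain ⟨a, ha, -⟩ := hcyc
    have ha' : a ∈ c.support := Equiv.Perm.mem_support.2 ha
    have hca : c = g.cycleOf a := Equiv.Perm.cycle_is_cycleOf ha' hc
    have hga : a ∈ g.support := by
      rw [← Equiv.Perm.cycleOf_mem_cycleFactorsFinset_iff, ← hca]
      exact hc
    refine ⟨a, ?_⟩
    unfold orbitAux
    rw [dif_neg (Equiv.Perm.mem_support.1 hga)]
    congr 1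
    apply Subtype.ext
    exact hca.symm

open Classical in
/-- The number of orbits of `zpowers g` is the number of fixed points plus the number of
nontrivial cycles. -/
lemma card_orbits_eq [Fintype X] (g : Equiv.Perm X) :
    Nat.card (MulAction.orbitRel.Quotient (Subgroup.zpowers g) X) =
      (Fintype.card X - g.cycleType.sum) + Multiset.card g.cycleType := by
  let φ : MulAction.orbitRel.Quotient (Subgroup.zpowers g) X →
      (Function.fixedPoints g) ⊕ {c // c ∈ g.cycleFactorsFinset} :=
    fun q => Quotient.liftOn' q (orbitAux g) (by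
      intro a b hab
      have hab' : (MulAction.orbitRel (Subgroup.zpowers g) X).r a b := hab
      rw [orbitRel_iff_sameCycle] at hab'
      exact (orbitAux_eq_iff g a b).2 hab'.symm)
  have hinj : Function.Injective φ := by
    intro q₁ q₂ h
    induction q₁ using Quotient.inductionOn' with
    | h a =>
      induction q₂ using Quotient.inductionOn' with
      | h b =>
        apply Quotient.sound'
        show (MulAction.orbitRel (Subgroup.zpowers g) X).r a b
        rw [orbitRel_iff_sameCycle]
        exact ((orbitAux_eq_iff g a b).1 h).symm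
  have hsurj : Function.Surjective φ := by
    intro y
    obtain ⟨x, hx⟩ := orbitAux_surjective g y
    exact ⟨Quotient.mk'' x, hx⟩
  rw [Nat.card_congr (Equiv.ofBijective φ ⟨hinj, hsurj⟩), Nat.card_eq_fintype_card,
    Fintype.card_sum, Equiv.Perm.card_fixedPoints, Fintype.card_coe, Equiv.Perm.cycleType_def,
    Multiset.card_map]
  rfl

open Classical in
lemma sign_eq_neg_one_pow [Fintype X] (g : Equiv.Perm X) :
    Equiv.Perm.sign g = (-1 : ℤˣ) ^ (Fintype.card X +
      Nat.card (MulAction.orbitRel.Quotient (Subgroup.zpowers g) X)) := by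
  rw [card_orbits_eq, Equiv.Perm.sign_of_cycleType]
  have hle := g.sum_cycleType_le
  have e : Fintype.card X + (Fintype.card X - g.cycleType.sum + Multiset.card g.cycleType) =
      (g.cycleType.sum + Multiset.card g.cycleType) + 2 * (Fintype.card X - g.cycleType.sum) := by
    omega
  rw [e, pow_add _ _ (2 * _), pow_mul]
  simp

open Classical in
/-- Parity part of the Riemann-Hurwitz count for a pair of permutations. -/
theorem scott_parity [Fintype X] (s t : Equiv.Perm X) :
    Even (Fintype.card X
      + Nat.card (MulAction.orbitRel.Quotient (Subgroup.zpowers s) X)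
      + Nat.card (MulAction.orbitRel.Quotient (Subgroup.zpowers t) X)
      + Nat.card (MulAction.orbitRel.Quotient (Subgroup.zpowers (s * t)) X)) := by
  have hs := sign_eq_neg_one_pow s
  have ht := sign_eq_neg_one_pow t
  have hst := sign_eq_neg_one_pow (s * t)
  rw [map_mul, hs, ht, ← pow_add] at hst
  set n := Fintype.card X
  set a := Nat.card (MulAction.orbitRel.Quotient (Subgroup.zpowers s) X)
  set b := Nat.card (MulAction.orbitRel.Quotient (Subgroup.zpowers t) X)
  set c := Nat.card (MulAction.orbitRel.Quotient (Subgroup.zpowers (s * t)) X)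
  have h1 : ((-1 : ℤˣ) ^ (n + a + (n + b))) * (-1 : ℤˣ) ^ (n + c) = 1 := by
    rw [hst, ← pow_add, ← two_mul, pow_mul]
    simp
  rw [← pow_add] at h1
  have hne : (-1 : ℤˣ) ≠ 1 := by decide
  have h2 : Even (n + a + (n + b) + (n + c)) := (neg_one_pow_eq_one_iff_even hne).1 h1
  have h3 : n + a + (n + b) + (n + c) = (n + a + b + c) + 2 * n := by ring
  rw [h3] at h2
  exact (Nat.even_add.1 h2).2 (even_two_mul n)

end parity

/-- WP-Scott: Ree/Scott inequality + parity for a transitive pair of permutations. -/
theorem wp_scott {X : Type*} [Fintype X] [Nonempty X] (s t : Equiv.Perm X)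
    (htrans : ∀ x y : X, ∃ g ∈ Subgroup.closure {s, t}, g x = y) :
    Nat.card (MulAction.orbitRel.Quotient (Subgroup.zpowers s) X)
      + Nat.card (MulAction.orbitRel.Quotient (Subgroup.zpowers t) X)
      + Nat.card (MulAction.orbitRel.Quotient (Subgroup.zpowers (s * t)) X) ≤ Fintype.card X + 2
    ∧ Even (Fintype.card X
      + Nat.card (MulAction.orbitRel.Quotient (Subgroup.zpowers s) X)
      + Nat.card (MulAction.orbitRel.Quotient (Subgroup.zpowers t) X)
      + Nat.card (MulAction.orbitRel.Quotient (Subgroup.zpowers (s * t)) X)) :=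
  ⟨scott_inequality s t htrans, scott_parity s t⟩

end Fermat.Agent.S24
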